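/-
ET (lead): shared definitions for the Frobenius-trace package `Lib/ET`.

`W : WeierstrassCurve (ZMod ℓ)`, `k` a field which is a `ZMod ℓ`-algebra, `E = W⁄k`.
* `etFrobAlg ℓ k : k →ₐ[ZMod ℓ] k`, `x ↦ x ^ ℓ`;
* `etFrob k W : (W⁄k).Point →+ (W⁄k).Point`, the Frobenius endomorphism on points;
* `etA W : ℤ`, the trace of Frobenius `ℓ + 1 - #W(𝔽_ℓ)` (the Prelude's `traceOfFrobenius`).
-/
import Mathlib
import Fermat.Prelude.Def_FLTPrelim_Modularity

set_option autoImplicit false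

open WeierstrassCurve WeierstrassCurve.Affine
open scoped WeierstrassCurve.Affine

noncomputable section

namespace Fermat.Agent.ET

variable (ℓ : ℕ) [Fact ℓ.Prime] (k : Type*) [Field k] [Algebra (ZMod ℓ) k]

theorem et_charP : CharP k ℓ :=
  charP_of_injective_algebraMap (algebraMap (ZMod ℓ) k).injective ℓ

/-- the Frobenius `x ↦ x ^ ℓ` as a `ZMod ℓ`-algebra homomorphism -/
def etFrobAlg : k →ₐ[ZMod ℓ] k :=
  haveI := et_charP ℓ k
  { toRingHom := frobenius k ℓ
    commutes' := fun c => by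
      show (algebraMap (ZMod ℓ) k c) ^ ℓ = algebraMap (ZMod ℓ) k c
      rw [← map_pow, ZMod.pow_card] }

@[simp] theorem etFrobAlg_apply (x : k) : etFrobAlg ℓ k x = x ^ ℓ := rfl

variable {ℓ} [DecidableEq k]

/-- the Frobenius endomorphism on the points of `W⁄k`, `W` defined over `ZMod ℓ` -/
def etFrob (W : WeierstrassCurve (ZMod ℓ)) : (W⁄k).Point →+ (W⁄k).Point :=
  Point.map (W' := W.toAffine) (etFrobAlg ℓ k)

theorem etFrob_zero (W : WeierstrassCurve (ZMod ℓ)) : etFrob k W 0 = 0 := rfl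

theorem etFrob_some (W : WeierstrassCurve (ZMod ℓ)) {x y : k} (h : (W⁄k).Nonsingular x y) :
    etFrob k W (Point.some _ _ h) = Point.some (x ^ ℓ) (y ^ ℓ)
      ((W.toAffine.baseChange_nonsingular (etFrobAlg ℓ k).injective ..).mpr h) := rfl

/-- the trace of Frobenius `ℓ + 1 - #W(𝔽_ℓ)` -/
def etA (W : WeierstrassCurve (ZMod ℓ)) : ℤ := W.traceOfFrobenius

theorem etA_eq (W : WeierstrassCurve (ZMod ℓ)) :
    etA W = (ℓ : ℤ) + 1 - (Nat.card W.toAffine.Point : ℤ) := by
  unfold etA WeierstrassCurve.traceOfFrobenius WeierstrassCurve.card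
  rw [Nat.card_eq_fintype_card, ZMod.card]

theorem etA_reductionMod (W : WeierstrassCurve ℤ) : etA (W.reductionMod ℓ) = W.apOfModel ℓ := rfl

end Fermat.Agent.ET
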