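/-
ET-C (helper7), part 1: **the function field `K` of `W⁄k`** (`W` a Weierstrass curve over `ZMod ℓ`,
`k` a field over `ZMod ℓ`), its coordinate functions `x, y`, the generic point `η`, and the
evaluation homomorphisms `k[W] → K'`.

* `EtcK W k = (W⁄k).FunctionField`, `etcX`, `etcY`, `etc_equation`, `etc_nonsingular`, `etcEta`;
* `etcEv xR yR : k[X][Y] →+* K'`, `etcEv_polynomial`, `etcLiftCR` (the induced `k[W] →ₐ[k] K'` for a
  point `(xR, yR)` of `W⁄K'`), `etcLiftCR_injective` (if `xR` is transcendental over `k`);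
* `etc_transcendental_X`, `etc_gen`, `etc_finrank`, `etc_isSeparable`.
-/
import Mathlib
import Fermat.Agent.Lib.ET.Defs
import Fermat.Agent.Lib.Curve.Defs

set_option autoImplicit false
set_option linter.unusedSectionVars false
set_option linter.unusedVariables false

open WeierstrassCurve WeierstrassCurve.Affine Polynomial IntermediateField
open scoped WeierstrassCurve.Affine Polynomial.Bivariate

noncomputable section

namespace Fermat.Agent.ET

variable {ℓ : ℕ} [Fact ℓ.Prime] (W : WeierstrassCurve (ZMod ℓ)) (k : Type*) [Field k]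
  [Algebra (ZMod ℓ) k]

/-- the function field of `W⁄k` -/
abbrev EtcK : Type _ := (W⁄k).FunctionField

/-- the coordinate function `x` -/
def etcX : EtcK W k :=
  algebraMap (W⁄k).CoordinateRing (EtcK W k) (CoordinateRing.mk (W⁄k) (C X))

/-- the coordinate function `y` -/
def etcY : EtcK W k :=
  algebraMap (W⁄k).CoordinateRing (EtcK W k) (CoordinateRing.mk (W⁄k) Y)

/-! ### Evaluation homomorphisms -/

section Ev

variable {k}
variable {K' : Type*} [Field K'] [Algebra k K'] [Algebra (ZMod ℓ) K'] [IsScalarTower (ZMod ℓ) k K']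

/-- evaluation of bivariate polynomials over `k` at a point of the plane over `K'` -/
def etcEv (xR yR : K') : k[X][Y] →+* K' :=
  eval₂RingHom (eval₂RingHom (algebraMap k K') xR) yR

theorem etcEv_apply (xR yR : K') (p : k[X][Y]) :
    etcEv xR yR p = (p.map (mapRingHom (algebraMap k K'))).evalEval xR yR :=
  eval₂_eval₂RingHom_apply (algebraMap k K') xR yR p

@[simp] theorem etcEv_Y (xR yR : K') : etcEv (k := k) xR yR Y = yR := by
  simp [etcEv]

@[simp] theorem etcEv_C_X (xR yR : K') : etcEv (k := k) xR yR (C X) = xR := by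
  simp [etcEv]

@[simp] theorem etcEv_C_C (xR yR : K') (a : k) :
    etcEv (k := k) xR yR (C (C a)) = algebraMap k K' a := by
  simp [etcEv]

theorem etcEv_C (xR yR : K') (p : k[X]) : etcEv (k := k) xR yR (C p) = aeval xR p := by
  simp [etcEv, aeval_def]

/-- the Weierstrass polynomial evaluates to the Weierstrass equation -/
theorem etcEv_polynomial (xR yR : K') :
    etcEv xR yR (W⁄k).polynomial = (W⁄K').polynomial.evalEval xR yR := by
  rw [etcEv_apply, baseChange_polynomial W.toAffine (Algebra.ofId k K')]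
  rfl

theorem etcEv_polynomial_eq_zero {xR yR : K'} (h : (W⁄K').Equation xR yR) :
    etcEv (k := k) xR yR (W⁄k).polynomial = 0 := by
  rw [etcEv_polynomial]
  exact h

theorem etc_eval₂_polynomial_eq_zero {xR yR : K'} (h : (W⁄K').Equation xR yR) :
    eval₂ (eval₂RingHom (algebraMap k K') xR) yR (W⁄k).polynomial = 0 :=
  etcEv_polynomial_eq_zero (k := k) W h

/-- the `k`-algebra homomorphism `k[W] → K'` of a point `(xR, yR)` of `W⁄K'` -/
def etcLiftCR {xR yR : K'} (h : (W⁄K').Equation xR yR) : (W⁄k).CoordinateRing →ₐ[k] K' :=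
  { AdjoinRoot.lift (eval₂RingHom (algebraMap k K') xR) yR
      (etc_eval₂_polynomial_eq_zero (k := k) W h) with
    commutes' := fun a => by
      show AdjoinRoot.lift _ yR _ (AdjoinRoot.mk _ (C (C a))) = _
      rw [AdjoinRoot.lift_mk]
      simp }

theorem etcLiftCR_mk {xR yR : K'} (h : (W⁄K').Equation xR yR) (p : k[X][Y]) :
    etcLiftCR W h (CoordinateRing.mk (W⁄k) p) = etcEv xR yR p := by
  show AdjoinRoot.lift (eval₂RingHom (algebraMap k K') xR) yR
    (etc_eval₂_polynomial_eq_zero (k := k) W h) (AdjoinRoot.mk _ p) = _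
  rw [AdjoinRoot.lift_mk]
  rfl

end Ev

/-! ### Injectivity of the evaluation at a transcendental point -/

section Inj

variable {k}
variable {K' : Type*} [Field K'] [Algebra k K'] [Algebra (ZMod ℓ) K'] [IsScalarTower (ZMod ℓ) k K']

theorem etcLiftCR_algebraMap {xR yR : K'} (h : (W⁄K').Equation xR yR) (p : k[X]) :
    etcLiftCR W h (algebraMap k[X] (W⁄k).CoordinateRing p) = aeval xR p := by
  have : algebraMap k[X] (W⁄k).CoordinateRing p = CoordinateRing.mk (W⁄k) (C p) := rfl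
  rw [this, etcLiftCR_mk, etcEv_C]

/-- the evaluation at a point with transcendental `x`-coordinate is injective on `k[W]` -/
theorem etcLiftCR_injective {xR yR : K'} (h : (W⁄K').Equation xR yR)
    (hx : Transcendental k xR) : Function.Injective (etcLiftCR (k := k) W h) := by
  rw [injective_iff_map_eq_zero]
  intro c hc
  by_contra hc0
  have : Module.Finite k[X] (W⁄k).CoordinateRing :=
    Module.Finite.of_basis (CoordinateRing.basis (W⁄k))
  have hn : Algebra.norm k[X] c ≠ 0 := Algebra.norm_ne_zero_iff.mpr hc0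
  obtain ⟨p, q, rfl⟩ := CoordinateRing.exists_smul_basis_eq c
  have h1 : algebraMap k[X] (W⁄k).CoordinateRing (Algebra.norm k[X]
      (p • (1 : (W⁄k).CoordinateRing) + q • CoordinateRing.mk (W⁄k) Y)) = _ :=
    CoordinateRing.coe_norm_smul_basis (W' := W⁄k) p q
  have h2 : CoordinateRing.mk (W⁄k) (C p + C q * (X : k[X][Y])) =
      p • (1 : (W⁄k).CoordinateRing) + q • CoordinateRing.mk (W⁄k) Y := by
    rw [CoordinateRing.smul, CoordinateRing.smul, map_add, map_mul, mul_one]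
  have h3 : etcLiftCR (k := k) W h
      (algebraMap k[X] (W⁄k).CoordinateRing (Algebra.norm k[X]
        (p • (1 : (W⁄k).CoordinateRing) + q • CoordinateRing.mk (W⁄k) Y))) = 0 := by
    rw [h1, map_mul, h2, map_mul, hc, zero_mul]
  rw [etcLiftCR_algebraMap] at h3
  exact hx ⟨_, hn, h3⟩

end Inj

/-! ### The generic point -/

/-- the canonical map `k[W] → K` is evaluation at `(x, y)` -/
theorem etc_algebraMap_mk (p : k[X][Y]) :
    algebraMap (W⁄k).CoordinateRing (EtcK W k) (CoordinateRing.mk (W⁄k) p) =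
      etcEv (etcX W k) (etcY W k) p := by
  have h : (algebraMap (W⁄k).CoordinateRing (EtcK W k)).comp (CoordinateRing.mk (W⁄k)) =
      etcEv (etcX W k) (etcY W k) := by
    refine Polynomial.ringHom_ext (fun q => ?_) ?_
    · have h2 : ((algebraMap (W⁄k).CoordinateRing (EtcK W k)).comp
          (CoordinateRing.mk (W⁄k))).comp (C : k[X] →+* k[X][Y]) =
          (etcEv (etcX W k) (etcY W k)).comp (C : k[X] →+* k[X][Y]) := by
        refine Polynomial.ringHom_ext (fun a => ?_) ?_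
        · show algebraMap (W⁄k).CoordinateRing (EtcK W k) (CoordinateRing.mk (W⁄k) (C (C a))) =
            etcEv (etcX W k) (etcY W k) (C (C a))
          rw [etcEv_C_C]
          exact (IsScalarTower.algebraMap_apply k (W⁄k).CoordinateRing (EtcK W k) a).symm
        · show algebraMap (W⁄k).CoordinateRing (EtcK W k) (CoordinateRing.mk (W⁄k) (C X)) =
            etcEv (etcX W k) (etcY W k) (C X)
          rw [etcEv_C_X]
          rfl
      exact congrArg (fun f => f q) h2
    · show algebraMap (W⁄k).CoordinateRing (EtcK W k) (CoordinateRing.mk (W⁄k) Y) =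
        etcEv (etcX W k) (etcY W k) Y
      rw [etcEv_Y]
      rfl
  exact congrArg (fun f => f p) h

/-- the generic point lies on the curve -/
theorem etc_equation : (W⁄(EtcK W k)).Equation (etcX W k) (etcY W k) := by
  show (W⁄(EtcK W k)).polynomial.evalEval (etcX W k) (etcY W k) = 0
  rw [← etcEv_polynomial (k := k), ← etc_algebraMap_mk]
  have : CoordinateRing.mk (W⁄k) (W⁄k).polynomial = 0 := AdjoinRoot.mk_self
  rw [this, map_zero]

/-- the generic point is nonsingular -/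
theorem etc_nonsingular [W.IsElliptic] :
    (W⁄(EtcK W k)).Nonsingular (etcX W k) (etcY W k) := by
  have hΔ : W.Δ ≠ 0 := W.isUnit_Δ.ne_zero
  have hΔ' : (W⁄(EtcK W k)).Δ ≠ 0 := by
    show (W.map (algebraMap (ZMod ℓ) (EtcK W k))).Δ ≠ 0
    rw [WeierstrassCurve.map_Δ]
    exact (_root_.map_ne_zero _).mpr hΔ
  exact (equation_iff_nonsingular_of_Δ_ne_zero hΔ').mp (etc_equation W k)

/-- **the generic point `η = (x, y)`** -/
def etcEta [W.IsElliptic] : (W⁄(EtcK W k)).Point := .some _ _ (etc_nonsingular W k)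

/-- the evaluation at the generic point is the canonical map -/
theorem etcLiftCR_generic (c : (W⁄k).CoordinateRing) :
    etcLiftCR W (etc_equation W k) c = algebraMap (W⁄k).CoordinateRing (EtcK W k) c := by
  obtain ⟨p, rfl⟩ := AdjoinRoot.mk_surjective c
  rw [etcLiftCR_mk]
  exact (etc_algebraMap_mk W k p).symm

/-! ### `K / k(x)` has degree `2` -/

/-- polynomials in `x` -/
theorem etc_aeval_X (p : k[X]) :
    aeval (etcX W k) p = algebraMap (W⁄k).CoordinateRing (EtcK W k)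
      (algebraMap k[X] (W⁄k).CoordinateRing p) := by
  have : algebraMap k[X] (W⁄k).CoordinateRing p = CoordinateRing.mk (W⁄k) (C p) := rfl
  rw [this, etc_algebraMap_mk, etcEv_C]

/-- the image of `p + q Y` in `K` -/
theorem etc_algebraMap_smul_basis (p q : k[X]) :
    algebraMap (W⁄k).CoordinateRing (EtcK W k)
      (p • (1 : (W⁄k).CoordinateRing) + q • CoordinateRing.mk (W⁄k) Y) =
      aeval (etcX W k) p + aeval (etcX W k) q * etcY W k := by
  rw [Algebra.smul_def, Algebra.smul_def, mul_one, map_add, map_mul, ← etc_aeval_X, ← etc_aeval_X]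
  rfl

theorem etc_transcendental_X : Transcendental k (etcX W k) := by
  rintro ⟨p, hp0, hp⟩
  rw [etc_aeval_X] at hp
  have h1 := IsFractionRing.injective (W⁄k).CoordinateRing (EtcK W k) (hp.trans (map_zero _).symm)
  have h2 := FaithfulSMul.algebraMap_injective k[X] (W⁄k).CoordinateRing
    (h1.trans (map_zero _).symm)
  exact hp0 h2

/-- `1, y` are linearly independent over `k[x]` -/
theorem etc_eq_zero_of_add_mul_Y {p q : k[X]}
    (h : aeval (etcX W k) p + aeval (etcX W k) q * etcY W k = 0) : p = 0 ∧ q = 0 := by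
  rw [← etc_algebraMap_smul_basis] at h
  have h1 := IsFractionRing.injective (W⁄k).CoordinateRing (EtcK W k) (h.trans (map_zero _).symm)
  exact CoordinateRing.smul_basis_eq_zero h1

/-- elements of `k(x)` as fractions of polynomials with nonzero denominator -/
theorem etc_exists_rep {a : EtcK W k} (ha : a ∈ k⟮etcX W k⟯) :
    ∃ r s : k[X], s ≠ 0 ∧ a * aeval (etcX W k) s = aeval (etcX W k) r := by
  obtain ⟨r, s, rfl⟩ := (mem_adjoin_simple_iff k a).mp ha
  by_cases hs : aeval (etcX W k) s = 0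
  · refine ⟨0, 1, one_ne_zero, ?_⟩
    rw [hs, div_zero, zero_mul, map_zero]
  · refine ⟨r, s, fun h0 => hs (by rw [h0, map_zero]), ?_⟩
    rw [div_mul_cancel₀ _ hs]

/-- `y ∉ k(x)` -/
theorem etcY_notMem : etcY W k ∉ k⟮etcX W k⟯ := by
  intro h
  obtain ⟨r, s, hs, e⟩ := etc_exists_rep W k h
  have h1 : aeval (etcX W k) (-r) + aeval (etcX W k) s * etcY W k = 0 := by
    rw [map_neg, ← e]
    ring
  exact hs (etc_eq_zero_of_add_mul_Y W k h1).2

/-- `x` as an element of `k(x)` -/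
def etcXg : ↥k⟮etcX W k⟯ := AdjoinSimple.gen k (etcX W k)

/-- the coefficient `u = a₁ x + a₃ ∈ k(x)` -/
def etcU : ↥k⟮etcX W k⟯ :=
  algebraMap (ZMod ℓ) ↥k⟮etcX W k⟯ W.a₁ * etcXg W k + algebraMap (ZMod ℓ) ↥k⟮etcX W k⟯ W.a₃

/-- the coefficient `v = x³ + a₂ x² + a₄ x + a₆ ∈ k(x)` -/
def etcV : ↥k⟮etcX W k⟯ :=
  etcXg W k ^ 3 + algebraMap (ZMod ℓ) ↥k⟮etcX W k⟯ W.a₂ * etcXg W k ^ 2 +
    algebraMap (ZMod ℓ) ↥k⟮etcX W k⟯ W.a₄ * etcXg W k + algebraMap (ZMod ℓ) ↥k⟮etcX W k⟯ W.a₆

/-- the quadratic polynomial `T² + u T - v` of `y` over `k(x)` -/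
def etcQuad : Polynomial ↥k⟮etcX W k⟯ := X ^ 2 + C (etcU W k) * X - C (etcV W k)

theorem etcQuad_monic : (etcQuad W k).Monic := by
  unfold etcQuad
  have h : (X ^ 2 + C (etcU W k) * X - C (etcV W k) : Polynomial ↥k⟮etcX W k⟯) =
      X ^ 2 + (C (etcU W k) * X - C (etcV W k)) := by ring
  rw [h]
  apply Polynomial.monic_X_pow_add
  refine lt_of_le_of_lt (Polynomial.degree_sub_le _ _) ?_
  rw [max_lt_iff]
  constructor
  · refine lt_of_le_of_lt (Polynomial.degree_C_mul_X_le _) ?_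
    norm_num
  · refine lt_of_le_of_lt Polynomial.degree_C_le ?_
    norm_num

theorem etcQuad_natDegree : (etcQuad W k).natDegree = 2 := by
  unfold etcQuad
  have h : (X ^ 2 + C (etcU W k) * X - C (etcV W k) : Polynomial ↥k⟮etcX W k⟯) =
      X ^ 2 + (C (etcU W k) * X - C (etcV W k)) := by ring
  rw [h, Polynomial.natDegree_add_eq_left_of_degree_lt, Polynomial.natDegree_X_pow]
  rw [Polynomial.degree_X_pow]
  refine lt_of_le_of_lt (Polynomial.degree_sub_le _ _) ?_
  rw [max_lt_iff]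
  constructor
  · refine lt_of_le_of_lt (Polynomial.degree_C_mul_X_le _) ?_
    norm_num
  · refine lt_of_le_of_lt Polynomial.degree_C_le ?_
    norm_num

theorem coe_etcXg : ((etcXg W k : ↥k⟮etcX W k⟯) : EtcK W k) = etcX W k := rfl

theorem etc_coe_algebraMap (a : ZMod ℓ) :
    ((algebraMap (ZMod ℓ) ↥k⟮etcX W k⟯ a : ↥k⟮etcX W k⟯) : EtcK W k) =
      algebraMap (ZMod ℓ) (EtcK W k) a := rfl

theorem etcQuad_aeval : aeval (etcY W k) (etcQuad W k) = 0 := by
  have h := (Affine.equation_iff (W := W⁄(EtcK W k)) (etcX W k) (etcY W k)).mp (etc_equation W k)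
  unfold etcQuad
  simp only [map_sub, map_add, map_mul, map_pow, aeval_X, aeval_C]
  show etcY W k ^ 2 + ((etcU W k : ↥k⟮etcX W k⟯) : EtcK W k) * etcY W k -
    ((etcV W k : ↥k⟮etcX W k⟯) : EtcK W k) = 0
  unfold etcU etcV
  push_cast
  simp only [coe_etcXg, etc_coe_algebraMap]
  have e1 : (W⁄(EtcK W k)).a₁ = algebraMap (ZMod ℓ) (EtcK W k) W.a₁ := rfl
  have e2 : (W⁄(EtcK W k)).a₂ = algebraMap (ZMod ℓ) (EtcK W k) W.a₂ := rfl
  have e3 : (W⁄(EtcK W k)).a₃ = algebraMap (ZMod ℓ) (EtcK W k) W.a₃ := rfl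
  have e4 : (W⁄(EtcK W k)).a₄ = algebraMap (ZMod ℓ) (EtcK W k) W.a₄ := rfl
  have e6 : (W⁄(EtcK W k)).a₆ = algebraMap (ZMod ℓ) (EtcK W k) W.a₆ := rfl
  rw [e1, e2, e3, e4, e6] at h
  linear_combination h

theorem etcY_isIntegral : IsIntegral ↥k⟮etcX W k⟯ (etcY W k) :=
  ⟨etcQuad W k, etcQuad_monic W k, etcQuad_aeval W k⟩


/-- `K = k(x)(y)` -/
theorem etc_adjoin_Y_eq_top : (↥k⟮etcX W k⟯)⟮etcY W k⟯ = ⊤ := by
  rw [eq_top_iff]
  intro z _
  obtain ⟨a, b, hb, rfl⟩ := IsFractionRing.div_surjective (A := (W⁄k).CoordinateRing) z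
  have hmem : ∀ c : (W⁄k).CoordinateRing,
      algebraMap (W⁄k).CoordinateRing (EtcK W k) c ∈ (↥k⟮etcX W k⟯)⟮etcY W k⟯ := by
    intro c
    obtain ⟨p, q, rfl⟩ := CoordinateRing.exists_smul_basis_eq c
    rw [etc_algebraMap_smul_basis]
    have hp : ∀ r : k[X], aeval (etcX W k) r ∈ (↥k⟮etcX W k⟯)⟮etcY W k⟯ := by
      intro r
      have h1 : aeval (etcX W k) r ∈ k⟮etcX W k⟯ := by
        have h2 : aeval (etcX W k) r ∈ Algebra.adjoin k {etcX W k} := by
          rw [Algebra.adjoin_singleton_eq_range_aeval]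
          exact ⟨r, rfl⟩
        exact algebra_adjoin_le_adjoin k _ h2
      exact (IntermediateField.algebraMap_mem (↥k⟮etcX W k⟯)⟮etcY W k⟯ (⟨_, h1⟩ : ↥k⟮etcX W k⟯))
    exact add_mem (hp p) (mul_mem (hp q) (mem_adjoin_simple_self _ _))
  exact div_mem (hmem a) (hmem b)

theorem etc_finiteDimensional : FiniteDimensional ↥k⟮etcX W k⟯ (EtcK W k) := by
  have : FiniteDimensional ↥k⟮etcX W k⟯ ↥(↥k⟮etcX W k⟯)⟮etcY W k⟯ :=
    adjoin.finiteDimensional (etcY_isIntegral W k)
  have e : (↥k⟮etcX W k⟯)⟮etcY W k⟯ ≃ₐ[↥k⟮etcX W k⟯] EtcK W k :=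
    (equivOfEq (etc_adjoin_Y_eq_top W k)).trans topEquiv
  exact LinearEquiv.finiteDimensional e.toLinearEquiv

/-- `x` is a separating... generator: `K / k(x)` is finite -/
theorem etc_gen : Fermat.Agent.Curve.IsFunctionFieldGen k (EtcK W k) (etcX W k) :=
  ⟨etc_transcendental_X W k, etc_finiteDimensional W k⟩

/-- the minimal polynomial of `y` over `k(x)` -/
theorem etc_minpoly_Y : minpoly ↥k⟮etcX W k⟯ (etcY W k) = etcQuad W k := by
  have hd : minpoly ↥k⟮etcX W k⟯ (etcY W k) ∣ etcQuad W k :=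
    minpoly.dvd _ _ (etcQuad_aeval W k)
  have hint := etcY_isIntegral W k
  have h1 : (minpoly ↥k⟮etcX W k⟯ (etcY W k)).natDegree ≤ 2 := by
    rw [← etcQuad_natDegree W k]
    exact Polynomial.natDegree_le_of_dvd hd (etcQuad_monic W k).ne_zero
  have h2 : 0 < (minpoly ↥k⟮etcX W k⟯ (etcY W k)).natDegree := minpoly.natDegree_pos hint
  have h3 : (minpoly ↥k⟮etcX W k⟯ (etcY W k)).natDegree ≠ 1 := by
    intro h
    rw [minpoly.natDegree_eq_one_iff] at h
    obtain ⟨a, ha⟩ := h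
    apply etcY_notMem W k
    rw [← ha]
    exact a.2
  have h4 : (minpoly ↥k⟮etcX W k⟯ (etcY W k)).natDegree = (etcQuad W k).natDegree := by
    rw [etcQuad_natDegree]
    omega
  exact (Polynomial.eq_of_monic_of_dvd_of_natDegree_le (minpoly.monic hint) (etcQuad_monic W k) hd
    h4.ge).symm

/-- `[K : k(x)] = 2` -/
theorem etc_finrank : Module.finrank ↥k⟮etcX W k⟯ (EtcK W k) = 2 := by
  have e : (↥k⟮etcX W k⟯)⟮etcY W k⟯ ≃ₐ[↥k⟮etcX W k⟯] EtcK W k :=
    (equivOfEq (etc_adjoin_Y_eq_top W k)).trans topEquiv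
  rw [← e.toLinearEquiv.finrank_eq, adjoin.finrank (etcY_isIntegral W k), etc_minpoly_Y,
    etcQuad_natDegree]

/-! ### `K / k(x)` is separable -/

/-- the `2`-division polynomial `4X³ + b₂X² + 2b₄X + b₆` over `ZMod ℓ` -/
def etcDisc : (ZMod ℓ)[X] := C 4 * X ^ 3 + C W.b₂ * X ^ 2 + C (2 * W.b₄) * X + C W.b₆

theorem etcDisc_ne_zero [W.IsElliptic] : etcDisc W ≠ 0 := by
  have hΔ : W.Δ ≠ 0 := W.isUnit_Δ.ne_zero
  intro h
  have h3 : (etcDisc W).coeff 3 = 0 := by rw [h, coeff_zero]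
  have h2 : (etcDisc W).coeff 2 = 0 := by rw [h, coeff_zero]
  have h1 : (etcDisc W).coeff 1 = 0 := by rw [h, coeff_zero]
  have h0 : (etcDisc W).coeff 0 = 0 := by rw [h, coeff_zero]
  unfold etcDisc at h3 h2 h1 h0
  simp [coeff_X, coeff_C, coeff_X_pow] at h3 h2 h1 h0
  apply hΔ
  rw [WeierstrassCurve.Δ]
  linear_combination (-2 * W.b₄ ^ 3) * h3 + (-W.b₂ * W.b₈ + 9 * W.b₄ * W.b₆) * h2 +
    (-27 * W.b₆) * h0

/-- `x` is transcendental over the prime field -/
theorem etc_transcendental_X_prime : Transcendental (ZMod ℓ) (etcX W k) :=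
  (etc_transcendental_X W k).restrictScalars (algebraMap (ZMod ℓ) k).injective

/-- the discriminant `u² + 4 v` of `etcQuad` is `4x³ + b₂x² + 2b₄x + b₆` -/
theorem etc_disc_eq :
    ((etcU W k ^ 2 + 4 * etcV W k : ↥k⟮etcX W k⟯) : EtcK W k) = aeval (etcX W k) (etcDisc W) := by
  unfold etcU etcV etcDisc
  have e4 : ((4 : ↥k⟮etcX W k⟯) : EtcK W k) = 4 := map_ofNat (algebraMap ↥k⟮etcX W k⟯ (EtcK W k)) 4
  push_cast
  simp only [coe_etcXg, etc_coe_algebraMap, map_add, map_mul, map_pow, aeval_X, aeval_C, e4]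
  rw [WeierstrassCurve.b₂, WeierstrassCurve.b₄, WeierstrassCurve.b₆]
  simp only [map_add, map_mul, map_pow, map_ofNat]
  ring

theorem etc_disc_ne_zero [W.IsElliptic] : etcU W k ^ 2 + 4 * etcV W k ≠ 0 := by
  intro h
  have h1 := etc_disc_eq W k
  rw [h] at h1
  exact etc_transcendental_X_prime W k ⟨etcDisc W, etcDisc_ne_zero W, h1.symm⟩

theorem etcQuad_separable [W.IsElliptic] : (etcQuad W k).Separable := by
  rw [Polynomial.separable_def]
  have hD := etc_disc_ne_zero W k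
  set D := etcU W k ^ 2 + 4 * etcV W k with hDdef
  have hder : derivative (etcQuad W k) = 2 * X + C (etcU W k) := by
    unfold etcQuad
    simp
    ring
  rw [hder]
  refine ⟨C (-4 * D⁻¹), C D⁻¹ * (2 * X + C (etcU W k)), ?_⟩
  have h1 : (C (-4 * D⁻¹) * etcQuad W k + C D⁻¹ * (2 * X + C (etcU W k)) * (2 * X + C (etcU W k)) :
      Polynomial ↥k⟮etcX W k⟯) = C D⁻¹ * C D := by
    rw [hDdef]
    unfold etcQuad
    simp only [map_mul, map_neg, map_add, map_pow, map_ofNat]
    ring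
  rw [h1, ← map_mul, inv_mul_cancel₀ hD, map_one]

/-- **`K / k(x)` is separable** -/
theorem etc_isSeparable [W.IsElliptic] : Algebra.IsSeparable ↥k⟮etcX W k⟯ (EtcK W k) := by
  have hsep : IsSeparable ↥k⟮etcX W k⟯ (etcY W k) := by
    show (minpoly ↥k⟮etcX W k⟯ (etcY W k)).Separable
    rw [etc_minpoly_Y]
    exact etcQuad_separable W k
  have := (isSeparable_adjoin_simple_iff_isSeparable ↥k⟮etcX W k⟯ (EtcK W k)).mpr hsep
  refine ⟨fun z => ?_⟩
  refine isSeparable_of_mem_isSeparable ↥k⟮etcX W k⟯ (EtcK W k)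
    (L := (↥k⟮etcX W k⟯)⟮etcY W k⟯) ?_
  rw [etc_adjoin_Y_eq_top]
  exact mem_top

end Fermat.Agent.ET
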