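/-
ET-C (helper7), part 2: **pull-backs and constants** for the function field `K = EtcK W k`.

* `etcPull W k h hx : K →ₐ[k] K'` for a point `(xR, yR)` of `W⁄K'` with `xR` transcendental over `k`
  (`etcPull_X`, `etcPull_Y`, `map_etcPull_eta`), uniqueness `etc_algHom_ext`, and every `k`-embedding
  of `K` is such a pull-back (`etc_algHom_eq_pull`);
* constants: over an algebraically closed `k` the algebraic elements of an extension are the
  elements of `k` (`etc_mem_range_of_isAlgebraic`, `etc_const`), and points with algebraic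
  `x`-coordinate come from `W(k)` (`etc_constPoint_gen`, `etc_constPoint`);
* compatibility of `Point.map` with Frobenius (`etc_map_frob`).
-/
import Mathlib
import Fermat.Agent.Lib.ET.FunField

set_option autoImplicit false
set_option linter.unusedSectionVars false
set_option linter.unusedVariables false

open WeierstrassCurve WeierstrassCurve.Affine Polynomial IntermediateField
open scoped WeierstrassCurve.Affine Polynomial.Bivariate

noncomputable section

namespace Fermat.Agent.ET

variable {ℓ : ℕ} [Fact ℓ.Prime] (W : WeierstrassCurve (ZMod ℓ)) (k : Type*) [Field k]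
  [Algebra (ZMod ℓ) k]

/-! ### Pull-backs -/

section Pull

variable {K' : Type*} [Field K'] [Algebra k K'] [Algebra (ZMod ℓ) K'] [IsScalarTower (ZMod ℓ) k K']

/-- **the pull-back `R* : K →ₐ[k] K'`** along a point `R = (xR, yR)` of `W⁄K'` whose `x`-coordinate is
transcendental over `k` -/
def etcPull {xR yR : K'} (h : (W⁄K').Equation xR yR) (hx : Transcendental k xR) :
    EtcK W k →ₐ[k] K' :=
  IsFractionRing.liftAlgHom (g := etcLiftCR (k := k) W h) (etcLiftCR_injective W h hx)

theorem etcPull_algebraMap {xR yR : K'} (h : (W⁄K').Equation xR yR) (hx : Transcendental k xR)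
    (c : (W⁄k).CoordinateRing) :
    etcPull W k h hx (algebraMap (W⁄k).CoordinateRing (EtcK W k) c) = etcLiftCR W h c := by
  unfold etcPull
  rw [IsFractionRing.liftAlgHom_apply, IsFractionRing.lift_algebraMap]
  rfl

theorem etcPull_mk {xR yR : K'} (h : (W⁄K').Equation xR yR) (hx : Transcendental k xR)
    (p : k[X][Y]) :
    etcPull W k h hx (algebraMap (W⁄k).CoordinateRing (EtcK W k) (CoordinateRing.mk (W⁄k) p)) =
      etcEv xR yR p := by
  rw [etcPull_algebraMap, etcLiftCR_mk]

@[simp] theorem etcPull_X {xR yR : K'} (h : (W⁄K').Equation xR yR) (hx : Transcendental k xR) :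
    etcPull W k h hx (etcX W k) = xR := by
  unfold etcX
  rw [etcPull_mk, etcEv_C_X]

@[simp] theorem etcPull_Y {xR yR : K'} (h : (W⁄K').Equation xR yR) (hx : Transcendental k xR) :
    etcPull W k h hx (etcY W k) = yR := by
  unfold etcY
  rw [etcPull_mk, etcEv_Y]

/-- `R*` maps the generic point to `R` -/
theorem map_etcPull_eta [W.IsElliptic] [DecidableEq (EtcK W k)] [DecidableEq K'] {xR yR : K'}
    (h : (W⁄K').Nonsingular xR yR) (hx : Transcendental k xR) :
    Point.map (W' := W.toAffine) (etcPull W k h.1 hx) (etcEta W k) = .some xR yR h := by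
  unfold etcEta
  rw [Point.map_some]
  simp only [Point.some.injEq]
  exact ⟨etcPull_X W k h.1 hx, etcPull_Y W k h.1 hx⟩

variable {k}

/-- algebra homomorphisms commute with the evaluation of bivariate polynomials -/
theorem etcEv_algHom {K'' : Type*} [Field K''] [Algebra k K''] (f : K' →ₐ[k] K'') (xR yR : K')
    (p : k[X][Y]) : f (etcEv xR yR p) = etcEv (f xR) (f yR) p := by
  have h : (f : K' →+* K'').comp (etcEv xR yR) = etcEv (k := k) (f xR) (f yR) := by
    refine Polynomial.ringHom_ext (fun q => ?_) ?_
    · have h2 : ((f : K' →+* K'').comp (etcEv xR yR)).comp (C : k[X] →+* k[X][Y]) =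
          (etcEv (k := k) (f xR) (f yR)).comp (C : k[X] →+* k[X][Y]) := by
        refine Polynomial.ringHom_ext (fun a => ?_) ?_
        · show f (etcEv xR yR (C (C a))) = etcEv (f xR) (f yR) (C (C a))
          rw [etcEv_C_C, etcEv_C_C, AlgHom.commutes]
        · show f (etcEv xR yR (C X)) = etcEv (k := k) (f xR) (f yR) (C X)
          rw [etcEv_C_X, etcEv_C_X]
      exact congrArg (fun g => g q) h2
    · show f (etcEv xR yR Y) = etcEv (k := k) (f xR) (f yR) Y
      rw [etcEv_Y, etcEv_Y]
  exact congrArg (fun g => g p) h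

/-- a `k`-algebra homomorphism on `K` is evaluation at the image of the generic point -/
theorem etc_algHom_algebraMap_mk (f : EtcK W k →ₐ[k] K') (p : k[X][Y]) :
    f (algebraMap (W⁄k).CoordinateRing (EtcK W k) (CoordinateRing.mk (W⁄k) p)) =
      etcEv (f (etcX W k)) (f (etcY W k)) p := by
  rw [etc_algebraMap_mk, etcEv_algHom]

/-- **a `k`-algebra homomorphism on `K` is determined by the images of `x` and `y`** -/
theorem etc_algHom_ext (f g : EtcK W k →ₐ[k] K') (hx : f (etcX W k) = g (etcX W k))
    (hy : f (etcY W k) = g (etcY W k)) : f = g := by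
  have h : (f : EtcK W k →+* K') = (g : EtcK W k →+* K') := by
    refine IsLocalization.ringHom_ext (nonZeroDivisors (W⁄k).CoordinateRing) ?_
    refine RingHom.ext (fun c => ?_)
    obtain ⟨p, rfl⟩ := AdjoinRoot.mk_surjective c
    show f (algebraMap (W⁄k).CoordinateRing (EtcK W k) (CoordinateRing.mk (W⁄k) p)) =
      g (algebraMap (W⁄k).CoordinateRing (EtcK W k) (CoordinateRing.mk (W⁄k) p))
    rw [etc_algHom_algebraMap_mk, etc_algHom_algebraMap_mk, hx, hy]
  exact AlgHom.ext (fun z => congrArg (fun φ : EtcK W k →+* K' => φ z) h)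

/-- the image of the generic point under a `k`-embedding lies on the curve -/
theorem etc_algHom_equation (f : EtcK W k →ₐ[k] K') :
    (W⁄K').Equation (f (etcX W k)) (f (etcY W k)) :=
  (W.toAffine.baseChange_equation f.injective _ _).mpr (etc_equation W k)

/-- the image of `x` under a `k`-embedding is transcendental -/
theorem etc_algHom_transcendental (f : EtcK W k →ₐ[k] K') : Transcendental k (f (etcX W k)) :=
  fun h => etc_transcendental_X W k ((isAlgebraic_algHom_iff f f.injective).mp h)

/-- **every `k`-embedding of `K` is a pull-back** -/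
theorem etc_algHom_eq_pull (f : EtcK W k →ₐ[k] K') :
    f = etcPull W k (etc_algHom_equation W f) (etc_algHom_transcendental W f) :=
  etc_algHom_ext W _ _ (etcPull_X W k _ _).symm (etcPull_Y W k _ _).symm

/-- the pull-back along the generic point is the identity -/
theorem etcPull_generic :
    etcPull W k (etc_equation W k) (etc_transcendental_X W k) = AlgHom.id k (EtcK W k) :=
  etc_algHom_ext W _ _ (etcPull_X W k _ _) (etcPull_Y W k _ _)

/-- composition of a pull-back with an embedding -/
theorem etcPull_comp {K'' : Type*} [Field K''] [Algebra k K''] [Algebra (ZMod ℓ) K'']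
    [IsScalarTower (ZMod ℓ) k K''] (g : K' →ₐ[k] K'') {xR yR : K'} (h : (W⁄K').Equation xR yR)
    (hx : Transcendental k xR) (h' : (W⁄K'').Equation (g xR) (g yR))
    (hx' : Transcendental k (g xR)) :
    g.comp (etcPull W k h hx) = etcPull W k h' hx' := by
  refine etc_algHom_ext W _ _ ?_ ?_
  · rw [AlgHom.comp_apply, etcPull_X, etcPull_X]
  · rw [AlgHom.comp_apply, etcPull_Y, etcPull_Y]

/-- a `k`-embedding of `K` is determined by the image of the generic point -/
theorem etc_algHom_ext_eta [W.IsElliptic] [DecidableEq (EtcK W k)] [DecidableEq K']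
    (f g : EtcK W k →ₐ[k] K')
    (h : Point.map (W' := W.toAffine) f (etcEta W k) = Point.map (W' := W.toAffine) g (etcEta W k)) :
    f = g := by
  unfold etcEta at h
  rw [Point.map_some, Point.map_some] at h
  simp only [Point.some.injEq] at h
  exact etc_algHom_ext W f g h.1 h.2

end Pull

/-! ### Constants -/

section Const

variable {k}
variable {K' : Type*} [Field K'] [Algebra k K']

/-- over an algebraically closed field, algebraic elements of an extension are constants -/
theorem etc_mem_range_of_isAlgebraic [IsAlgClosed k] {a : K'} (ha : IsAlgebraic k a) :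
    a ∈ (algebraMap k K').range :=
  minpoly.mem_range_of_degree_eq_one k a
    (IsAlgClosed.degree_eq_one_of_irreducible k (minpoly.irreducible ha.isIntegral))

theorem etc_transcendental_of_notMem_gen [IsAlgClosed k] {a : K'}
    (ha : a ∉ (algebraMap k K').range) : Transcendental k a :=
  fun h => ha (etc_mem_range_of_isAlgebraic h)

/-- a monic quadratic polynomial -/
theorem etc_quad_monic {R : Type*} [CommRing R] [Nontrivial R] (u v : R) :
    (X ^ 2 + C u * X - C v : R[X]).Monic := by
  have h : (X ^ 2 + C u * X - C v : R[X]) = X ^ 2 + (C u * X - C v) := by ring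
  rw [h]
  apply Polynomial.monic_X_pow_add
  refine lt_of_le_of_lt (Polynomial.degree_sub_le _ _) ?_
  rw [max_lt_iff]
  constructor
  · refine lt_of_le_of_lt (Polynomial.degree_C_mul_X_le _) ?_
    norm_num
  · refine lt_of_le_of_lt Polynomial.degree_C_le ?_
    norm_num

variable [Algebra (ZMod ℓ) K'] [IsScalarTower (ZMod ℓ) k K']

/-- the `y`-coordinate of a point with constant `x`-coordinate is integral over `k` -/
theorem etc_isIntegral_Y_of_const {a : k} {yR : K'}
    (h : (W⁄K').Equation (algebraMap k K' a) yR) : IsIntegral k yR := by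
  refine ⟨X ^ 2 + C (algebraMap (ZMod ℓ) k W.a₁ * a + algebraMap (ZMod ℓ) k W.a₃) * X -
    C (a ^ 3 + algebraMap (ZMod ℓ) k W.a₂ * a ^ 2 + algebraMap (ZMod ℓ) k W.a₄ * a +
      algebraMap (ZMod ℓ) k W.a₆), etc_quad_monic _ _, ?_⟩
  have h' := (Affine.equation_iff (W := W⁄K') _ _).mp h
  have e1 : (W⁄K').a₁ = algebraMap k K' (algebraMap (ZMod ℓ) k W.a₁) :=
    IsScalarTower.algebraMap_apply (ZMod ℓ) k K' W.a₁
  have e2 : (W⁄K').a₂ = algebraMap k K' (algebraMap (ZMod ℓ) k W.a₂) :=
    IsScalarTower.algebraMap_apply (ZMod ℓ) k K' W.a₂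
  have e3 : (W⁄K').a₃ = algebraMap k K' (algebraMap (ZMod ℓ) k W.a₃) :=
    IsScalarTower.algebraMap_apply (ZMod ℓ) k K' W.a₃
  have e4 : (W⁄K').a₄ = algebraMap k K' (algebraMap (ZMod ℓ) k W.a₄) :=
    IsScalarTower.algebraMap_apply (ZMod ℓ) k K' W.a₄
  have e6 : (W⁄K').a₆ = algebraMap k K' (algebraMap (ZMod ℓ) k W.a₆) :=
    IsScalarTower.algebraMap_apply (ZMod ℓ) k K' W.a₆
  rw [e1, e2, e3, e4, e6] at h'
  simp only [eval₂_sub, eval₂_add, eval₂_mul, eval₂_pow, eval₂_X, eval₂_C, map_add, map_mul,
    map_pow]
  linear_combination h'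

/-- **points with algebraic `x`-coordinate are constant** (`k` algebraically closed) -/
theorem etc_constPoint_gen [IsAlgClosed k] [DecidableEq k] [DecidableEq K'] {xR yR : K'}
    (h : (W⁄K').Nonsingular xR yR) (hx : IsAlgebraic k xR) :
    ∃ T : (W⁄k).Point, Point.baseChange (W' := W.toAffine) k K' T = .some xR yR h := by
  obtain ⟨a, rfl⟩ := etc_mem_range_of_isAlgebraic hx
  obtain ⟨b, rfl⟩ := etc_mem_range_of_isAlgebraic (etc_isIntegral_Y_of_const W h.1).isAlgebraic
  have h' : (W⁄k).Nonsingular a b :=
    (W.toAffine.baseChange_nonsingular (f := Algebra.ofId k K') (algebraMap k K').injective a b).mp h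
  exact ⟨.some a b h', rfl⟩

end Const

/-- algebraic elements of `K` are constants -/
theorem etc_const [IsAlgClosed k] {a : EtcK W k} (ha : IsAlgebraic k a) :
    a ∈ (algebraMap k (EtcK W k)).range :=
  etc_mem_range_of_isAlgebraic ha

theorem etc_transcendental_of_notMem [IsAlgClosed k] {a : EtcK W k}
    (ha : a ∉ (algebraMap k (EtcK W k)).range) : Transcendental k a :=
  etc_transcendental_of_notMem_gen ha

/-- points of `W(K)` with constant `x`-coordinate come from `W(k)` -/
theorem etc_constPoint [IsAlgClosed k] [DecidableEq k] [DecidableEq (EtcK W k)]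
    {xR yR : EtcK W k} (h : (W⁄(EtcK W k)).Nonsingular xR yR)
    (hx : xR ∈ (algebraMap k (EtcK W k)).range) :
    ∃ T : (W⁄k).Point, Point.baseChange (W' := W.toAffine) k (EtcK W k) T = .some xR yR h := by
  obtain ⟨a, rfl⟩ := hx
  exact etc_constPoint_gen W h (isAlgebraic_algebraMap a)

/-- the generic point is not constant -/
theorem etcEta_ne_baseChange [W.IsElliptic] [DecidableEq k] [DecidableEq (EtcK W k)]
    (T : (W⁄k).Point) : etcEta W k ≠ Point.baseChange (W' := W.toAffine) k (EtcK W k) T := by
  intro h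
  rcases T with _ | ⟨a, b, hab⟩
  · exact Point.some_ne_zero _ h
  · unfold etcEta at h
    rw [Point.map_some] at h
    simp only [Point.some.injEq] at h
    exact etc_transcendental_X W k (h.1 ▸ isAlgebraic_algebraMap (R := k) (A := EtcK W k) a)

/-! ### Frobenius -/

section Frob

variable {k}
variable {K₁ K₂ : Type*} [Field K₁] [Field K₂] [Algebra (ZMod ℓ) K₁] [Algebra (ZMod ℓ) K₂]
  [DecidableEq K₁] [DecidableEq K₂]

/-- `Point.map` commutes with the Frobenius endomorphism -/
theorem etc_map_frob (f : K₁ →ₐ[ZMod ℓ] K₂) (P : (W⁄K₁).Point) :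
    Point.map (W' := W.toAffine) f (etFrob K₁ W P) =
      etFrob K₂ W (Point.map (W' := W.toAffine) f P) := by
  have e : f.comp (etFrobAlg ℓ K₁) = (etFrobAlg ℓ K₂).comp f := by
    ext z
    show f (z ^ ℓ) = (f z) ^ ℓ
    rw [map_pow]
  unfold etFrob
  rw [Point.map_map, Point.map_map, e]

variable [Algebra k K₁] [Algebra k K₂] [IsScalarTower (ZMod ℓ) k K₁] [IsScalarTower (ZMod ℓ) k K₂]

theorem etc_map_restrictScalars (f : K₁ →ₐ[k] K₂) (P : (W⁄K₁).Point) :
    Point.map (W' := W.toAffine) (f.restrictScalars (ZMod ℓ)) P =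
      Point.map (W' := W.toAffine) f P := by
  cases P <;> rfl

/-- `Point.map` along a `k`-algebra homomorphism commutes with the Frobenius endomorphism -/
theorem etc_map_frob' (f : K₁ →ₐ[k] K₂) (P : (W⁄K₁).Point) :
    Point.map (W' := W.toAffine) f (etFrob K₁ W P) =
      etFrob K₂ W (Point.map (W' := W.toAffine) f P) := by
  rw [← etc_map_restrictScalars W f (etFrob K₁ W P), ← etc_map_restrictScalars W f P, etc_map_frob]

/-- Frobenius commutes with base change -/
theorem etc_frob_baseChange [DecidableEq k]
    (T : (W⁄k).Point) :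
    etFrob K₁ W (Point.baseChange (W' := W.toAffine) k K₁ T) =
      Point.baseChange (W' := W.toAffine) k K₁ (etFrob k W T) :=
  (etc_map_frob' W (Algebra.ofId k K₁) T).symm

end Frob

end Fermat.Agent.ET
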