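/-
ET-D (lead): kernels of the endomorphisms `α = r φ - s` of `E = W⁄k`.

* `etdAl W L r s` : the endomorphism `r φ - s` of `E(L)`, natural in `L` (`etd_map_al`);
* `etd_ker_const` : a point of `E(Ω)` killed by `α` comes from `E(k)` as soon as `α η ≠ 0`;
* `etd_emb_le` : (upper bound) the number of embeddings of `K` over `R*K`, `R = α η`, is at most
  the order of `ker α` on `E(k)`.
-/
import Mathlib
import Fermat.Agent.Lib.ET.FunFieldPull

set_option autoImplicit false

open WeierstrassCurve WeierstrassCurve.Affine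
open scoped WeierstrassCurve.Affine

noncomputable section

namespace Fermat.Agent.ET

variable {ℓ : ℕ} [Fact ℓ.Prime] (W : WeierstrassCurve (ZMod ℓ))

section Al

variable (L : Type*) [Field L] [Algebra (ZMod ℓ) L] [DecidableEq L]

/-- the endomorphism `r φ - s` of `E(L)` -/
def etdAl (r s : ℤ) : (W⁄L).Point →+ (W⁄L).Point :=
  r • etFrob L W - s • AddMonoidHom.id _

theorem etdAl_apply (r s : ℤ) (P : (W⁄L).Point) :
    etdAl W L r s P = r • etFrob L W P - s • P := rfl

end Al

section Nat

variable {k : Type*} [Field k] [Algebra (ZMod ℓ) k]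
  {K₁ K₂ : Type*} [Field K₁] [Field K₂] [Algebra (ZMod ℓ) K₁] [Algebra (ZMod ℓ) K₂]
  [DecidableEq K₁] [DecidableEq K₂] [Algebra k K₁] [Algebra k K₂]
  [IsScalarTower (ZMod ℓ) k K₁] [IsScalarTower (ZMod ℓ) k K₂]

/-- naturality of `r φ - s` -/
theorem etd_map_al (f : K₁ →ₐ[k] K₂) (r s : ℤ) (P : (W⁄K₁).Point) :
    Point.map (W' := W.toAffine) f (etdAl W K₁ r s P) =
      etdAl W K₂ r s (Point.map (W' := W.toAffine) f P) := by
  rw [etdAl_apply, etdAl_apply, map_sub, map_zsmul, map_zsmul, etc_map_frob']

end Nat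

section Const

variable (k : Type*) [Field k] [Algebra (ZMod ℓ) k] [IsAlgClosed k] [DecidableEq k]
  [W.IsElliptic] [DecidableEq (EtcK W k)]
  {K' : Type*} [Field K'] [Algebra k K'] [Algebra (ZMod ℓ) K'] [IsScalarTower (ZMod ℓ) k K']
  [DecidableEq K']

omit [IsAlgClosed k] [W.IsElliptic] [DecidableEq (EtcK W k)] in
/-- base change of points commutes with `r φ - s` -/
theorem etd_al_baseChange (r s : ℤ) (T : (W⁄k).Point) :
    etdAl W K' r s (Point.baseChange (W' := W.toAffine) k K' T) =
      Point.baseChange (W' := W.toAffine) k K' (etdAl W k r s T) :=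
  (etd_map_al W (Algebra.ofId k K') r s T).symm

/-- **the kernel of `α = r φ - s` consists of constant points**, if `α η ≠ 0` -/
theorem etd_ker_const (r s : ℤ) (hR : etdAl W (EtcK W k) r s (etcEta W k) ≠ 0)
    (T : (W⁄K').Point) (hT : etdAl W K' r s T = 0) :
    ∃ T₀ : (W⁄k).Point, Point.baseChange (W' := W.toAffine) k K' T₀ = T ∧
      etdAl W k r s T₀ = 0 := by
  have key : ∀ T₀ : (W⁄k).Point, Point.baseChange (W' := W.toAffine) k K' T₀ = T →
      etdAl W k r s T₀ = 0 := fun T₀ h0 => by
    apply Point.map_injective (W' := W.toAffine) (Algebra.ofId k K')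
    show Point.baseChange (W' := W.toAffine) k K' _ = _
    rw [← etd_al_baseChange, h0, hT]
    rfl
  rcases T with _ | ⟨xT, yT, hxy⟩
  · exact ⟨0, rfl, key 0 rfl⟩
  · by_cases hx : IsAlgebraic k xT
    · obtain ⟨T₀, hT₀⟩ := etc_constPoint_gen W hxy hx
      exact ⟨T₀, hT₀, key T₀ hT₀⟩
    · exfalso
      apply hR
      have h1 := map_etcPull_eta W k hxy hx
      have h2 := etd_map_al W (etcPull W k hxy.1 hx) r s (etcEta W k)
      rw [h1, hT] at h2
      exact Point.map_injective (W' := W.toAffine) (etcPull W k hxy.1 hx) h2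

end Const

section Emb

open scoped Classical in
/-- **upper bound**: every embedding of `K` over `R*K`, `R = α η`, gives a point of `ker α` on
`E(k)`, injectively. -/
theorem etd_emb_le (k : Type*) [Field k] [Algebra (ZMod ℓ) k] [IsAlgClosed k] [DecidableEq k]
    [W.IsElliptic] [DecidableEq (EtcK W k)] (r s : ℤ)
    {xR yR : EtcK W k} (h : (W⁄(EtcK W k)).Nonsingular xR yR) (hx : Transcendental k xR)
    (hR : etdAl W (EtcK W k) r s (etcEta W k) = .some xR yR h)
    [Finite {T : (W⁄k).Point // etdAl W k r s T = 0}] :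
    Field.finSepDegree (etcPull W k h.1 hx).fieldRange (EtcK W k) ≤
      Nat.card {T : (W⁄k).Point // etdAl W k r s T = 0} := by
  set f := etcPull W k h.1 hx with hf
  set Ω := AlgebraicClosure (EtcK W k)
  have hR0 : etdAl W (EtcK W k) r s (etcEta W k) ≠ 0 := by
    rw [hR]
    exact Point.some_ne_zero _
  have hfη : Point.map (W' := W.toAffine) f (etcEta W k) = .some xR yR h :=
    map_etcPull_eta W k h hx
  let ι : EtcK W k →ₐ[k] Ω := IsScalarTower.toAlgHom k (EtcK W k) Ω
  -- the point attached to an embedding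
  have hex : ∀ σ : Field.Emb f.fieldRange (EtcK W k), ∃ T₀ : (W⁄k).Point,
      Point.baseChange (W' := W.toAffine) k Ω T₀ =
        Point.map (W' := W.toAffine) (σ.restrictScalars k) (etcEta W k) -
          Point.map (W' := W.toAffine) ι (etcEta W k) ∧ etdAl W k r s T₀ = 0 := by
    intro σ
    apply etd_ker_const W k r s hR0
    have hcomp : (σ.restrictScalars k).comp f = ι.comp f := by
      refine AlgHom.ext fun z => ?_
      have hz : f z ∈ f.fieldRange := ⟨z, rfl⟩
      have := σ.commutes ⟨f z, hz⟩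
      exact this
    rw [map_sub, ← etd_map_al, ← etd_map_al, hR, ← hfη, Point.map_map, Point.map_map, hcomp,
      sub_self]
  choose Φ hΦ hΦ0 using hex
  have hinj : Function.Injective fun σ : Field.Emb f.fieldRange (EtcK W k) =>
      (⟨Φ σ, hΦ0 σ⟩ : {T : (W⁄k).Point // etdAl W k r s T = 0}) := by
    intro σ τ hστ
    have h1 : Φ σ = Φ τ := congrArg Subtype.val hστ
    have h2 := hΦ σ
    rw [h1, hΦ τ] at h2
    have h3 : Point.map (W' := W.toAffine) (τ.restrictScalars k) (etcEta W k) =
        Point.map (W' := W.toAffine) (σ.restrictScalars k) (etcEta W k) :=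
      sub_left_injective h2
    have h4 := etc_algHom_ext_eta W _ _ h3
    refine AlgHom.ext fun z => ?_
    exact (DFunLike.congr_fun h4 z).symm
  exact Nat.card_le_card_of_injective _ hinj

end Emb

section Aut

variable {k K : Type*} [Field k] [Field K] [Algebra k K]

/-- a `k`-automorphism of `K` fixing the range of `f` pointwise, as an automorphism over the
range -/
def etdAutOver (f : K →ₐ[k] K) (σ : K ≃ₐ[k] K) (hσ : ∀ z, σ (f z) = f z) :
    K ≃ₐ[f.fieldRange] K :=
  { σ.toRingEquiv with
    commutes' := by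
      rintro ⟨_, z, rfl⟩
      exact hσ z }

theorem etdAutOver_apply (f : K →ₐ[k] K) (σ : K ≃ₐ[k] K) (hσ : ∀ z, σ (f z) = f z) (z : K) :
    etdAutOver f σ hσ z = σ z := rfl

/-- **lower bound**: a family of `k`-automorphisms of `K` fixing `f(K)` has at most `[K : f(K)]`
members -/
theorem etd_card_le_finrank (f : K →ₐ[k] K) [FiniteDimensional f.fieldRange K] {A : Type*}
    (τ : A → (K ≃ₐ[k] K)) (hτ : Function.Injective τ) (hfix : ∀ a z, τ a (f z) = f z) :
    Finite A ∧ Nat.card A ≤ Module.finrank f.fieldRange K := by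
  have hinj : Function.Injective fun a => etdAutOver f (τ a) (hfix a) := by
    intro a b hab
    apply hτ
    ext z
    have := DFunLike.congr_fun hab z
    exact this
  have : Finite (K ≃ₐ[f.fieldRange] K) := inferInstance
  refine ⟨Finite.of_injective _ hinj, ?_⟩
  calc Nat.card A ≤ Nat.card (K ≃ₐ[f.fieldRange] K) := Nat.card_le_card_of_injective _ hinj
    _ ≤ Module.finrank f.fieldRange K := by
      rw [Nat.card_eq_fintype_card]
      exact AlgEquiv.card_le

end Aut

end Fermat.Agent.ET
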