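/-
ET-E1 (helper7): **the fixed points of Frobenius are the `𝔽_ℓ`-points.**

`W : WeierstrassCurve (ZMod ℓ)`, `k` a field over `ZMod ℓ`.
* `ete_mem_range_iff : x ^ ℓ = x ↔ x ∈ (algebraMap (ZMod ℓ) k).range`;
* `eteIncl W k : W.toAffine.Point → (W⁄k).Point`, injective, with range the fixed points of
  `etFrob k W` (`ete_frob_eq_self_iff`);
* `ete_card_frob_fix : Nat.card {T // etFrob k W T = T} = Nat.card W.toAffine.Point`,
  `ete_card_frob_fix_int : (Nat.card {T // etFrob k W T = T} : ℤ) = ℓ + 1 - etA W`,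
  `ete_card_ker_one` (the same for `{T // etdAl W k 1 1 T = 0}`).
-/
import Mathlib
import Fermat.Agent.Lib.ET.Defs
import Fermat.Agent.Lib.ET.Kernel

set_option autoImplicit false
set_option linter.unusedSectionVars false
set_option linter.unusedVariables false

open WeierstrassCurve WeierstrassCurve.Affine Polynomial
open scoped WeierstrassCurve.Affine

noncomputable section

namespace Fermat.Agent.ET

variable {ℓ : ℕ} [Fact ℓ.Prime] (W : WeierstrassCurve (ZMod ℓ)) (k : Type*) [Field k]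
  [Algebra (ZMod ℓ) k]

/-! ### Fixed points of `x ↦ x ^ ℓ` on `k` -/

section Field

variable {k}

theorem ete_algebraMap_pow (a : ZMod ℓ) :
    (algebraMap (ZMod ℓ) k a) ^ ℓ = algebraMap (ZMod ℓ) k a := by
  rw [← map_pow, ZMod.pow_card]

/-- the elements fixed by `x ↦ x ^ ℓ` are the elements of the prime field -/
theorem ete_mem_range_of_pow_eq {x : k} (hx : x ^ ℓ = x) : x ∈ (algebraMap (ZMod ℓ) k).range := by
  classical
  have hℓ : ℓ.Prime := Fact.out
  have hp0 : (X ^ ℓ - X : k[X]) ≠ 0 := FiniteField.X_pow_card_sub_X_ne_zero k hℓ.one_lt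
  have hdeg : (X ^ ℓ - X : k[X]).natDegree = ℓ :=
    FiniteField.X_pow_card_sub_X_natDegree_eq k hℓ.one_lt
  have hroot : ∀ z : k, z ^ ℓ = z → z ∈ (X ^ ℓ - X : k[X]).roots.toFinset := by
    intro z hz
    rw [Multiset.mem_toFinset, mem_roots hp0, IsRoot.def, eval_sub, eval_pow, eval_X, hz, sub_self]
  have hsub : Finset.univ.image (algebraMap (ZMod ℓ) k) ⊆ (X ^ ℓ - X : k[X]).roots.toFinset := by
    intro z hz
    obtain ⟨a, -, rfl⟩ := Finset.mem_image.mp hz
    exact hroot _ (ete_algebraMap_pow a)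
  have hcard : (Finset.univ.image (algebraMap (ZMod ℓ) k)).card = ℓ := by
    rw [Finset.card_image_of_injective _ (algebraMap (ZMod ℓ) k).injective, Finset.card_univ,
      ZMod.card]
  have hle : (X ^ ℓ - X : k[X]).roots.toFinset.card ≤
      (Finset.univ.image (algebraMap (ZMod ℓ) k)).card := by
    rw [hcard]
    calc (X ^ ℓ - X : k[X]).roots.toFinset.card ≤ Multiset.card (X ^ ℓ - X : k[X]).roots :=
          Multiset.toFinset_card_le _
      _ ≤ (X ^ ℓ - X : k[X]).natDegree := Polynomial.card_roots' _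
      _ = ℓ := hdeg
  have heq := Finset.eq_of_subset_of_card_le hsub hle
  have hxm := hroot x hx
  rw [← heq] at hxm
  obtain ⟨a, -, ha⟩ := Finset.mem_image.mp hxm
  exact ⟨a, ha⟩

theorem ete_mem_range_iff {x : k} : x ^ ℓ = x ↔ x ∈ (algebraMap (ZMod ℓ) k).range :=
  ⟨ete_mem_range_of_pow_eq, fun ⟨a, ha⟩ => ha ▸ ete_algebraMap_pow a⟩

end Field

/-! ### The inclusion `W(𝔽_ℓ) → W(k)` -/

/-- the inclusion `W(𝔽_ℓ) → W(k)` -/
def eteIncl : W.toAffine.Point → (W⁄k).Point
  | 0 => 0
  | .some x y h => .some (algebraMap (ZMod ℓ) k x) (algebraMap (ZMod ℓ) k y)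
      ((W.toAffine.map_nonsingular (algebraMap (ZMod ℓ) k).injective x y).mpr h)

theorem eteIncl_zero : eteIncl W k 0 = 0 := rfl

theorem eteIncl_some {x y : ZMod ℓ} (h : W.toAffine.Nonsingular x y) :
    eteIncl W k (.some x y h) = .some (algebraMap (ZMod ℓ) k x) (algebraMap (ZMod ℓ) k y)
      ((W.toAffine.map_nonsingular (algebraMap (ZMod ℓ) k).injective x y).mpr h) := rfl

theorem eteIncl_injective : Function.Injective (eteIncl W k) := by
  rintro (_ | ⟨x, y, h⟩) (_ | ⟨x', y', h'⟩) hPQ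
  · rfl
  · exact absurd hPQ.symm (Point.some_ne_zero _)
  · exact absurd hPQ (Point.some_ne_zero _)
  · rw [eteIncl_some, eteIncl_some] at hPQ
    simp only [Point.some.injEq] at hPQ ⊢
    exact ⟨(algebraMap (ZMod ℓ) k).injective hPQ.1, (algebraMap (ZMod ℓ) k).injective hPQ.2⟩

variable [DecidableEq k]

/-- the points of `W(𝔽_ℓ)` are fixed by Frobenius -/
theorem ete_frob_incl (P : W.toAffine.Point) : etFrob k W (eteIncl W k P) = eteIncl W k P := by
  rcases P with _ | ⟨x, y, h⟩
  · rfl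
  · rw [eteIncl_some, etFrob_some]
    simp only [Point.some.injEq]
    exact ⟨ete_algebraMap_pow x, ete_algebraMap_pow y⟩

/-- **the fixed points of Frobenius are the points of `W(𝔽_ℓ)`** -/
theorem ete_frob_eq_self_iff (T : (W⁄k).Point) :
    etFrob k W T = T ↔ T ∈ Set.range (eteIncl W k) := by
  constructor
  · intro hT
    rcases T with _ | ⟨x, y, h⟩
    · exact ⟨0, rfl⟩
    · rw [etFrob_some] at hT
      simp only [Point.some.injEq] at hT
      obtain ⟨a, rfl⟩ := ete_mem_range_of_pow_eq hT.1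
      obtain ⟨b, rfl⟩ := ete_mem_range_of_pow_eq hT.2
      exact ⟨.some a b ((W.toAffine.map_nonsingular (algebraMap (ZMod ℓ) k).injective a b).mp h),
        rfl⟩
  · rintro ⟨P, rfl⟩
    exact ete_frob_incl W k P

/-- the bijection between `W(𝔽_ℓ)` and the fixed points of Frobenius -/
def eteFixEquiv : W.toAffine.Point ≃ {T : (W⁄k).Point // etFrob k W T = T} :=
  Equiv.ofBijective (fun P => ⟨eteIncl W k P, ete_frob_incl W k P⟩)
    ⟨fun P Q h => eteIncl_injective W k (congrArg Subtype.val h),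
      fun ⟨T, hT⟩ => by
        obtain ⟨P, hP⟩ := (ete_frob_eq_self_iff W k T).mp hT
        exact ⟨P, Subtype.ext hP⟩⟩

/-- **the number of fixed points of Frobenius** -/
theorem ete_card_frob_fix :
    Nat.card {T : (W⁄k).Point // etFrob k W T = T} = Nat.card W.toAffine.Point :=
  (Nat.card_congr (eteFixEquiv W k)).symm

theorem ete_card_frob_fix_int :
    (Nat.card {T : (W⁄k).Point // etFrob k W T = T} : ℤ) = (ℓ : ℤ) + 1 - etA W := by
  rw [ete_card_frob_fix, etA_eq]
  ring

theorem ete_finite_frob_fix : Finite {T : (W⁄k).Point // etFrob k W T = T} :=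
  Finite.of_equiv _ (eteFixEquiv W k)

/-- the kernel of `φ - 1` -/
theorem ete_al_one_one_eq_zero_iff (T : (W⁄k).Point) :
    etdAl W k 1 1 T = 0 ↔ etFrob k W T = T := by
  rw [etdAl_apply, one_smul, one_smul, sub_eq_zero]

theorem ete_card_ker_one :
    Nat.card {T : (W⁄k).Point // etdAl W k 1 1 T = 0} = Nat.card W.toAffine.Point := by
  rw [← ete_card_frob_fix W k]
  exact Nat.card_congr (Equiv.subtypeEquivRight (ete_al_one_one_eq_zero_iff W k))

theorem ete_card_ker_one_int :
    (Nat.card {T : (W⁄k).Point // etdAl W k 1 1 T = 0} : ℤ) = (ℓ : ℤ) + 1 - etA W := by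
  rw [ete_card_ker_one, etA_eq]
  ring

end Fermat.Agent.ET
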