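/-
ET-D1 (lead): the degree of an injective `k`-endomorphism `f` of a field `K`:
`[K : k(f x)] = [K : k(x)] * [K : f(K)]`.
-/
import Mathlib

set_option autoImplicit false
set_option linter.style.haveILetI false

open IntermediateField

namespace Fermat.Agent.ET

variable {k K : Type*} [Field k] [Field K] [Algebra k K]

theorem etd_finrank_adjoin_map (f : K →ₐ[k] K) (x : K) :
    Module.finrank k⟮f x⟯ K = Module.finrank k⟮x⟯ K * Module.finrank f.fieldRange K := by
  have h1 : (k⟮x⟯).map f = k⟮f x⟯ := by
    rw [IntermediateField.adjoin_map, Set.image_singleton]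
  have h2 : (⊤ : IntermediateField k K).map f = f.fieldRange := (AlgHom.fieldRange_eq_map f).symm
  have hle1 : k⟮f x⟯ ≤ f.fieldRange := by
    rw [← h1, ← h2]
    exact IntermediateField.map_mono f le_top
  have e1 : relfinrank k⟮f x⟯ f.fieldRange = Module.finrank k⟮x⟯ K := by
    rw [← h1, ← h2, relfinrank_map_map, relfinrank_top_right]
  have e2 := relfinrank_mul_relfinrank hle1 (le_top : f.fieldRange ≤ ⊤)
  rw [relfinrank_top_right, relfinrank_top_right, e1] at e2
  exact e2.symm

/-- `K` is finite over `f(K)` if it is finite over `k(f x)` -/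
theorem etd_finiteDimensional_fieldRange (f : K →ₐ[k] K) (x : K)
    [FiniteDimensional k⟮f x⟯ K] : FiniteDimensional f.fieldRange K := by
  have hle1 : k⟮f x⟯ ≤ f.fieldRange := by
    rw [adjoin_simple_le_iff]
    exact ⟨x, rfl⟩
  letI : Algebra k⟮f x⟯ f.fieldRange := (IntermediateField.inclusion hle1).toAlgebra
  haveI : IsScalarTower k⟮f x⟯ f.fieldRange K := IsScalarTower.of_algebraMap_eq fun _ => rfl
  exact Module.Finite.of_restrictScalars_finite k⟮f x⟯ f.fieldRange K

/-- `K` is separable over `f(K)` if it is separable over `k(f x)` -/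
theorem etd_isSeparable_fieldRange (f : K →ₐ[k] K) (x : K)
    [Algebra.IsSeparable k⟮f x⟯ K] : Algebra.IsSeparable f.fieldRange K := by
  have hle1 : k⟮f x⟯ ≤ f.fieldRange := by
    rw [adjoin_simple_le_iff]
    exact ⟨x, rfl⟩
  letI : Algebra k⟮f x⟯ f.fieldRange := (IntermediateField.inclusion hle1).toAlgebra
  haveI : IsScalarTower k⟮f x⟯ f.fieldRange K := IsScalarTower.of_algebraMap_eq fun _ => rfl
  exact Algebra.isSeparable_tower_top_of_isSeparable k⟮f x⟯ f.fieldRange K

end Fermat.Agent.ET
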