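/-
ET-A (lead): the exact addition–subtraction formula on x-coordinates.

Mathlib's `WeierstrassCurve.addSubMap` gives three quadratic forms `F₂, F₁, F₀` in
`(s, t, u) = (x₁x₂, x₁+x₂, 1)`.  We prove that they send `sym2x P Q` to a NONZERO multiple of
`sym2x (P + Q) (P - Q)` for ALL pairs of points (`eta_addSub`), in every characteristic.
-/
import Mathlib

set_option autoImplicit false

open WeierstrassCurve WeierstrassCurve.Affine MvPolynomial

namespace Fermat.Agent.ET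

section Ring

variable {R : Type*} [CommRing R] (W : WeierstrassCurve R)

/-- the values of the three quadratic forms of Mathlib's `addSubMap` -/
noncomputable def etaAS (v : Fin 3 → R) : Fin 3 → R := fun i => (W.addSubMap i).eval v

theorem etaAS_eq (v : Fin 3 → R) : etaAS W v =
    ![v 0 ^ 2 - W.b₄ * v 0 * v 2 - W.b₆ * v 1 * v 2 - W.b₈ * v 2 ^ 2,
      2 * v 1 * v 0 + W.b₂ * v 0 * v 2 + W.b₄ * v 1 * v 2 + W.b₆ * v 2 ^ 2,
      v 1 ^ 2 - 4 * v 0 * v 2] := by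
  funext i
  fin_cases i <;> simp [etaAS, addSubMap]

theorem etaAS_vec (a b c : R) : etaAS W ![a, b, c] =
    ![a ^ 2 - W.b₄ * a * c - W.b₆ * b * c - W.b₈ * c ^ 2,
      2 * b * a + W.b₂ * a * c + W.b₄ * b * c + W.b₆ * c ^ 2,
      b ^ 2 - 4 * a * c] := by
  rw [etaAS_eq]
  rfl

omit [CommRing R] in
theorem eta_vec3_ext {a b c a' b' c' : R} (h0 : a = a') (h1 : b = b') (h2 : c = c') :
    ![a, b, c] = ![a', b', c'] := by
  subst h0 h1 h2
  rfl

omit [CommRing R] in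
theorem eta_vec3_eta (v : Fin 3 → R) : v = ![v 0, v 1, v 2] := by
  funext i
  fin_cases i <;> rfl

/-- the forms are homogeneous of degree two -/
theorem etaAS_smul (c : R) (v : Fin 3 → R) : etaAS W (c • v) = c ^ 2 • etaAS W v := by
  rw [eta_vec3_eta v, Matrix.smul_vec3, etaAS_vec, etaAS_vec, Matrix.smul_vec3]
  exact eta_vec3_ext (by simp only [smul_eq_mul]; ring) (by simp only [smul_eq_mul]; ring)
    (by simp only [smul_eq_mul]; ring)

/-- naturality in the base ring -/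
theorem etaAS_map {S : Type*} [CommRing S] (f : R →+* S) (v : Fin 3 → R) :
    etaAS (W.map f) (f ∘ v) = f ∘ etaAS W v := by
  rw [etaAS_eq, etaAS_eq]
  funext i
  have h2 : f 2 = 2 := map_ofNat f 2
  have h4 : f 4 = 4 := map_ofNat f 4
  fin_cases i <;>
    simp [WeierstrassCurve.map_b₂, WeierstrassCurve.map_b₄, WeierstrassCurve.map_b₆,
      WeierstrassCurve.map_b₈, h2, h4]

/-- Mathlib's `addSubMapCoeff_condition` in terms of `etaAS`: a linear combination of the three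
values with coefficients `etaCo i j v` is the fourth power of the `i`-th coordinate. -/
theorem etaAS_condition [W.IsElliptic] (v : Fin 3 → R) (i : Fin 3) :
    ∑ j : Fin 3, (C (↑W.Δ'⁻¹ : R) * addSubMapCoeff W (i, j)).eval v * etaAS W v j = v i ^ 4 :=
  W.addSubMapCoeff_condition v i

end Ring

variable {F : Type*} [Field F] (W : WeierstrassCurve F)

theorem eta_vec3_ne_zero {a b c : F} (h : ![a, b, c] ≠ 0) : a ≠ 0 ∨ b ≠ 0 ∨ c ≠ 0 := by
  by_contra hc
  push Not at hc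
  apply h
  rw [hc.1, hc.2.1, hc.2.2]
  funext i
  fin_cases i <;> rfl

section Generic

variable {x₁ y₁ x₂ y₂ : F}

theorem eta_sum (h₁ : W.toAffine.Equation x₁ y₁) (h₂ : W.toAffine.Equation x₂ y₂) (hx : x₁ ≠ x₂) :
    (x₁ - x₂) ^ 2 * (W.toAffine.addX x₁ x₂ ((y₁ - y₂) / (x₁ - x₂)) +
      W.toAffine.addX x₁ x₂ ((y₁ - W.toAffine.negY x₂ y₂) / (x₁ - x₂))) =
      2 * (x₁ + x₂) * (x₁ * x₂) + W.b₂ * (x₁ * x₂) + W.b₄ * (x₁ + x₂) + W.b₆ := by
  rw [Affine.equation_iff] at h₁ h₂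
  have hd : x₁ - x₂ ≠ 0 := sub_ne_zero.mpr hx
  simp only [Affine.addX, Affine.negY, WeierstrassCurve.b₂, WeierstrassCurve.b₄,
    WeierstrassCurve.b₆]
  field_simp
  linear_combination 2 * h₁ + 2 * h₂

theorem eta_addX_mul (hx : x₁ ≠ x₂) (y : F) :
    (x₁ - x₂) ^ 2 * W.toAffine.addX x₁ x₂ ((y₁ - y) / (x₁ - x₂)) =
      (y₁ - y) ^ 2 + W.a₁ * (y₁ - y) * (x₁ - x₂) - (W.a₂ + x₁ + x₂) * (x₁ - x₂) ^ 2 := by
  have hd : x₁ - x₂ ≠ 0 := sub_ne_zero.mpr hx
  simp only [Affine.addX]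
  field_simp
  ring

theorem eta_prod (h₁ : W.toAffine.Equation x₁ y₁) (h₂ : W.toAffine.Equation x₂ y₂) (hx : x₁ ≠ x₂) :
    (x₁ - x₂) ^ 2 * (W.toAffine.addX x₁ x₂ ((y₁ - y₂) / (x₁ - x₂)) *
      W.toAffine.addX x₁ x₂ ((y₁ - W.toAffine.negY x₂ y₂) / (x₁ - x₂))) =
      (x₁ * x₂) ^ 2 - W.b₄ * (x₁ * x₂) - W.b₆ * (x₁ + x₂) - W.b₈ := by
  rw [Affine.equation_iff] at h₁ h₂
  have hd : (x₁ - x₂) ^ 2 ≠ 0 := pow_ne_zero 2 (sub_ne_zero.mpr hx)
  apply mul_left_cancel₀ hd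
  have e3 := eta_addX_mul W (y₁ := y₁) hx y₂
  have e4 := eta_addX_mul W (y₁ := y₁) hx (W.toAffine.negY x₂ y₂)
  have e : (x₁ - x₂) ^ 2 * ((x₁ - x₂) ^ 2 * (W.toAffine.addX x₁ x₂ ((y₁ - y₂) / (x₁ - x₂)) *
      W.toAffine.addX x₁ x₂ ((y₁ - W.toAffine.negY x₂ y₂) / (x₁ - x₂)))) =
      ((x₁ - x₂) ^ 2 * W.toAffine.addX x₁ x₂ ((y₁ - y₂) / (x₁ - x₂))) *
      ((x₁ - x₂) ^ 2 * W.toAffine.addX x₁ x₂ ((y₁ - W.toAffine.negY x₂ y₂) / (x₁ - x₂))) := by ring
  rw [e, e3, e4]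
  simp only [Affine.negY, WeierstrassCurve.b₄, WeierstrassCurve.b₆, WeierstrassCurve.b₈]
  linear_combination
    (-x₁^3 + 2*x₁^2*x₂ - x₁^2*W.a₂ + x₁*y₁*W.a₁ + 2*x₁*x₂^2 + x₁*x₂*W.a₁^2 + 4*x₁*x₂*W.a₂
      + x₁*W.a₁*W.a₃ + x₁*W.a₄ + y₁^2 + y₁*W.a₃ - 2*x₂^3 - x₂^2*W.a₁^2 - 2*x₂^2*W.a₂
      - 2*x₂*y₂*W.a₁ - x₂*W.a₁*W.a₃ - 2*y₂^2 - 2*y₂*W.a₃ + W.a₆) * h₁ +
    (-4*x₁^3 + 2*x₁^2*x₂ - x₁^2*W.a₁^2 - 4*x₁^2*W.a₂ + 2*x₁*x₂^2 + x₁*x₂*W.a₁^2 + 4*x₁*x₂*W.a₂
      - x₁*W.a₁*W.a₃ - 2*x₁*W.a₄ - x₂^3 - x₂^2*W.a₂ + x₂*y₂*W.a₁ + x₂*W.a₁*W.a₃ + x₂*W.a₄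
      + y₂^2 + y₂*W.a₃ - W.a₆) * h₂

end Generic

section Dup

variable [DecidableEq F] {x y : F}

omit [DecidableEq F] in
theorem eta_psi_sq (h : W.toAffine.Equation x y) :
    (y - W.toAffine.negY x y) ^ 2 = 4 * x ^ 3 + W.b₂ * x ^ 2 + 2 * W.b₄ * x + W.b₆ := by
  rw [Affine.equation_iff] at h
  simp only [Affine.negY, WeierstrassCurve.b₂, WeierstrassCurve.b₄, WeierstrassCurve.b₆]
  linear_combination 4 * h

theorem eta_dup_x (h : W.toAffine.Equation x y) (hy : y ≠ W.toAffine.negY x y) :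
    (4 * x ^ 3 + W.b₂ * x ^ 2 + 2 * W.b₄ * x + W.b₆) *
      W.toAffine.addX x x (W.toAffine.slope x x y y) =
      x ^ 4 - W.b₄ * x ^ 2 - 2 * W.b₆ * x - W.b₈ := by
  rw [← eta_psi_sq W h, Affine.slope_of_Y_ne rfl hy]
  have hd : y - W.toAffine.negY x y ≠ 0 := sub_ne_zero.mpr hy
  rw [Affine.equation_iff] at h
  simp only [Affine.addX]
  field_simp
  simp only [Affine.negY, WeierstrassCurve.b₄, WeierstrassCurve.b₆, WeierstrassCurve.b₈]
  linear_combination (-8 * x - W.a₁ ^ 2 - 4 * W.a₂) * h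

end Dup

section Main

variable [DecidableEq F] [W.IsElliptic]

/-- the diagonal case -/
theorem eta_addSub_self (P : W.toAffine.Point) :
    ∃ c : F, c ≠ 0 ∧ etaAS W (P.sym2x P) = c • (P + P).sym2x 0 := by
  rcases P with _ | ⟨x, y, h⟩
  · refine ⟨1, one_ne_zero, ?_⟩
    rw [← Affine.Point.zero_def, add_zero, Affine.Point.sym2x_zero_zero, etaAS_vec, one_smul]
    exact eta_vec3_ext (by ring) (by ring) (by ring)
  · by_cases hy : y = W.toAffine.negY x y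
    · -- 2-torsion
      have hne : etaAS W ((Affine.Point.some x y h).sym2x (Affine.Point.some x y h)) ≠ 0 :=
        W.addSubMap_ne_zero (Affine.Point.sym2x_ne_zero _ _)
      have hpsi := eta_psi_sq W h.1
      rw [← hy, sub_self, zero_pow two_ne_zero] at hpsi
      rw [Affine.Point.add_self_of_Y_eq hy, Affine.Point.sym2x_zero_zero]
      rw [Affine.Point.sym2x_some_some, etaAS_vec] at hne ⊢
      refine ⟨x ^ 4 - W.b₄ * x ^ 2 - 2 * W.b₆ * x - W.b₈, ?_, ?_⟩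
      · intro h0
        rcases eta_vec3_ne_zero hne with h' | h' | h'
        · exact h' (by linear_combination h0)
        · exact h' (by linear_combination -hpsi)
        · exact h' (by ring)
      · rw [Matrix.smul_vec3]
        exact eta_vec3_ext (by simp only [smul_eq_mul]; ring)
          (by simp only [smul_eq_mul]; linear_combination -hpsi) (by simp only [smul_eq_mul]; ring)
    · have hpsi := eta_psi_sq W h.1
      have hdup := eta_dup_x W h.1 hy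
      rw [Affine.Point.add_self_of_Y_ne hy, Affine.Point.sym2x_some_zero,
        Affine.Point.sym2x_some_some, etaAS_vec]
      refine ⟨4 * x ^ 3 + W.b₂ * x ^ 2 + 2 * W.b₄ * x + W.b₆, ?_, ?_⟩
      · rw [← hpsi]
        exact pow_ne_zero 2 (sub_ne_zero.mpr hy)
      · rw [Matrix.smul_vec3]
        exact eta_vec3_ext (by simp only [smul_eq_mul]; rw [hdup]; ring)
          (by simp only [smul_eq_mul]; ring) (by simp only [smul_eq_mul]; ring)

/-- **Exact addition–subtraction formula**: Mathlib's quadratic forms `addSubMap` send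
`sym2x P Q` to a nonzero multiple of `sym2x (P + Q) (P - Q)`. -/
theorem eta_addSub (P Q : W.toAffine.Point) :
    ∃ c : F, c ≠ 0 ∧ etaAS W (P.sym2x Q) = c • (P + Q).sym2x (P - Q) := by
  rcases P with _ | ⟨x₁, y₁, h₁⟩
  · refine ⟨1, one_ne_zero, ?_⟩
    rw [← Affine.Point.zero_def, zero_add, zero_sub, Affine.Point.sym2x_neg_right, one_smul]
    rcases Q with _ | ⟨x₂, y₂, h₂⟩
    · rw [← Affine.Point.zero_def, Affine.Point.sym2x_zero_zero, etaAS_vec]
      exact eta_vec3_ext (by ring) (by ring) (by ring)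
    · rw [Affine.Point.sym2x_zero_some, Affine.Point.sym2x_some_some, etaAS_vec]
      exact eta_vec3_ext (by ring) (by ring) (by ring)
  rcases Q with _ | ⟨x₂, y₂, h₂⟩
  · refine ⟨1, one_ne_zero, ?_⟩
    rw [← Affine.Point.zero_def, add_zero, sub_zero, one_smul,
      Affine.Point.sym2x_some_zero, Affine.Point.sym2x_some_some, etaAS_vec]
    exact eta_vec3_ext (by ring) (by ring) (by ring)
  by_cases hx : x₁ = x₂
  · rcases (Affine.Point.X_eq_iff (h₁ := h₁) (h₂ := h₂)).mp hx with hPQ | hPQ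
    · rw [hPQ, sub_self]
      exact eta_addSub_self W _
    · rw [hPQ, Affine.Point.sym2x_neg_left, sub_eq_add_neg, neg_add_cancel,
        Affine.Point.sym2x_comm 0, ← neg_add, Affine.Point.sym2x_neg_left]
      exact eta_addSub_self W _
  · have hs := eta_sum W h₁.1 h₂.1 hx
    have hp := eta_prod W h₁.1 h₂.1 hx
    refine ⟨(x₁ - x₂) ^ 2, pow_ne_zero 2 (sub_ne_zero.mpr hx), ?_⟩
    rw [sub_eq_add_neg (Affine.Point.some x₁ y₁ h₁), Affine.Point.neg_some, Affine.Point.add_of_X_ne hx,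
      Affine.Point.add_of_X_ne hx, Affine.Point.sym2x_some_some, Affine.Point.sym2x_some_some,
      etaAS_vec, Affine.slope_of_X_ne hx, Affine.slope_of_X_ne hx, Matrix.smul_vec3]
    exact eta_vec3_ext (by simp only [smul_eq_mul]; rw [hp]; ring)
      (by simp only [smul_eq_mul]; rw [hs]; ring) (by simp only [smul_eq_mul]; ring)

end Main

end Fermat.Agent.ET
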