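/-
ET-B (lead): heights on `E(K)` for a field `K` with a family of discrete places satisfying the
product formula, and the EXACT parallelogram law `h(P+Q) + h(P-Q) = 2h(P) + 2h(Q)`.

* `EtbPl R₀ K ι` : the interface (valuation subrings `A v`, orders `ord v`, finiteness, product
  formula, the base ring `R₀` of the curve lands in every `A v`);
* `EtbPrim A u` : the vector `u` is `A`-primitive (entries in `A`, one of them a unit);
* `etb_prim_AS` : Mathlib's quadratic forms `addSubMap` preserve primitivity (good reduction);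
* `etbLoc`, `etbH` : local and global heights; `etb_parallelogram`.
-/
import Mathlib
import Fermat.Agent.Lib.ET.AddSub

set_option autoImplicit false

open WeierstrassCurve WeierstrassCurve.Affine
open scoped WeierstrassCurve.Affine

noncomputable section

namespace Fermat.Agent.ET

/-- a family of discrete places of a field `K`, trivial on the image of `R₀`, with the product
formula (all places of degree one) -/
structure EtbPl (R₀ K ι : Type*) [CommRing R₀] [Field K] [Algebra R₀ K] where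
  A : ι → ValuationSubring K
  ord : ι → K → ℤ
  ord_zero : ∀ v, ord v 0 = 0
  ord_mul : ∀ v {f g : K}, f ≠ 0 → g ≠ 0 → ord v (f * g) = ord v f + ord v g
  mem_iff : ∀ v {f : K}, f ≠ 0 → (f ∈ A v ↔ 0 ≤ ord v f)
  const_mem : ∀ v (c : R₀), algebraMap R₀ K c ∈ A v
  finite : ∀ {f : K}, f ≠ 0 → (Function.support fun v => ord v f).Finite
  sum_zero : ∀ {f : K}, f ≠ 0 → ∑ᶠ v, ord v f = 0

section Local

variable {K : Type*} [Field K] (A : ValuationSubring K)

/-- `u` is `A`-primitive: all entries lie in `A` and one of them is a unit of `A` -/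
def EtbPrim {n : ℕ} (u : Fin n → K) : Prop :=
  ∃ u' : Fin n → A, (∀ i, u i = (u' i : K)) ∧ ∃ i, IsUnit (u' i)

variable {A}

theorem etb_prim_unique {n : ℕ} {u w : Fin n → K} (hu : EtbPrim A u) (hw : EtbPrim A w)
    {c d : K} (h : c • u = d • w) : d⁻¹ * c ∈ A := by
  obtain ⟨u', hu', i, hi⟩ := hu
  obtain ⟨w', hw', -⟩ := hw
  obtain ⟨a, ha⟩ := hi.exists_right_inv
  by_cases hd : d = 0
  · rw [hd, inv_zero, zero_mul]
    exact A.zero_mem
  have h1 : c * u i = d * w i := by
    have := congrFun h i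
    simpa only [Pi.smul_apply, smul_eq_mul] using this
  have h2 : (u' i : K) * (a : K) = 1 := by
    have := congrArg (fun z : A => (z : K)) ha
    simpa using this
  have h3 : d⁻¹ * c = (w' i : K) * (a : K) := by
    rw [hu', hw'] at h1
    calc d⁻¹ * c = d⁻¹ * (c * ((u' i : K) * (a : K))) := by rw [h2, mul_one]
      _ = d⁻¹ * ((c * (u' i : K)) * (a : K)) := by ring
      _ = d⁻¹ * ((d * (w' i : K)) * (a : K)) := by rw [h1]
      _ = (d⁻¹ * d) * ((w' i : K) * (a : K)) := by ring
      _ = (w' i : K) * (a : K) := by rw [inv_mul_cancel₀ hd, one_mul]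
  rw [h3]
  exact A.mul_mem _ _ (w' i).2 a.2

/-- the symmetric product of two binary vectors (coefficients of the product of two linear
forms) -/
def etbSym (a b : Fin 2 → K) : Fin 3 → K :=
  ![a 0 * b 0, a 0 * b 1 + a 1 * b 0, a 1 * b 1]

theorem etbSym_smul (c d : K) (a b : Fin 2 → K) :
    etbSym (c • a) (d • b) = (c * d) • etbSym a b := by
  unfold etbSym
  rw [Matrix.smul_vec3]
  exact eta_vec3_ext (by simp only [Pi.smul_apply, smul_eq_mul]; ring)
    (by simp only [Pi.smul_apply, smul_eq_mul]; ring)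
    (by simp only [Pi.smul_apply, smul_eq_mul]; ring)

/-- **Gauss lemma** for linear forms -/
theorem etb_prim_sym {a b : Fin 2 → K} (ha : EtbPrim A a) (hb : EtbPrim A b) :
    EtbPrim A (etbSym a b) := by
  obtain ⟨a', ha', i, hi⟩ := ha
  obtain ⟨b', hb', j, hj⟩ := hb
  refine ⟨![a' 0 * b' 0, a' 0 * b' 1 + a' 1 * b' 0, a' 1 * b' 1], ?_, ?_⟩
  · intro m
    fin_cases m
    · show a 0 * b 0 = _
      rw [ha', hb']; rfl
    · show a 0 * b 1 + a 1 * b 0 = _
      rw [ha', hb', ha', hb']; rfl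
    · show a 1 * b 1 = _
      rw [ha', hb']; rfl
  · by_cases h00 : IsUnit (a' 0) ∧ IsUnit (b' 0)
    · exact ⟨0, h00.1.mul h00.2⟩
    by_cases h11 : IsUnit (a' 1) ∧ IsUnit (b' 1)
    · exact ⟨2, h11.1.mul h11.2⟩
    refine ⟨1, ?_⟩
    show IsUnit (a' 0 * b' 1 + a' 1 * b' 0)
    have hi' : IsUnit (a' 0) ∨ IsUnit (a' 1) := by
      fin_cases i
      · exact Or.inl hi
      · exact Or.inr hi
    have hj' : IsUnit (b' 0) ∨ IsUnit (b' 1) := by
      fin_cases j
      · exact Or.inl hj
      · exact Or.inr hj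
    by_contra hnu
    rcases hi' with hi0 | hi1
    · -- a'0 unit, so b'0 nonunit, so b'1 unit, so a'1 nonunit
      have hb0 : ¬ IsUnit (b' 0) := fun h => h00 ⟨hi0, h⟩
      have hb1 : IsUnit (b' 1) := hj'.resolve_left hb0
      have ha1 : ¬ IsUnit (a' 1) := fun h => h11 ⟨h, hb1⟩
      have h2 : a' 1 * b' 0 ∈ nonunits A := fun h => ha1 (isUnit_of_mul_isUnit_left h)
      have h3 : -(a' 1 * b' 0) ∈ nonunits A := fun h => h2 (by simpa using h.neg)
      have h4 := IsLocalRing.nonunits_add (show _ ∈ nonunits A from hnu) h3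
      rw [add_neg_cancel_right] at h4
      exact h4 (hi0.mul hb1)
    · have ha0 : ¬ IsUnit (a' 0) := fun h => by
        have hb0 : ¬ IsUnit (b' 0) := fun h' => h00 ⟨h, h'⟩
        exact h11 ⟨hi1, hj'.resolve_left hb0⟩
      have hb1 : ¬ IsUnit (b' 1) := fun h => h11 ⟨hi1, h⟩
      have hb0 : IsUnit (b' 0) := hj'.resolve_right hb1
      have h2 : a' 0 * b' 1 ∈ nonunits A := fun h => ha0 (isUnit_of_mul_isUnit_left h)
      have h3 : -(a' 0 * b' 1) ∈ nonunits A := fun h => h2 (by simpa using h.neg)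
      have h4 := IsLocalRing.nonunits_add (show _ ∈ nonunits A from hnu) h3
      rw [add_comm (a' 0 * b' 1), add_neg_cancel_right] at h4
      exact h4 (hi1.mul hb0)

end Local

section AS

variable {R₀ K : Type*} [CommRing R₀] [Field K] [Algebra R₀ K] {A : ValuationSubring K}
  (W : WeierstrassCurve R₀) [W.IsElliptic]

/-- **good reduction**: the addition–subtraction forms preserve primitive vectors -/
theorem etb_prim_AS (hA : ∀ c : R₀, algebraMap R₀ K c ∈ A) {u : Fin 3 → K} (hu : EtbPrim A u) :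
    EtbPrim A (etaAS (W.map (algebraMap R₀ K)) u) := by
  obtain ⟨u', hu', i, hi⟩ := hu
  let g : R₀ →+* A := (algebraMap R₀ K).codRestrict A hA
  have hg : A.subtype.comp g = algebraMap R₀ K := RingHom.ext fun _ => rfl
  have hu'' : u = A.subtype ∘ u' := funext hu'
  have hW : W.map (algebraMap R₀ K) = (W.map g).map A.subtype := by
    rw [WeierstrassCurve.map_map, hg]
  refine ⟨etaAS (W.map g) u', fun m => ?_, ?_⟩
  · rw [hW, hu'', etaAS_map]
    rfl
  · by_contra hcon
    push Not at hcon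
    have hcond := etaAS_condition (W.map g) u' i
    have hmem : ∀ j : Fin 3, etaAS (W.map g) u' j ∈ IsLocalRing.maximalIdeal A := fun j => by
      rw [IsLocalRing.mem_maximalIdeal]
      exact hcon j
    have hsum : (u' i) ^ 4 ∈ IsLocalRing.maximalIdeal A := by
      rw [← hcond]
      exact Ideal.sum_mem _ fun j _ => Ideal.mul_mem_left _ _ (hmem j)
    rw [IsLocalRing.mem_maximalIdeal] at hsum
    exact hsum (hi.pow 4)

end AS

section Points

open scoped Classical

variable {R₀ K ι : Type*} [CommRing R₀] [Field K] [Algebra R₀ K] [DecidableEq K]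
  (S : EtbPl R₀ K ι) (W : WeierstrassCurve R₀)

/-- the scaling factor making `P.xRep` primitive -/
def etbC (A : ValuationSubring K) : (W⁄K).Point → K
  | 0 => 1
  | .some x _ _ => if x ∈ A then 1 else x

omit [DecidableEq K] in
theorem etbC_ne_zero (A : ValuationSubring K) (P : (W⁄K).Point) : etbC W A P ≠ 0 := by
  rcases P with _ | ⟨x, y, h⟩
  · exact one_ne_zero
  · show (if x ∈ A then 1 else x) ≠ 0
    split_ifs with hx
    · exact one_ne_zero
    · rintro rfl
      exact hx A.zero_mem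

omit [DecidableEq K] in
theorem etb_prim_xRep (A : ValuationSubring K) (P : (W⁄K).Point) :
    ∃ u : Fin 2 → K, EtbPrim A u ∧ P.xRep = etbC W A P • u := by
  rcases P with _ | ⟨x, y, h⟩
  · refine ⟨![1, 0], ⟨![1, 0], fun i => ?_, 0, isUnit_one⟩, ?_⟩
    · fin_cases i <;> rfl
    · show ![1, 0] = (1 : K) • ![1, 0]
      rw [one_smul]
  · by_cases hx : x ∈ A
    · refine ⟨![x, 1], ⟨![⟨x, hx⟩, 1], fun i => ?_, 1, isUnit_one⟩, ?_⟩
      · fin_cases i <;> rfl
      · show ![x, 1] = (if x ∈ A then (1 : K) else x) • ![x, 1]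
        rw [if_pos hx, one_smul]
    · have hx' : x⁻¹ ∈ A := (A.mem_or_inv_mem x).resolve_left hx
      have hx0 : x ≠ 0 := by
        rintro rfl
        exact hx A.zero_mem
      refine ⟨![1, x⁻¹], ⟨![1, ⟨x⁻¹, hx'⟩], fun i => ?_, 0, isUnit_one⟩, ?_⟩
      · fin_cases i <;> rfl
      · show ![x, 1] = (if x ∈ A then (1 : K) else x) • ![1, x⁻¹]
        rw [if_neg hx, Matrix.smul_vec2, smul_eq_mul, smul_eq_mul, mul_one, mul_inv_cancel₀ hx0]

omit [DecidableEq K] in
theorem etb_sym2x (P Q : (W⁄K).Point) : P.sym2x Q = etbSym P.xRep Q.xRep := rfl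

variable [W.IsElliptic]

/-- the local identity, multiplicative form: the two scaling factors differ by a unit -/
theorem etb_local_mem (A : ValuationSubring K) (hA : ∀ c : R₀, algebraMap R₀ K c ∈ A)
    (P Q : (W⁄K).Point) {c : K}
    (h : etaAS (W.map (algebraMap R₀ K)) (P.sym2x Q) = c • (P + Q).sym2x (P - Q)) :
    (c * (etbC W A (P + Q) * etbC W A (P - Q)))⁻¹ * (etbC W A P * etbC W A Q) ^ 2 ∈ A ∧
    ((etbC W A P * etbC W A Q) ^ 2)⁻¹ * (c * (etbC W A (P + Q) * etbC W A (P - Q))) ∈ A := by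
  obtain ⟨uP, hP, eP⟩ := etb_prim_xRep W A P
  obtain ⟨uQ, hQ, eQ⟩ := etb_prim_xRep W A Q
  obtain ⟨uS, hS, eS⟩ := etb_prim_xRep W A (P + Q)
  obtain ⟨uD, hD, eD⟩ := etb_prim_xRep W A (P - Q)
  have h1 := etb_prim_AS W hA (etb_prim_sym hP hQ)
  have h2 := etb_prim_sym hS hD
  have h3 : (etbC W A P * etbC W A Q) ^ 2 • etaAS (W.map (algebraMap R₀ K)) (etbSym uP uQ) =
      (c * (etbC W A (P + Q) * etbC W A (P - Q))) • etbSym uS uD := by
    rw [← etaAS_smul, ← etbSym_smul, ← eP, ← eQ, mul_smul, ← etbSym_smul, ← eS, ← eD]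
    exact h
  exact ⟨etb_prim_unique h1 h2 h3, etb_prim_unique h2 h1 h3.symm⟩

end Points

namespace EtbPl

variable {R₀ K ι : Type*} [CommRing R₀] [Field K] [Algebra R₀ K] (S : EtbPl R₀ K ι)

theorem ord_one (v : ι) : S.ord v 1 = 0 := by
  have := S.ord_mul v (one_ne_zero (α := K)) (one_ne_zero (α := K))
  rw [one_mul] at this
  omega

theorem ord_inv (v : ι) {f : K} (hf : f ≠ 0) : S.ord v f⁻¹ = - S.ord v f := by
  have := S.ord_mul v hf (inv_ne_zero hf)
  rw [mul_inv_cancel₀ hf, S.ord_one] at this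
  omega

theorem ord_pow (v : ι) {f : K} (hf : f ≠ 0) (n : ℕ) : S.ord v (f ^ n) = n * S.ord v f := by
  induction n with
  | zero => simp [S.ord_one]
  | succ n ih =>
    rw [pow_succ, S.ord_mul v (pow_ne_zero n hf) hf, ih]
    push_cast
    ring

theorem ord_eq_zero_of_mem (v : ι) {f : K} (hf : f ≠ 0) (h1 : f ∈ S.A v) (h2 : f⁻¹ ∈ S.A v) :
    S.ord v f = 0 := by
  have a1 := (S.mem_iff v hf).mp h1
  have a2 := (S.mem_iff v (inv_ne_zero hf)).mp h2
  rw [S.ord_inv v hf] at a2
  omega

end EtbPl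

section Height

open scoped Classical

variable {R₀ K ι : Type*} [CommRing R₀] [Field K] [Algebra R₀ K] [DecidableEq K]
  (S : EtbPl R₀ K ι) (W : WeierstrassCurve R₀)

/-- the local height `max(0, -ord_v x(P))` -/
def etbLoc (v : ι) : (W⁄K).Point → ℤ
  | 0 => 0
  | .some x _ _ => max 0 (-(S.ord v x))

omit [DecidableEq K] in
@[simp] theorem etbLoc_zero (v : ι) : etbLoc S W v 0 = 0 := rfl

omit [DecidableEq K] in
theorem etbLoc_some (v : ι) {x y : K} (h : (W⁄K).Nonsingular x y) :
    etbLoc S W v (.some x y h) = max 0 (-(S.ord v x)) := rfl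

omit [DecidableEq K] in
theorem etbLoc_nonneg (v : ι) (P : (W⁄K).Point) : 0 ≤ etbLoc S W v P := by
  rcases P with _ | ⟨x, y, h⟩
  · exact le_refl _
  · exact le_max_left _ _

omit [DecidableEq K] in
theorem etb_ord_C (v : ι) (P : (W⁄K).Point) :
    S.ord v (etbC W (S.A v) P) = - etbLoc S W v P := by
  rcases P with _ | ⟨x, y, h⟩
  · show S.ord v 1 = -0
    rw [S.ord_one, neg_zero]
  · show S.ord v (if x ∈ S.A v then 1 else x) = -(max 0 (-(S.ord v x)))
    by_cases hx : x ∈ S.A v
    · rw [if_pos hx, S.ord_one]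
      by_cases hx0 : x = 0
      · rw [hx0, S.ord_zero]
        simp
      · have := (S.mem_iff v hx0).mp hx
        rw [max_eq_left (by omega), neg_zero]
    · rw [if_neg hx]
      have hx0 : x ≠ 0 := by
        rintro rfl
        exact hx (S.A v).zero_mem
      have := (S.mem_iff v hx0).not.mp hx
      rw [max_eq_right (by omega), neg_neg]

omit [DecidableEq K] in
theorem etbLoc_finite (P : (W⁄K).Point) : (Function.support fun v => etbLoc S W v P).Finite := by
  rcases P with _ | ⟨x, y, h⟩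
  · convert Set.finite_empty
    ext v
    simp [← WeierstrassCurve.Affine.Point.zero_def]
  · by_cases hx0 : x = 0
    · convert Set.finite_empty
      ext v
      simp [etbLoc_some, hx0, S.ord_zero]
    · refine (S.finite hx0).subset fun v hv => ?_
      simp only [Function.mem_support, etbLoc_some] at hv ⊢
      intro h0
      apply hv
      rw [h0]
      simp

variable [W.IsElliptic]

/-- the local parallelogram identity -/
theorem etb_local (v : ι) (P Q : (W⁄K).Point) {c : K} (hc : c ≠ 0)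
    (h : etaAS (W.map (algebraMap R₀ K)) (P.sym2x Q) = c • (P + Q).sym2x (P - Q)) :
    etbLoc S W v (P + Q) + etbLoc S W v (P - Q) =
      2 * etbLoc S W v P + 2 * etbLoc S W v Q + S.ord v c := by
  obtain ⟨h1, h2⟩ := etb_local_mem W (S.A v) (S.const_mem v) P Q h
  have hP := etbC_ne_zero W (S.A v) P
  have hQ := etbC_ne_zero W (S.A v) Q
  have hS := etbC_ne_zero W (S.A v) (P + Q)
  have hD := etbC_ne_zero W (S.A v) (P - Q)
  have hn : c * (etbC W (S.A v) (P + Q) * etbC W (S.A v) (P - Q)) ≠ 0 :=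
    mul_ne_zero hc (mul_ne_zero hS hD)
  have hm : (etbC W (S.A v) P * etbC W (S.A v) Q) ^ 2 ≠ 0 := pow_ne_zero 2 (mul_ne_zero hP hQ)
  have hne : (c * (etbC W (S.A v) (P + Q) * etbC W (S.A v) (P - Q)))⁻¹ *
      (etbC W (S.A v) P * etbC W (S.A v) Q) ^ 2 ≠ 0 := mul_ne_zero (inv_ne_zero hn) hm
  have h0 := S.ord_eq_zero_of_mem v hne h1 (by rw [mul_inv, inv_inv, mul_comm]; exact h2)
  rw [S.ord_mul v (inv_ne_zero hn) hm, S.ord_inv v hn, S.ord_mul v hc (mul_ne_zero hS hD),
    S.ord_mul v hS hD, S.ord_pow v (mul_ne_zero hP hQ), S.ord_mul v hP hQ,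
    etb_ord_C, etb_ord_C, etb_ord_C, etb_ord_C] at h0
  push_cast at h0
  linarith

/-- the (naive) height on `E(K)`: the number of poles of the `x`-coordinate -/
def etbH (P : (W⁄K).Point) : ℤ := ∑ᶠ v, etbLoc S W v P

omit [DecidableEq K] [W.IsElliptic] in
@[simp] theorem etbH_zero : etbH S W 0 = 0 := by
  unfold etbH
  simp

omit [DecidableEq K] [W.IsElliptic] in
theorem etbH_nonneg (P : (W⁄K).Point) : 0 ≤ etbH S W P :=
  finsum_nonneg fun v => etbLoc_nonneg S W v P

omit [DecidableEq K] [W.IsElliptic] in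
theorem etbH_some {x y : K} (h : (W⁄K).Nonsingular x y) :
    etbH S W (.some x y h) = ∑ᶠ v, max 0 (-(S.ord v x)) := rfl

omit [DecidableEq K] [W.IsElliptic] in
theorem etbH_neg (P : (W⁄K).Point) : etbH S W (-P) = etbH S W P := by
  rcases P with _ | ⟨x, y, h⟩
  · rfl
  · rfl

/-- **the parallelogram law** -/
theorem etb_parallelogram (P Q : (W⁄K).Point) :
    etbH S W (P + Q) + etbH S W (P - Q) = 2 * etbH S W P + 2 * etbH S W Q := by
  obtain ⟨c, hc, h⟩ := eta_addSub (W.map (algebraMap R₀ K)) P Q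
  unfold etbH
  have fS := etbLoc_finite S W (P + Q)
  have fD := etbLoc_finite S W (P - Q)
  have fP := etbLoc_finite S W P
  have fQ := etbLoc_finite S W Q
  have fc := S.finite hc
  have f2P : (Function.support fun v => 2 * etbLoc S W v P).Finite :=
    fP.subset fun v hv => by
      simp only [Function.mem_support] at hv ⊢
      intro h0; exact hv (by rw [h0, mul_zero])
  have f2Q : (Function.support fun v => 2 * etbLoc S W v Q).Finite :=
    fQ.subset fun v hv => by
      simp only [Function.mem_support] at hv ⊢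
      intro h0; exact hv (by rw [h0, mul_zero])
  rw [← finsum_add_distrib fS fD, mul_finsum (fun v => etbLoc S W v P) 2,
    mul_finsum (fun v => etbLoc S W v Q) 2, ← finsum_add_distrib f2P f2Q]
  have : (fun v => etbLoc S W v (P + Q) + etbLoc S W v (P - Q)) =
      fun v => (2 * etbLoc S W v P + 2 * etbLoc S W v Q) + S.ord v c :=
    funext fun v => etb_local S W v P Q hc h
  rw [this, finsum_add_distrib _ fc, S.sum_zero hc, add_zero]
  exact (f2P.union f2Q).subset (Function.support_add _ _)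

end Height

end Fermat.Agent.ET
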