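/-
ET-B (lead), part 2: a function `h : G → ℤ` on an abelian group satisfying the parallelogram law
is a quadratic form: `etbB h P Q = h (P + Q) - h P - h Q` is biadditive, `h (n • P) = n ^ 2 * h P`,
`h (r • P + s • Q) = r ^ 2 * h P + r * s * B(P, Q) + s ^ 2 * h Q`; Cauchy–Schwarz for `h ≥ 0`.
-/
import Mathlib

set_option autoImplicit false

namespace Fermat.Agent.ET

variable {G : Type*} [AddCommGroup G] (h : G → ℤ)

/-- the parallelogram law -/
def EtbPar : Prop := ∀ P Q : G, h (P + Q) + h (P - Q) = 2 * h P + 2 * h Q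

/-- the associated pairing -/
def etbB (P Q : G) : ℤ := h (P + Q) - h P - h Q

variable {h}

theorem EtbPar.zero (hp : EtbPar h) : h 0 = 0 := by
  have := hp 0 0
  simp only [add_zero, sub_zero] at this
  omega

theorem EtbPar.neg (hp : EtbPar h) (P : G) : h (-P) = h P := by
  have := hp 0 P
  rw [zero_add, zero_sub, hp.zero] at this
  omega

theorem EtbPar.two (hp : EtbPar h) (P : G) : h (P + P) = 4 * h P := by
  have := hp P P
  rw [sub_self, hp.zero] at this
  omega

theorem etbB_comm (P Q : G) : etbB h P Q = etbB h Q P := by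
  unfold etbB
  rw [add_comm]
  ring

theorem etbB_self (hp : EtbPar h) (P : G) : etbB h P P = 2 * h P := by
  unfold etbB
  rw [hp.two]
  ring

theorem etbB_add_left (hp : EtbPar h) (P R Q : G) :
    etbB h (P + R) Q = etbB h P Q + etbB h R Q := by
  unfold etbB
  have e1 := hp (P + R) Q
  have e2 := hp P (R - Q)
  have e3 := hp (P + Q) R
  have e4 := hp R Q
  have a1 : P + (R - Q) = P + R - Q := by abel
  have a2 : P - (R - Q) = P + Q - R := by abel
  have a3 : P + Q + R = P + R + Q := by abel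
  rw [a1, a2] at e2
  rw [a3] at e3
  linarith

theorem etbB_add_right (hp : EtbPar h) (P Q R : G) :
    etbB h P (Q + R) = etbB h P Q + etbB h P R := by
  rw [etbB_comm, etbB_add_left hp, etbB_comm Q, etbB_comm R]

/-- the pairing as a biadditive map -/
def etbBHom (hp : EtbPar h) : G →+ G →+ ℤ :=
  AddMonoidHom.mk' (fun P => AddMonoidHom.mk' (fun Q => etbB h P Q) (etbB_add_right hp P))
    (fun P R => by
      ext Q
      exact etbB_add_left hp P R Q)

theorem etbBHom_apply (hp : EtbPar h) (P Q : G) : etbBHom hp P Q = etbB h P Q := rfl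

theorem etbB_zsmul_left (hp : EtbPar h) (n : ℤ) (P Q : G) :
    etbB h (n • P) Q = n * etbB h P Q := by
  rw [← etbBHom_apply hp, map_zsmul, AddMonoidHom.smul_apply, etbBHom_apply, smul_eq_mul]

theorem etbB_zsmul_right (hp : EtbPar h) (n : ℤ) (P Q : G) :
    etbB h P (n • Q) = n * etbB h P Q := by
  rw [etbB_comm, etbB_zsmul_left hp, etbB_comm]

theorem etbB_neg_right (hp : EtbPar h) (P Q : G) : etbB h P (-Q) = - etbB h P Q := by
  have := etbB_zsmul_right hp (-1) P Q
  simpa using this

theorem EtbPar.zsmul (hp : EtbPar h) (n : ℤ) (P : G) : h (n • P) = n ^ 2 * h P := by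
  have h1 := etbB_self hp (n • P)
  rw [etbB_zsmul_left hp, etbB_zsmul_right hp, etbB_self hp] at h1
  have : 2 * h (n • P) = 2 * (n ^ 2 * h P) := by rw [← h1]; ring
  omega

theorem etbB_add_eq (h : G → ℤ) (P Q : G) : h (P + Q) = h P + etbB h P Q + h Q := by
  unfold etbB
  ring

theorem EtbPar.sub (hp : EtbPar h) (P Q : G) : h (P - Q) = h P - etbB h P Q + h Q := by
  rw [sub_eq_add_neg, etbB_add_eq h, etbB_neg_right hp, hp.neg]
  ring

theorem EtbPar.lin (hp : EtbPar h) (r s : ℤ) (P Q : G) :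
    h (r • P + s • Q) = r ^ 2 * h P + r * s * etbB h P Q + s ^ 2 * h Q := by
  rw [etbB_add_eq h, hp.zsmul, hp.zsmul, etbB_zsmul_left hp, etbB_zsmul_right hp]
  ring

/-- additive maps scaling `h` scale the pairing -/
theorem etbB_map (φ : G →+ G) (m : ℤ) (hφ : ∀ P, h (φ P) = m * h P) (P Q : G) :
    etbB h (φ P) (φ Q) = m * etbB h P Q := by
  unfold etbB
  rw [← map_add, hφ, hφ, hφ]
  ring

/-- Cauchy–Schwarz for a nonnegative quadratic form -/
theorem EtbPar.cauchy (hp : EtbPar h) (h0 : ∀ P, 0 ≤ h P) (P Q : G) :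
    etbB h P Q ^ 2 ≤ 4 * h P * h Q := by
  have key := h0 ((etbB h P Q) • P + (-(2 * h P)) • Q)
  rw [hp.lin] at key
  by_cases hP : h P = 0
  · -- then B(P,Q) = 0: use r • P + s • Q with s = ∓1, r large
    have k1 := h0 ((h Q + 1) • P + (-1 : ℤ) • Q)
    have k2 := h0 ((h Q + 1) • P + (1 : ℤ) • Q)
    rw [hp.lin, hP] at k1 k2
    have hQ := h0 Q
    rw [hP]
    by_contra hcon
    push Not at hcon
    have hB : etbB h P Q ≠ 0 := by
      intro hB
      rw [hB] at hcon
      simp at hcon
    rcases lt_or_gt_of_ne hB with hneg | hpos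
    · have : etbB h P Q ≤ -1 := by omega
      nlinarith
    · have : 1 ≤ etbB h P Q := by omega
      nlinarith
  · have hPpos : 0 < h P := lt_of_le_of_ne (h0 P) (Ne.symm hP)
    -- key : B² hP - 2 hP B² + 4 hP² hQ ≥ 0
    have : 0 ≤ h P * (4 * h P * h Q - etbB h P Q ^ 2) := by nlinarith
    have := nonneg_of_mul_nonneg_right this hPpos
    omega

end Fermat.Agent.ET
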