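/-
ET-D0 (lead): Frobenius and heights.

* `etb_h_frob` : `h(φ P) = ℓ · h(P)` for every `EtbPl` over `ZMod ℓ`;
* abstract consequences of the parallelogram law for a `φ` scaling `h` by a prime `ℓ` and a point
  `η` with `h η = 2`: value `etd_val`, Hasse bound `etd_hasse`, positivity `etd_pos`.
-/
import Mathlib
import Fermat.Agent.Lib.ET.Defs
import Fermat.Agent.Lib.ET.Height
import Fermat.Agent.Lib.ET.Quadratic

set_option autoImplicit false

open WeierstrassCurve WeierstrassCurve.Affine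
open scoped WeierstrassCurve.Affine

noncomputable section

namespace Fermat.Agent.ET

section Frob

variable {ℓ : ℕ} [Fact ℓ.Prime] {K ι : Type*} [Field K] [Algebra (ZMod ℓ) K] [DecidableEq K]
  (S : EtbPl (ZMod ℓ) K ι) (W : WeierstrassCurve (ZMod ℓ))

theorem etbLoc_frob (v : ι) (P : (W⁄K).Point) :
    etbLoc S W v (etFrob K W P) = ℓ * etbLoc S W v P := by
  rcases P with _ | ⟨x, y, h⟩
  · show (0 : ℤ) = ℓ * 0
    rw [mul_zero]
  · show max 0 (-(S.ord v (x ^ ℓ))) = ℓ * max 0 (-(S.ord v x))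
    by_cases hx : x = 0
    · rw [hx, zero_pow (Fact.out : ℓ.Prime).ne_zero, S.ord_zero]
      simp
    · rw [S.ord_pow v hx]
      have hℓ : (0 : ℤ) ≤ ℓ := Int.natCast_nonneg ℓ
      rcases le_total 0 (S.ord v x) with h0 | h0
      · rw [max_eq_left (by nlinarith), max_eq_left (by omega), mul_zero]
      · rw [max_eq_right (by nlinarith), max_eq_right (by omega)]
        ring

theorem etb_h_frob (P : (W⁄K).Point) : etbH S W (etFrob K W P) = ℓ * etbH S W P := by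
  unfold etbH
  rw [mul_finsum (fun v => etbLoc S W v P) (ℓ : ℤ)]
  exact finsum_congr fun v => etbLoc_frob S W v P

end Frob

section Abstract

variable {G : Type*} [AddCommGroup G] {h : G → ℤ}

theorem etd_val (hp : EtbPar h) (φ : G →+ G) {ℓ : ℤ} (hφ : ∀ P, h (φ P) = ℓ * h P) (η : G)
    (hη : h η = 2) (r s : ℤ) :
    h (r • φ η - s • η) = 2 * ℓ * r ^ 2 - r * s * etbB h (φ η) η + 2 * s ^ 2 := by
  have : r • φ η - s • η = r • φ η + (-s) • η := by rw [neg_smul, sub_eq_add_neg]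
  rw [this, hp.lin, hφ, hη]
  ring

/-- Hasse's bound `B² < 16 ℓ` (strict because `ℓ` is prime) -/
theorem etd_hasse (hp : EtbPar h) (h0 : ∀ P, 0 ≤ h P) (φ : G →+ G) {ℓ : ℕ} (hℓ : ℓ.Prime)
    (hφ : ∀ P, h (φ P) = ℓ * h P) (η : G) (hη : h η = 2) :
    etbB h (φ η) η ^ 2 < 16 * ℓ := by
  have hc := hp.cauchy h0 (φ η) η
  rw [hφ, hη] at hc
  have hle : etbB h (φ η) η ^ 2 ≤ 16 * ℓ := by linarith
  refine lt_of_le_of_ne hle fun heq => ?_
  -- `B² = 16 ℓ` forces `ℓ` to be a square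
  have h4 : (4 : ℤ) ∣ etbB h (φ η) η := by
    have h16 : (4 : ℤ) ^ 2 ∣ etbB h (φ η) η ^ 2 := by
      rw [heq]
      exact ⟨ℓ, by ring⟩
    exact (Int.pow_dvd_pow_iff two_ne_zero).mp h16
  obtain ⟨b, hb⟩ := h4
  rw [hb] at heq
  have hsq : b ^ 2 = (ℓ : ℤ) := by nlinarith
  have hsq' : b.natAbs ^ 2 = ℓ := by
    have : ((b.natAbs ^ 2 : ℕ) : ℤ) = (ℓ : ℤ) := by
      rw [Nat.cast_pow, Int.natCast_natAbs, sq_abs, hsq]
    exact_mod_cast this
  have hdvd : b.natAbs ∣ ℓ := ⟨b.natAbs, by rw [← hsq']; ring⟩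
  rcases (Nat.dvd_prime hℓ).mp hdvd with h1 | h1
  · rw [h1, one_pow] at hsq'
    exact hℓ.one_lt.ne hsq'
  · rw [h1] at hsq'
    have : ℓ * ℓ = ℓ * 1 := by rw [mul_one, ← sq, hsq']
    have := Nat.eq_of_mul_eq_mul_left hℓ.pos this
    exact hℓ.one_lt.ne' this

theorem etd_pos (hp : EtbPar h) (h0 : ∀ P, 0 ≤ h P) (φ : G →+ G) {ℓ : ℕ} (hℓ : ℓ.Prime)
    (hφ : ∀ P, h (φ P) = ℓ * h P) (η : G) (hη : h η = 2) (r s : ℤ) (hrs : r ≠ 0 ∨ s ≠ 0) :
    0 < h (r • φ η - s • η) := by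
  rw [etd_val hp φ hφ η hη]
  have hH := etd_hasse hp h0 φ hℓ hφ η hη
  set B := etbB h (φ η) η
  have hℓpos : (0 : ℤ) < ℓ := by exact_mod_cast hℓ.pos
  have key : 8 * ℓ * (2 * ℓ * r ^ 2 - r * s * B + 2 * s ^ 2) =
      (4 * ℓ * r - s * B) ^ 2 + s ^ 2 * (16 * ℓ - B ^ 2) := by ring
  by_cases hs : s = 0
  · have hr : r ≠ 0 := hrs.resolve_right (not_not.mpr hs)
    rw [hs]
    have : 0 < r ^ 2 := by positivity
    nlinarith
  · have hs2 : 0 < s ^ 2 := by positivity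
    have h1 : 0 < s ^ 2 * (16 * ℓ - B ^ 2) := mul_pos hs2 (by linarith)
    have h2 : 0 ≤ (4 * ℓ * r - s * B) ^ 2 := sq_nonneg _
    have h3 : 0 < 8 * ℓ * (2 * ℓ * r ^ 2 - r * s * B + 2 * s ^ 2) := by rw [key]; linarith
    have h4 : (0 : ℤ) < 8 * ℓ := by linarith
    exact pos_of_mul_pos_right h3 h4.le

end Abstract

end Fermat.Agent.ET
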