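/-
ET-D5 (lead): a point of `E(K)`, `K = k(E)`, with nonconstant `x`-coordinate whose differential
vanishes is in the image of Frobenius: `etd_frob_of_D_eq_zero`.
-/
import Mathlib
import Fermat.Agent.Lib.ET.AddSub
import Fermat.Agent.Lib.ET.FunField
import Fermat.Agent.Lib.CurveP.Insep

set_option autoImplicit false

open WeierstrassCurve WeierstrassCurve.Affine Polynomial IntermediateField KaehlerDifferential
open scoped WeierstrassCurve.Affine

noncomputable section

namespace Fermat.Agent.ET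

variable {ℓ : ℕ} [Fact ℓ.Prime] (W : WeierstrassCurve (ZMod ℓ)) (k : Type*) [Field k]
  [Algebra (ZMod ℓ) k]

/-- constants of `ZMod ℓ` are killed by `d` -/
theorem etd_D_const (a : ZMod ℓ) : D k (EtcK W k) (algebraMap (ZMod ℓ) (EtcK W k) a) = 0 := by
  rw [IsScalarTower.algebraMap_apply (ZMod ℓ) k (EtcK W k)]
  exact Derivation.map_algebraMap _ _

theorem etd_module_aux {K M : Type*} [Field K] [AddCommGroup M] [Module K M]
    (x y c₁ c₂ c₃ c₄ : K) (ωx ωy : M)
    (hd : (2 : K) • y • ωy + ((c₁ * x) • ωy + y • c₁ • ωx) + c₃ • ωy =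
      (3 : K) • x ^ 2 • ωx + c₂ • (2 : K) • x • ωx + c₄ • ωx) :
    (2 * y + c₁ * x + c₃) • ωy = (3 * x ^ 2 + 2 * c₂ * x + c₄ - c₁ * y) • ωx := by
  linear_combination (norm := module) hd

variable {W k}

/-- differentiating the Weierstrass equation -/
theorem etd_D_equation {xR yR : EtcK W k} (h : (W⁄(EtcK W k)).Equation xR yR) :
    (2 * yR + algebraMap (ZMod ℓ) (EtcK W k) W.a₁ * xR + algebraMap (ZMod ℓ) (EtcK W k) W.a₃) •
      D k (EtcK W k) yR =
    (3 * xR ^ 2 + 2 * algebraMap (ZMod ℓ) (EtcK W k) W.a₂ * xR +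
      algebraMap (ZMod ℓ) (EtcK W k) W.a₄ - algebraMap (ZMod ℓ) (EtcK W k) W.a₁ * yR) •
      D k (EtcK W k) xR := by
  rw [Affine.equation_iff] at h
  simp only [WeierstrassCurve.baseChange, WeierstrassCurve.map_a₁, WeierstrassCurve.map_a₂,
    WeierstrassCurve.map_a₃, WeierstrassCurve.map_a₄, WeierstrassCurve.map_a₆] at h
  have hd := congrArg (D k (EtcK W k)) h
  simp only [map_add, Derivation.leibniz, Derivation.leibniz_pow, etd_D_const, smul_zero,
    add_zero] at hd
  have h2 : ∀ ω : KaehlerDifferential k (EtcK W k), (2 : ℕ) • ω = (2 : EtcK W k) • ω := fun ω => by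
    rw [← Nat.cast_smul_eq_nsmul (EtcK W k)]; norm_num
  have h3 : ∀ ω : KaehlerDifferential k (EtcK W k), (3 : ℕ) • ω = (3 : EtcK W k) • ω := fun ω => by
    rw [← Nat.cast_smul_eq_nsmul (EtcK W k)]; norm_num
  have e1 : (2 - 1 : ℕ) = 1 := rfl
  have e2 : (3 - 1 : ℕ) = 2 := rfl
  simp only [h2, h3, e1, e2, pow_one] at hd
  exact etd_module_aux _ _ _ _ _ _ _ _ hd


variable [W.IsElliptic]

/-- the `2`-division polynomial does not vanish at a point with transcendental `x` -/
theorem etd_psi_ne_zero {xR yR : EtcK W k} (h : (W⁄(EtcK W k)).Equation xR yR)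
    (hx : Transcendental k xR) :
    2 * yR + algebraMap (ZMod ℓ) (EtcK W k) W.a₁ * xR + algebraMap (ZMod ℓ) (EtcK W k) W.a₃ ≠ 0 := by
  intro h0
  have hpsi := eta_psi_sq (W.baseChange (EtcK W k)) h
  have e : yR - (W⁄(EtcK W k)).negY xR yR =
      2 * yR + algebraMap (ZMod ℓ) (EtcK W k) W.a₁ * xR + algebraMap (ZMod ℓ) (EtcK W k) W.a₃ := by
    simp only [Affine.negY, WeierstrassCurve.baseChange, WeierstrassCurve.map_a₁,
      WeierstrassCurve.map_a₃]
    ring
  rw [e, h0, zero_pow two_ne_zero] at hpsi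
  have hdisc : aeval xR (etcDisc W) = 0 := by
    rw [hpsi]
    unfold etcDisc
    simp only [WeierstrassCurve.baseChange, WeierstrassCurve.map_b₂, WeierstrassCurve.map_b₄,
      WeierstrassCurve.map_b₆, map_add, map_mul, map_pow, aeval_X, aeval_C, map_ofNat]
  have halg : IsAlgebraic (ZMod ℓ) xR := ⟨etcDisc W, etcDisc_ne_zero W, hdisc⟩
  exact hx (halg.extendScalars (algebraMap (ZMod ℓ) k).injective)

variable [IsAlgClosed k] [DecidableEq (EtcK W k)]

/-- **a point whose `x`-coordinate is nonconstant with vanishing differential is a Frobenius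
image** -/
theorem etd_frob_of_D_eq_zero {xR yR : EtcK W k} (h : (W⁄(EtcK W k)).Nonsingular xR yR)
    (hx : Transcendental k xR) (hD : D k (EtcK W k) xR = 0) :
    ∃ R' : (W⁄(EtcK W k)).Point, etFrob (EtcK W k) W R' = .some xR yR h := by
  have : CharP k ℓ := et_charP ℓ k
  have := etc_isSeparable W k
  have hgen := etc_gen W k
  obtain ⟨v⟩ := Fermat.Agent.CurveP.exists_place hgen
  have hDx := Fermat.Agent.CurveP.D_gen_ne_zero hgen v
  -- `dy = 0`
  have hDy : D k (EtcK W k) yR = 0 := by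
    have e := etd_D_equation h.1
    rw [hD, smul_zero] at e
    exact (smul_eq_zero.mp e).resolve_left (etd_psi_ne_zero h.1 hx)
  obtain ⟨g, hg⟩ := Fermat.Agent.CurveP.exists_pow_eq_of_D_eq_zero ℓ hgen hDx hD
  obtain ⟨g', hg'⟩ := Fermat.Agent.CurveP.exists_pow_eq_of_D_eq_zero ℓ hgen hDx hDy
  subst hg hg'
  have hns : (W⁄(EtcK W k)).Nonsingular g g' :=
    (W.toAffine.baseChange_nonsingular (etFrobAlg ℓ (EtcK W k)).injective g g').mp h
  exact ⟨.some g g' hns, rfl⟩

end Fermat.Agent.ET
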