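/-
ET-C (helper7), part 3: **pull-backs along nonconstant points and translations** of the function
field `K = EtcK W k` (`k` algebraically closed).

* `etcPullPt W k R hR : K →ₐ[k] K'` for a point `R` of `W⁄K'` which is not constant
  (`map_etcPullPt_eta : Point.map (etcPullPt W k R hR) η = R`);
* `etcTransHom W k T`, `etcTrans W k T : K ≃ₐ[k] K` for `T ∈ W(k)` with
  `map_etcTrans_eta : Point.map (etcTrans W k T) η = η + T`, `etcTrans_add`, `etcTrans_zero`,
  `etcTrans_neg`, `etcTrans_eq_refl_iff`, `etcTrans_injective`.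
-/
import Mathlib
import Fermat.Agent.Lib.ET.FunFieldPull

set_option autoImplicit false
set_option linter.unusedSectionVars false
set_option linter.unusedVariables false

open WeierstrassCurve WeierstrassCurve.Affine Polynomial IntermediateField
open scoped WeierstrassCurve.Affine Polynomial.Bivariate

noncomputable section

namespace Fermat.Agent.ET

variable {ℓ : ℕ} [Fact ℓ.Prime] (W : WeierstrassCurve (ZMod ℓ)) (k : Type*) [Field k]
  [Algebra (ZMod ℓ) k]

/-! ### Pull-backs along nonconstant points -/

section PullPt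

variable [IsAlgClosed k] [DecidableEq k]
variable {K' : Type*} [Field K'] [Algebra k K'] [Algebra (ZMod ℓ) K'] [IsScalarTower (ZMod ℓ) k K']
  [DecidableEq K']

/-- the `x`-coordinate of a nonconstant point is transcendental -/
theorem etc_transcendental_of_nonconst {xR yR : K'} (h : (W⁄K').Nonsingular xR yR)
    (hR : ∀ T : (W⁄k).Point, Point.some xR yR h ≠ Point.baseChange (W' := W.toAffine) k K' T) :
    Transcendental k xR := by
  intro hx
  obtain ⟨T, hT⟩ := etc_constPoint_gen W h hx
  exact hR T hT.symm

/-- **the pull-back `R* : K →ₐ[k] K'`** along a nonconstant point `R` of `W⁄K'` -/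
def etcPullPt : (R : (W⁄K').Point) →
    (∀ T : (W⁄k).Point, R ≠ Point.baseChange (W' := W.toAffine) k K' T) → (EtcK W k →ₐ[k] K')
  | 0, hR => absurd rfl (hR 0)
  | .some xR yR h, hR => etcPull W k h.1 (etc_transcendental_of_nonconst W k h hR)

theorem etcPullPt_some {xR yR : K'} (h : (W⁄K').Nonsingular xR yR)
    (hR : ∀ T : (W⁄k).Point, Point.some xR yR h ≠ Point.baseChange (W' := W.toAffine) k K' T) :
    etcPullPt W k (.some xR yR h) hR =
      etcPull W k h.1 (etc_transcendental_of_nonconst W k h hR) := rfl

/-- `R*` maps the generic point to `R` -/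
theorem map_etcPullPt_eta [W.IsElliptic] [DecidableEq (EtcK W k)] (R : (W⁄K').Point)
    (hR : ∀ T : (W⁄k).Point, R ≠ Point.baseChange (W' := W.toAffine) k K' T) :
    Point.map (W' := W.toAffine) (etcPullPt W k R hR) (etcEta W k) = R := by
  rcases R with _ | ⟨xR, yR, h⟩
  · exact absurd rfl (hR 0)
  · rw [etcPullPt_some]
    exact map_etcPull_eta W k h _

/-- the image of the generic point under a `k`-embedding is not constant -/
theorem etc_map_eta_ne_baseChange [W.IsElliptic] [DecidableEq (EtcK W k)]
    (f : EtcK W k →ₐ[k] K') (T : (W⁄k).Point) :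
    Point.map (W' := W.toAffine) f (etcEta W k) ≠ Point.baseChange (W' := W.toAffine) k K' T := by
  intro h
  rw [← Point.map_baseChange (W' := W.toAffine) f T] at h
  exact etcEta_ne_baseChange W k T (Point.map_injective f h)

/-- every `k`-embedding `f` of `K` is the pull-back along `f(η)` -/
theorem etc_algHom_eq_pullPt [W.IsElliptic] [DecidableEq (EtcK W k)] (f : EtcK W k →ₐ[k] K') :
    f = etcPullPt W k (Point.map (W' := W.toAffine) f (etcEta W k))
      (etc_map_eta_ne_baseChange W k f) :=
  etc_algHom_ext_eta W _ _ (map_etcPullPt_eta W k _ _).symm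

end PullPt

/-! ### Translations -/

section Trans

variable [W.IsElliptic] [IsAlgClosed k] [DecidableEq k] [DecidableEq (EtcK W k)]

/-- `η + T` is not constant -/
theorem etcEta_add_ne_baseChange (T T' : (W⁄k).Point) :
    etcEta W k + Point.baseChange (W' := W.toAffine) k (EtcK W k) T ≠
      Point.baseChange (W' := W.toAffine) k (EtcK W k) T' := by
  intro h
  refine etcEta_ne_baseChange W k (T' - T) ?_
  rw [map_sub, ← h, add_sub_cancel_right]

/-- the translation `τ_T` as an algebra homomorphism -/
def etcTransHom (T : (W⁄k).Point) : EtcK W k →ₐ[k] EtcK W k :=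
  etcPullPt W k (etcEta W k + Point.baseChange (W' := W.toAffine) k (EtcK W k) T)
    (etcEta_add_ne_baseChange W k T)

theorem map_etcTransHom_eta (T : (W⁄k).Point) :
    Point.map (W' := W.toAffine) (etcTransHom W k T) (etcEta W k) =
      etcEta W k + Point.baseChange (W' := W.toAffine) k (EtcK W k) T :=
  map_etcPullPt_eta W k _ _

theorem etcTransHom_comp (T T' : (W⁄k).Point) :
    (etcTransHom W k T).comp (etcTransHom W k T') = etcTransHom W k (T + T') := by
  refine etc_algHom_ext_eta W _ _ ?_
  rw [← Point.map_map, map_etcTransHom_eta, map_add, map_etcTransHom_eta, map_etcTransHom_eta,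
    Point.map_baseChange, map_add]
  abel

theorem etcTransHom_zero : etcTransHom W k 0 = AlgHom.id k (EtcK W k) := by
  refine etc_algHom_ext_eta W _ _ ?_
  rw [map_etcTransHom_eta, map_zero, add_zero]
  unfold etcEta
  rfl

/-- **the translation automorphism `τ_T` of `K / k`** -/
def etcTrans (T : (W⁄k).Point) : EtcK W k ≃ₐ[k] EtcK W k :=
  AlgEquiv.ofAlgHom (etcTransHom W k T) (etcTransHom W k (-T))
    (by rw [etcTransHom_comp, add_neg_cancel, etcTransHom_zero])
    (by rw [etcTransHom_comp, neg_add_cancel, etcTransHom_zero])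

theorem etcTrans_coe (T : (W⁄k).Point) :
    ((etcTrans W k T : EtcK W k ≃ₐ[k] EtcK W k) : EtcK W k →ₐ[k] EtcK W k) = etcTransHom W k T :=
  rfl

theorem etcTrans_apply (T : (W⁄k).Point) (z : EtcK W k) :
    etcTrans W k T z = etcTransHom W k T z := rfl

/-- **`τ_T η = η + T`** -/
theorem map_etcTrans_eta (T : (W⁄k).Point) :
    Point.map (W' := W.toAffine) (etcTrans W k T : EtcK W k →ₐ[k] EtcK W k) (etcEta W k) =
      etcEta W k + Point.baseChange (W' := W.toAffine) k (EtcK W k) T :=
  map_etcTransHom_eta W k T

/-- translations fix the constant points -/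
theorem map_etcTrans_baseChange (T T' : (W⁄k).Point) :
    Point.map (W' := W.toAffine) (etcTrans W k T : EtcK W k →ₐ[k] EtcK W k)
      (Point.baseChange (W' := W.toAffine) k (EtcK W k) T') =
      Point.baseChange (W' := W.toAffine) k (EtcK W k) T' :=
  Point.map_baseChange _ _

theorem etcTrans_apply_add (T T' : (W⁄k).Point) (z : EtcK W k) :
    etcTrans W k (T + T') z = etcTrans W k T (etcTrans W k T' z) := by
  rw [etcTrans_apply, ← etcTransHom_comp]
  rfl

/-- `τ_{T+T'} = τ_T ∘ τ_{T'}` -/
theorem etcTrans_add (T T' : (W⁄k).Point) :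
    etcTrans W k (T + T') = (etcTrans W k T').trans (etcTrans W k T) :=
  AlgEquiv.ext (fun z => etcTrans_apply_add W k T T' z)

theorem etcTrans_add_mul (T T' : (W⁄k).Point) :
    etcTrans W k (T + T') = etcTrans W k T * etcTrans W k T' :=
  AlgEquiv.ext (fun z => etcTrans_apply_add W k T T' z)

theorem etcTrans_zero : etcTrans W k 0 = AlgEquiv.refl := by
  refine AlgEquiv.ext (fun z => ?_)
  rw [etcTrans_apply, etcTransHom_zero]
  rfl

theorem etcTrans_neg (T : (W⁄k).Point) : etcTrans W k (-T) = (etcTrans W k T).symm := by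
  refine AlgEquiv.ext (fun z => ?_)
  apply (etcTrans W k T).injective
  rw [← etcTrans_apply_add, add_neg_cancel, etcTrans_zero, AlgEquiv.apply_symm_apply]
  rfl

theorem etcTrans_injective : Function.Injective (etcTrans W k) := by
  intro T T' h
  have h1 := map_etcTrans_eta W k T
  rw [h, map_etcTrans_eta] at h1
  exact Point.map_injective (W' := W.toAffine) (Algebra.ofId k (EtcK W k)) (add_left_cancel h1).symm

theorem etcTrans_eq_refl_iff (T : (W⁄k).Point) : etcTrans W k T = AlgEquiv.refl ↔ T = 0 := by
  rw [← etcTrans_zero W k]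
  exact (etcTrans_injective W k).eq_iff

/-- the translations as a group homomorphism `W(k) → Aut(K / k)` -/
def etcTransMonoidHom : Multiplicative (W⁄k).Point →* (EtcK W k ≃ₐ[k] EtcK W k) where
  toFun T := etcTrans W k T.toAdd
  map_one' := etcTrans_zero W k
  map_mul' T T' := etcTrans_add_mul W k T.toAdd T'.toAdd

end Trans

end Fermat.Agent.ET
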