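/-
ET-D (lead): the kernel of `α = r φ - s` on `E(k)` versus the degree of `R*`, `R = α η`.

* `etd_trans_fix` : translations by points of `ker α` fix `R*K` pointwise;
* `etd_ker_finite`, `etd_card_ker_le` : `ker α` is finite of order `≤ [K : R*K]`;
* `etd_card_ker_eq` : equality if `K / R*K` is separable.
-/
import Mathlib
import Fermat.Agent.Lib.ET.Kernel
import Fermat.Agent.Lib.ET.FunFieldTrans

set_option autoImplicit false

open WeierstrassCurve WeierstrassCurve.Affine
open scoped WeierstrassCurve.Affine

noncomputable section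

namespace Fermat.Agent.ET

variable {ℓ : ℕ} [Fact ℓ.Prime] (W : WeierstrassCurve (ZMod ℓ)) [W.IsElliptic]
  (k : Type*) [Field k] [Algebra (ZMod ℓ) k] [IsAlgClosed k] [DecidableEq k]
  [DecidableEq (EtcK W k)] (r s : ℤ)
  {xR yR : EtcK W k} (h : (W⁄(EtcK W k)).Nonsingular xR yR) (hx : Transcendental k xR)
  (hR : etdAl W (EtcK W k) r s (etcEta W k) = .some xR yR h)

include hR in
/-- translations by points of `ker α` fix `R*K` pointwise -/
theorem etd_trans_fix (T : (W⁄k).Point) (hT : etdAl W k r s T = 0) (z : EtcK W k) :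
    etcTrans W k T (etcPull W k h.1 hx z) = etcPull W k h.1 hx z := by
  have hfη : Point.map (W' := W.toAffine) (etcPull W k h.1 hx) (etcEta W k) = .some xR yR h :=
    map_etcPull_eta W k h hx
  have key : ((etcTrans W k T : EtcK W k ≃ₐ[k] EtcK W k) : EtcK W k →ₐ[k] EtcK W k).comp
      (etcPull W k h.1 hx) = etcPull W k h.1 hx := by
    refine etc_algHom_ext_eta W _ _ ?_
    rw [← Point.map_map, hfη, ← hR, etd_map_al, map_etcTrans_eta, map_add, etd_al_baseChange, hT,
      map_zero, add_zero]
  exact DFunLike.congr_fun key z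

include hR in
theorem etd_ker_finite_and_card_le [FiniteDimensional (etcPull W k h.1 hx).fieldRange (EtcK W k)] :
    Finite {T : (W⁄k).Point // etdAl W k r s T = 0} ∧
      Nat.card {T : (W⁄k).Point // etdAl W k r s T = 0} ≤
        Module.finrank (etcPull W k h.1 hx).fieldRange (EtcK W k) := by
  refine etd_card_le_finrank (etcPull W k h.1 hx)
    (fun T : {T : (W⁄k).Point // etdAl W k r s T = 0} => etcTrans W k T.1) ?_ ?_
  · intro T T' hTT'
    exact Subtype.ext (etcTrans_injective W k hTT')
  · intro T z
    exact etd_trans_fix W k r s h hx hR T.1 T.2 z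

include hR in
/-- **the order of `ker α` is the degree of `R*`, in the separable case** -/
theorem etd_card_ker_eq [FiniteDimensional (etcPull W k h.1 hx).fieldRange (EtcK W k)]
    [Algebra.IsSeparable (etcPull W k h.1 hx).fieldRange (EtcK W k)] :
    Nat.card {T : (W⁄k).Point // etdAl W k r s T = 0} =
      Module.finrank (etcPull W k h.1 hx).fieldRange (EtcK W k) := by
  obtain ⟨hfin, hle⟩ := etd_ker_finite_and_card_le W k r s h hx hR
  refine le_antisymm hle ?_
  rw [← Field.finSepDegree_eq_finrank_of_isSeparable]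
  exact etd_emb_le W k r s h hx hR

end Fermat.Agent.ET
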