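/-
ET-D7 (lead): the kernel count `2 · #ker(rφ - s | E(k)) = 2ℓr² - rsB + 2s²` for `ℓ ∤ s`,
from a height datum `EtdIn W k` on `K = k(E)` (provided by `Lib/ET/Places.lean`).
-/
import Mathlib
import Fermat.Agent.Lib.ET.FrobHeight
import Fermat.Agent.Lib.ET.InsepPt
import Fermat.Agent.Lib.ET.KernelCount
import Fermat.Agent.Lib.ET.Degree

set_option autoImplicit false
set_option linter.unusedSectionVars false

open WeierstrassCurve WeierstrassCurve.Affine IntermediateField KaehlerDifferential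
open scoped WeierstrassCurve.Affine

noncomputable section

namespace Fermat.Agent.ET

variable {ℓ : ℕ} [Fact ℓ.Prime] (W : WeierstrassCurve (ZMod ℓ)) [W.IsElliptic]
  (k : Type*) [Field k] [Algebra (ZMod ℓ) k] [IsAlgClosed k] [DecidableEq k]
  [DecidableEq (EtcK W k)]

set_option maxHeartbeats 2000000 in
/-- the height datum on `K = k(E)` consumed by the kernel count -/
structure EtdIn (ι : Type*) where
  S : EtbPl (ZMod ℓ) (EtcK W k) ι
  h_eta : etbH S W (etcEta W k) = 2
  h_const : ∀ T : (W⁄k).Point,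
    etbH S W (Point.baseChange (W' := W.toAffine) k (EtcK W k) T) = 0
  h_fin : ∀ {x : EtcK W k}, Transcendental k x → FiniteDimensional k⟮x⟯ (EtcK W k)
  h_pole : ∀ {x y : EtcK W k} (h : (W⁄(EtcK W k)).Nonsingular x y), Transcendental k x →
    D k (EtcK W k) x ≠ 0 →
      FiniteDimensional k⟮x⟯ (EtcK W k) ∧ Algebra.IsSeparable k⟮x⟯ (EtcK W k) ∧
        etbH S W (.some x y h) = Module.finrank k⟮x⟯ (EtcK W k)

variable {W k} {ι : Type*} (I : EtdIn W k ι)

namespace EtdIn

/-- the height -/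
def ht (P : (W⁄(EtcK W k)).Point) : ℤ := etbH I.S W P

theorem par : EtbPar I.ht := fun P Q => etb_parallelogram I.S W P Q

theorem ht_nonneg (P : (W⁄(EtcK W k)).Point) : 0 ≤ I.ht P := etbH_nonneg I.S W P

theorem ht_frob (P : (W⁄(EtcK W k)).Point) : I.ht (etFrob (EtcK W k) W P) = ℓ * I.ht P :=
  etb_h_frob I.S W P

/-- the pairing `B = ⟨φη, η⟩` -/
def B : ℤ := etbB I.ht (etFrob (EtcK W k) W (etcEta W k)) (etcEta W k)

theorem ht_al (r s : ℤ) :
    I.ht (etdAl W (EtcK W k) r s (etcEta W k)) = 2 * ℓ * r ^ 2 - r * s * I.B + 2 * s ^ 2 :=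
  etd_val I.par (etFrob (EtcK W k) W) I.ht_frob (etcEta W k) I.h_eta r s

theorem ht_al_pos (r s : ℤ) (hrs : r ≠ 0 ∨ s ≠ 0) :
    0 < I.ht (etdAl W (EtcK W k) r s (etcEta W k)) :=
  etd_pos I.par I.ht_nonneg (etFrob (EtcK W k) W) (Fact.out : ℓ.Prime) I.ht_frob (etcEta W k)
    I.h_eta r s hrs

/-- a point of positive height is not constant -/
theorem nonconst_of_pos {P : (W⁄(EtcK W k)).Point} (hP : 0 < I.ht P) (T : (W⁄k).Point) :
    P ≠ Point.baseChange (W' := W.toAffine) k (EtcK W k) T := by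
  rintro rfl
  have := I.h_const T
  unfold ht at hP
  omega

/-- the degree formula in the separable case -/
theorem ht_eq_two_mul {x y : EtcK W k} (h : (W⁄(EtcK W k)).Nonsingular x y)
    (hx : Transcendental k x) (hD : D k (EtcK W k) x ≠ 0) :
    FiniteDimensional (etcPull W k h.1 hx).fieldRange (EtcK W k) ∧
      Algebra.IsSeparable (etcPull W k h.1 hx).fieldRange (EtcK W k) ∧
      I.ht (.some x y h) = 2 * Module.finrank (etcPull W k h.1 hx).fieldRange (EtcK W k) := by
  obtain ⟨hfd, hsep, hht⟩ := I.h_pole h hx hD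
  have hX : etcPull W k h.1 hx (etcX W k) = x := etcPull_X W k h.1 hx
  have hfd' : FiniteDimensional k⟮etcPull W k h.1 hx (etcX W k)⟯ (EtcK W k) := by
    rw [hX]; exact hfd
  have hsep' : Algebra.IsSeparable k⟮etcPull W k h.1 hx (etcX W k)⟯ (EtcK W k) := by
    rw [hX]; exact hsep
  refine ⟨etd_finiteDimensional_fieldRange _ (etcX W k), etd_isSeparable_fieldRange _ (etcX W k),
    ?_⟩
  have e := etd_finrank_adjoin_map (etcPull W k h.1 hx) (etcX W k)
  rw [hX, etc_finrank] at e
  unfold ht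
  rw [hht, e]
  push_cast
  ring

/-- **heights are even** -/
theorem ht_even (P : (W⁄(EtcK W k)).Point) : 2 ∣ I.ht P := by
  -- strong induction on the height
  suffices H : ∀ n : ℕ, ∀ P : (W⁄(EtcK W k)).Point, I.ht P = n → 2 ∣ I.ht P from
    H (I.ht P).toNat P (Int.toNat_of_nonneg (I.ht_nonneg P)).symm
  intro n
  induction n using Nat.strong_induction_on with
  | _ n ih =>
    intro P hP
    by_cases h0 : I.ht P = 0
    · rw [h0]; exact dvd_zero _
    have hpos : 0 < I.ht P := lt_of_le_of_ne (I.ht_nonneg P) (Ne.symm h0)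
    have hnc := I.nonconst_of_pos hpos
    rcases P with _ | ⟨x, y, h⟩
    · exact absurd rfl (hnc 0)
    have hx : Transcendental k x := etc_transcendental_of_nonconst W k h hnc
    by_cases hD : D k (EtcK W k) x = 0
    · obtain ⟨P', hP'⟩ := etd_frob_of_D_eq_zero h hx hD
      have e : I.ht (.some x y h) = ℓ * I.ht P' := by rw [← hP', I.ht_frob]
      have hℓ : (2 : ℤ) ≤ ℓ := by exact_mod_cast (Fact.out : ℓ.Prime).two_le
      have hP'nn := I.ht_nonneg P'
      have hlt : (I.ht P').toNat < n := by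
        have : I.ht P' < I.ht (.some x y h) := by
          rw [e]
          have : 0 < I.ht P' := by
            by_contra hcon
            have : I.ht P' = 0 := by omega
            rw [this, mul_zero] at e
            omega
          nlinarith
        omega
      have := ih _ hlt P' (Int.toNat_of_nonneg hP'nn).symm
      rw [e]
      exact Dvd.dvd.mul_left this _
    · rw [(I.ht_eq_two_mul h hx hD).2.2]
      exact dvd_mul_right _ _

/-- **the kernel count**: `2 · #ker(rφ - s) = h(rφη - sη)` for `ℓ ∤ s` -/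
theorem two_mul_card_ker (r s : ℤ) (hs : ¬ (ℓ : ℤ) ∣ s) :
    (2 : ℤ) * Nat.card {T : (W⁄k).Point // etdAl W k r s T = 0} =
      2 * ℓ * r ^ 2 - r * s * I.B + 2 * s ^ 2 := by
  have hs0 : s ≠ 0 := by
    rintro rfl
    exact hs (dvd_zero _)
  have hpos := I.ht_al_pos r s (Or.inr hs0)
  have hnc := I.nonconst_of_pos hpos
  rw [← I.ht_al r s]
  rcases hR : etdAl W (EtcK W k) r s (etcEta W k) with _ | ⟨x, y, h⟩
  · exact absurd hR (hnc 0)
  rw [hR] at hnc hpos
  have hx : Transcendental k x := etc_transcendental_of_nonconst W k h hnc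
  by_cases hD : D k (EtcK W k) x = 0
  · exfalso
    obtain ⟨R', hR'⟩ := etd_frob_of_D_eq_zero h hx hD
    -- `s • η = φ (r • η - R')`
    have e1 : s • etcEta W k = etFrob (EtcK W k) W (r • etcEta W k - R') := by
      rw [map_sub, map_zsmul, hR', ← hR, etdAl_apply]
      abel
    have e2 : I.ht (s • etcEta W k) = ℓ * I.ht (r • etcEta W k - R') := by
      rw [e1, I.ht_frob]
    have hη2 : I.ht (etcEta W k) = 2 := I.h_eta
    rw [I.par.zsmul, hη2] at e2
    obtain ⟨m, hm⟩ := I.ht_even (r • etcEta W k - R')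
    rw [hm] at e2
    have e3 : s ^ 2 = ℓ * m := by linarith
    have hdvd : (ℓ : ℤ) ∣ s ^ 2 := ⟨m, e3⟩
    have hp : Prime (ℓ : ℤ) := Nat.prime_iff_prime_int.mp (Fact.out : ℓ.Prime)
    exact hs (hp.dvd_of_dvd_pow hdvd)
  · obtain ⟨hfd, hsep, hht⟩ := I.ht_eq_two_mul h hx hD
    have hc := etd_card_ker_eq W k r s h hx hR
    rw [hht, hc]

end EtdIn

end Fermat.Agent.ET
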