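/-
ET-E (lead): the relation `φ² - aφ + ℓ = 0` on `E(k)` and the kernel counts, from a height datum
`I : EtdIn W k ι` and the count of the Frobenius-fixed points.
-/
import Mathlib
import Fermat.Agent.Lib.ET.KernelMain

set_option autoImplicit false
set_option linter.unusedSectionVars false

open WeierstrassCurve WeierstrassCurve.Affine IntermediateField
open scoped WeierstrassCurve.Affine

noncomputable section

namespace Fermat.Agent.ET

variable {ℓ : ℕ} [Fact ℓ.Prime] {W : WeierstrassCurve (ZMod ℓ)} [W.IsElliptic]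
  {k : Type*} [Field k] [Algebra (ZMod ℓ) k] [IsAlgClosed k] [DecidableEq k]
  [DecidableEq (EtcK W k)] {ι : Type*} (I : EtdIn W k ι)
  (hfix : (Nat.card {T : (W⁄k).Point // etFrob k W T = T} : ℤ) = ℓ + 1 - etA W)

namespace EtdIn

include hfix in
/-- `B = 2a` -/
theorem B_eq : I.B = 2 * etA W := by
  have h1 : ¬ (ℓ : ℤ) ∣ 1 := fun h => by
    have := Int.natAbs_dvd_natAbs.mpr h
    simp at this
    exact (Fact.out : ℓ.Prime).one_lt.ne' this
  have h2 := I.two_mul_card_ker 1 1 h1
  have e : Nat.card {T : (W⁄k).Point // etdAl W k 1 1 T = 0} =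
      Nat.card {T : (W⁄k).Point // etFrob k W T = T} := by
    refine Nat.card_congr (Equiv.subtypeEquivRight fun T => ?_)
    rw [etdAl_apply, one_smul, one_smul, sub_eq_zero]
  rw [e, hfix] at h2
  linarith

include I hfix in
/-- **the kernel count** -/
theorem card_ker (r s : ℤ) (hs : ¬ (ℓ : ℤ) ∣ s) :
    (Nat.card {T : (W⁄k).Point // etdAl W k r s T = 0} : ℤ) =
      ℓ * r ^ 2 - r * s * etA W + s ^ 2 := by
  have h2 := I.two_mul_card_ker r s hs
  rw [I.B_eq hfix] at h2
  linarith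

end EtdIn

section Psi

variable (W) (L : Type*) [Field L] [Algebra (ZMod ℓ) L] [DecidableEq L]

/-- `ψ = φ² - aφ + ℓ` on `E(L)` -/
def etePsi (a : ℤ) : (W⁄L).Point →+ (W⁄L).Point :=
  (etFrob L W).comp (etFrob L W) - a • etFrob L W + (ℓ : ℤ) • AddMonoidHom.id _

theorem etePsi_apply (a : ℤ) (P : (W⁄L).Point) :
    etePsi W L a P = etFrob L W (etFrob L W P) - a • etFrob L W P + (ℓ : ℤ) • P := rfl

end Psi

section PsiNat

variable (W) {k' : Type*} [Field k'] [Algebra (ZMod ℓ) k']
  {K₁ K₂ : Type*} [Field K₁] [Field K₂] [Algebra (ZMod ℓ) K₁] [Algebra (ZMod ℓ) K₂]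
  [DecidableEq K₁] [DecidableEq K₂] [Algebra k' K₁] [Algebra k' K₂]
  [IsScalarTower (ZMod ℓ) k' K₁] [IsScalarTower (ZMod ℓ) k' K₂]

theorem ete_map_psi (f : K₁ →ₐ[k'] K₂) (a : ℤ) (P : (W⁄K₁).Point) :
    Point.map (W' := W.toAffine) f (etePsi W K₁ a P) =
      etePsi W K₂ a (Point.map (W' := W.toAffine) f P) := by
  rw [etePsi_apply, etePsi_apply, map_add, map_sub, map_zsmul, map_zsmul, etc_map_frob',
    etc_map_frob']

end PsiNat

namespace EtdIn

include I hfix in
/-- `ψ` kills `ker(φ - s)` for `ℓ ∤ s` (Lagrange) -/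
theorem psi_ker (s : ℤ) (hs : ¬ (ℓ : ℤ) ∣ s) (T : (W⁄k).Point) (hT : etdAl W k 1 s T = 0) :
    etePsi W k (etA W) T = 0 := by
  have hφ : etFrob k W T = s • T := by
    rw [etdAl_apply, one_smul, sub_eq_zero] at hT
    exact hT
  have hc := I.card_ker hfix 1 s hs
  -- Lagrange in the finite group `ker(φ - s)`
  have hlag : (Nat.card {T : (W⁄k).Point // etdAl W k 1 s T = 0}) • T = 0 := by
    have e : Nat.card {T : (W⁄k).Point // etdAl W k 1 s T = 0} =
        Nat.card (etdAl W k 1 s).ker :=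
      Nat.card_congr (Equiv.subtypeEquivRight fun _ => AddMonoidHom.mem_ker.symm)
    rw [e]
    have := card_nsmul_eq_zero' (G := (etdAl W k 1 s).ker) (x := ⟨T, AddMonoidHom.mem_ker.mpr hT⟩)
    exact congrArg Subtype.val this
  rw [etePsi_apply, hφ, map_zsmul, hφ]
  have : s • s • T - etA W • s • T + (ℓ : ℤ) • T = (ℓ * 1 ^ 2 - 1 * s * etA W + s ^ 2 : ℤ) • T := by
    rw [smul_smul, smul_smul, ← sub_smul, ← add_smul]
    congr 1
    ring
  rw [this, ← hc, natCast_zsmul, hlag]

include I hfix in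
/-- translations by points of `ker(φ - s)`, `ℓ ∤ s`, fix `ψ η` -/
theorem trans_psi_eta (s : ℤ) (hs : ¬ (ℓ : ℤ) ∣ s) (T : (W⁄k).Point)
    (hT : etdAl W k 1 s T = 0) :
    Point.map (W' := W.toAffine) (etcTrans W k T : EtcK W k →ₐ[k] EtcK W k)
      (etePsi W (EtcK W k) (etA W) (etcEta W k)) = etePsi W (EtcK W k) (etA W) (etcEta W k) := by
  rw [ete_map_psi, map_etcTrans_eta, map_add]
  have : etePsi W (EtcK W k) (etA W) (Point.baseChange (W' := W.toAffine) k (EtcK W k) T) = 0 := by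
    have := ete_map_psi W (Algebra.ofId k (EtcK W k)) (etA W) T
    rw [I.psi_ker hfix s hs T hT, map_zero] at this
    exact this.symm
  rw [this, add_zero]

include I hfix in
/-- **`ψ η` is a constant point** -/
theorem psi_eta_const : ∃ T₀ : (W⁄k).Point,
    etePsi W (EtcK W k) (etA W) (etcEta W k) =
      Point.baseChange (W' := W.toAffine) k (EtcK W k) T₀ := by
  by_contra hcon
  push Not at hcon
  set R := etePsi W (EtcK W k) (etA W) (etcEta W k) with hRdef
  set f := etcPullPt W k R hcon with hf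
  have hfη : Point.map (W' := W.toAffine) f (etcEta W k) = R := map_etcPullPt_eta W k R hcon
  -- `K` is finite over `f(K)`
  have hfd : FiniteDimensional f.fieldRange (EtcK W k) := by
    have hx : Transcendental k (f (etcX W k)) := etc_algHom_transcendental W f
    have := I.h_fin hx
    exact etd_finiteDimensional_fieldRange f (etcX W k)
  -- the translations by all the kernels fix `f(K)`
  let A := {T : (W⁄k).Point // ∃ s : ℤ, ¬ (ℓ : ℤ) ∣ s ∧ etdAl W k 1 s T = 0}
  have hA := etd_card_le_finrank f (fun T : A => etcTrans W k T.1)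
    (fun T T' hTT' => Subtype.ext (etcTrans_injective W k hTT'))
    (fun T z => by
      obtain ⟨s, hs, hT⟩ := T.2
      have key : ((etcTrans W k T.1 : EtcK W k ≃ₐ[k] EtcK W k) : EtcK W k →ₐ[k] EtcK W k).comp f
          = f := by
        refine etc_algHom_ext_eta W _ _ ?_
        rw [← Point.map_map, hfη, hRdef, I.trans_psi_eta hfix s hs T.1 hT]
      exact DFunLike.congr_fun key z)
  obtain ⟨hAfin, hAle⟩ := hA
  -- but the kernels are arbitrarily large
  set d := Module.finrank f.fieldRange (EtcK W k) with hd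
  set s : ℤ := ℓ * (d + |etA W| + 1) + 1 with hsdef
  have hℓ2 : (2 : ℤ) ≤ ℓ := by exact_mod_cast (Fact.out : ℓ.Prime).two_le
  have hs : ¬ (ℓ : ℤ) ∣ s := by
    intro hdvd
    have h1 : (ℓ : ℤ) ∣ 1 := by
      have : (ℓ : ℤ) ∣ s - ℓ * (d + |etA W| + 1) := dvd_sub hdvd (dvd_mul_right _ _)
      rwa [hsdef, add_sub_cancel_left] at this
    have := Int.le_of_dvd one_pos h1
    omega
  have hc := I.card_ker hfix 1 s hs
  have hinj : Nat.card {T : (W⁄k).Point // etdAl W k 1 s T = 0} ≤ Nat.card A :=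
    Nat.card_le_card_of_injective
      (fun T : {T : (W⁄k).Point // etdAl W k 1 s T = 0} => (⟨T.1, s, hs, T.2⟩ : A))
      (fun T T' h => Subtype.ext (congrArg (fun a : A => a.1) h))
  have hle : (Nat.card {T : (W⁄k).Point // etdAl W k 1 s T = 0} : ℤ) ≤ d := by
    exact_mod_cast hinj.trans hAle
  rw [hc] at hle
  have habs := abs_nonneg (etA W)
  have hle_abs := le_abs_self (etA W)
  have hd0 : (0 : ℤ) ≤ d := Int.natCast_nonneg d
  have hs_ge : (d : ℤ) + |etA W| + 2 ≤ s := by
    rw [hsdef]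
    nlinarith
  have : (d : ℤ) < ℓ * 1 ^ 2 - 1 * s * etA W + s ^ 2 := by
    have h1 : s * (s - etA W) ≥ s * (d + 2) := by
      apply mul_le_mul_of_nonneg_left _ (by linarith)
      linarith
    nlinarith
  linarith

include I hfix in
/-- **the relation `φ² - aφ + ℓ = 0` on `E(k)`** -/
theorem rel (T : (W⁄k).Point) : etePsi W k (etA W) T = 0 := by
  obtain ⟨T₀, hT₀⟩ := I.psi_eta_const hfix
  have h1 := ete_map_psi W (etcTrans W k T : EtcK W k →ₐ[k] EtcK W k) (etA W) (etcEta W k)
  rw [map_etcTrans_eta, map_add, hT₀, map_etcTrans_baseChange] at h1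
  have h2 : etePsi W (EtcK W k) (etA W) (Point.baseChange (W' := W.toAffine) k (EtcK W k) T)
      = 0 := by
    have := add_eq_left.mp h1.symm
    exact this
  have h3 := ete_map_psi W (Algebra.ofId k (EtcK W k)) (etA W) T
  apply Point.map_injective (W' := W.toAffine) (Algebra.ofId k (EtcK W k))
  rw [h3, map_zero]
  exact h2

include I hfix in
/-- the relation, spelled out -/
theorem rel' (T : (W⁄k).Point) :
    etFrob k W (etFrob k W T) - etA W • etFrob k W T + (ℓ : ℤ) • T = 0 :=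
  I.rel hfix T

include I hfix in
/-- `#ker(φ - s) = s² - as + ℓ` for `ℓ ∤ s` -/
theorem card_ker_frob_sub (s : ℤ) (hs : ¬ (ℓ : ℤ) ∣ s) :
    (Nat.card {T : (W⁄k).Point // etFrob k W T = s • T} : ℤ) = s ^ 2 - etA W * s + ℓ := by
  have e : Nat.card {T : (W⁄k).Point // etFrob k W T = s • T} =
      Nat.card {T : (W⁄k).Point // etdAl W k 1 s T = 0} := by
    refine Nat.card_congr (Equiv.subtypeEquivRight fun T => ?_)
    rw [etdAl_apply, one_smul, sub_eq_zero]
  rw [e, I.card_ker hfix 1 s hs]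
  ring

include I hfix in
/-- `#E(k)[n] = n²` for `ℓ ∤ n` -/
theorem card_torsion (n : ℕ) (hn : ¬ ℓ ∣ n) :
    Nat.card {T : (W⁄k).Point // n • T = 0} = n ^ 2 := by
  have hs : ¬ (ℓ : ℤ) ∣ (n : ℤ) := fun h => hn (Int.natCast_dvd_natCast.mp h)
  have e : Nat.card {T : (W⁄k).Point // n • T = 0} =
      Nat.card {T : (W⁄k).Point // etdAl W k 0 n T = 0} := by
    refine Nat.card_congr (Equiv.subtypeEquivRight fun T => ?_)
    rw [etdAl_apply, zero_smul, zero_sub, neg_eq_zero, natCast_zsmul]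
  have h1 := I.card_ker hfix 0 n hs
  rw [← e] at h1
  have : (Nat.card {T : (W⁄k).Point // n • T = 0} : ℤ) = ((n ^ 2 : ℕ) : ℤ) := by
    rw [h1]
    push_cast
    ring
  exact_mod_cast this

end EtdIn

end Fermat.Agent.ET
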