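/-
ET (lead): **the Frobenius-trace package in characteristic `ℓ`, unconditional.**
`W` an elliptic curve over `ZMod ℓ`, `k` an algebraically closed field over `ZMod ℓ`,
`φ = etFrob k W`, `a = etA W = ℓ + 1 - #W(𝔽_ℓ)`:

* `ete_rel` : `φ (φ T) - a • φ T + ℓ • T = 0` for all `T ∈ W(k)`;
* `ete_card_ker` : `#{T | φ T = s • T} = s² - a s + ℓ` for `ℓ ∤ s`;
* `ete_card_torsion` : `#W(k)[n] = n²` for `ℓ ∤ n`.
-/
import Mathlib
import Fermat.Agent.Lib.ET.Relation
import Fermat.Agent.Lib.ET.Places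
import Fermat.Agent.Lib.ET.FrobFix

set_option autoImplicit false
set_option linter.unusedSectionVars false
set_option linter.style.haveILetI false

open WeierstrassCurve WeierstrassCurve.Affine IntermediateField KaehlerDifferential AlgebraicCurve
open scoped WeierstrassCurve.Affine

noncomputable section

namespace Fermat.Agent.ET

variable {ℓ : ℕ} [Fact ℓ.Prime] (W : WeierstrassCurve (ZMod ℓ)) [W.IsElliptic]
  (k : Type*) [Field k] [Algebra (ZMod ℓ) k] [IsAlgClosed k] [DecidableEq k]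
  [DecidableEq (EtcK W k)]

/-- the places of `K = k(E)` -/
def eteS : EtbPl (ZMod ℓ) (EtcK W k) (Place k (EtcK W k)) :=
  haveI := etc_isSeparable W k
  etpPl (R₀ := ZMod ℓ) (etc_gen W k)

theorem ete_notMem_range {x : EtcK W k} (hx : Transcendental k x) :
    x ∉ Set.range (algebraMap k (EtcK W k)) := by
  rintro ⟨c, rfl⟩
  exact hx (isAlgebraic_algebraMap c)

set_option maxHeartbeats 2000000 in
/-- **the height datum** -/
def eteIn : EtdIn W k (Place k (EtcK W k)) where
  S := eteS W k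
  h_eta := by
    haveI := etc_isSeparable W k
    have h := etp_sum_poles (etc_gen W k) (ete_notMem_range W k (etc_transcendental_X W k))
    rw [etc_finrank] at h
    exact h
  h_const := fun T => by
    haveI := etc_isSeparable W k
    rcases T with _ | ⟨a, b, hab⟩
    · exact etbH_zero _ W
    · exact etp_etbH_const (etc_gen W k) W _ ⟨a, rfl⟩
  h_fin := fun {x} hx => by
    haveI := etc_isSeparable W k
    exact etp_finiteDimensional (etc_gen W k) (ete_notMem_range W k hx)
  h_pole := fun {x y} h hx hD => by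
    haveI := etc_isSeparable W k
    refine ⟨etp_finiteDimensional (etc_gen W k) (ete_notMem_range W k hx),
      Fermat.Agent.CurveP.isSeparable_of_D_ne_zero (etc_gen W k) hD, ?_⟩
    exact etp_sum_poles_of_D_ne_zero (etc_gen W k) hD

end Fermat.Agent.ET

namespace Fermat.Agent.ET

variable {ℓ : ℕ} [Fact ℓ.Prime] (W : WeierstrassCurve (ZMod ℓ)) [W.IsElliptic]
  (k : Type*) [Field k] [Algebra (ZMod ℓ) k] [IsAlgClosed k] [DecidableEq k]

/-- **the Frobenius relation `φ² - aφ + ℓ = 0` on `W(k)`** -/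
theorem ete_rel (T : (W⁄k).Point) :
    etFrob k W (etFrob k W T) - etA W • etFrob k W T + (ℓ : ℤ) • T = 0 := by
  classical
  exact (eteIn W k).rel' (ete_card_frob_fix_int W k) T

/-- **`#ker(φ - s) = s² - a s + ℓ` for `ℓ ∤ s`** -/
theorem ete_card_ker (s : ℤ) (hs : ¬ (ℓ : ℤ) ∣ s) :
    (Nat.card {T : (W⁄k).Point // etFrob k W T = s • T} : ℤ) = s ^ 2 - etA W * s + ℓ := by
  classical
  exact (eteIn W k).card_ker_frob_sub (ete_card_frob_fix_int W k) s hs

/-- **`#W(k)[n] = n²` for `ℓ ∤ n`** -/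
theorem ete_card_torsion (n : ℕ) (hn : ¬ ℓ ∣ n) :
    Nat.card {T : (W⁄k).Point // n • T = 0} = n ^ 2 := by
  classical
  exact (eteIn W k).card_torsion (ete_card_frob_fix_int W k) n hn

/-- the general kernel count `#ker(rφ - s) = ℓr² - rsa + s²` for `ℓ ∤ s` -/
theorem ete_card_ker_gen (r s : ℤ) (hs : ¬ (ℓ : ℤ) ∣ s) :
    (Nat.card {T : (W⁄k).Point // etdAl W k r s T = 0} : ℤ) =
      ℓ * r ^ 2 - r * s * etA W + s ^ 2 := by
  classical
  exact (eteIn W k).card_ker (ete_card_frob_fix_int W k) r s hs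

omit [IsAlgClosed k] [DecidableEq k] in
/-- Hasse's bound `a² < 4ℓ` -/
theorem ete_hasse : etA W ^ 2 < 4 * ℓ := by
  classical
  have h := etd_hasse (eteIn W (AlgebraicClosure (ZMod ℓ))).par
    (eteIn W (AlgebraicClosure (ZMod ℓ))).ht_nonneg
    (etFrob (EtcK W (AlgebraicClosure (ZMod ℓ))) W)
    (Fact.out : ℓ.Prime) (eteIn W (AlgebraicClosure (ZMod ℓ))).ht_frob
    (etcEta W (AlgebraicClosure (ZMod ℓ))) (eteIn W (AlgebraicClosure (ZMod ℓ))).h_eta
  have hB : etbB (eteIn W (AlgebraicClosure (ZMod ℓ))).ht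
      (etFrob (EtcK W (AlgebraicClosure (ZMod ℓ))) W (etcEta W (AlgebraicClosure (ZMod ℓ))))
      (etcEta W (AlgebraicClosure (ZMod ℓ))) = 2 * etA W :=
    (eteIn W (AlgebraicClosure (ZMod ℓ))).B_eq (ete_card_frob_fix_int W _)
  rw [hB] at h
  nlinarith

end Fermat.Agent.ET
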