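/-
ET-G1 (helper6): no prime-to-residue-characteristic torsion in the kernel of reduction.

`A` a valuation subring of a field `K` (arbitrary value group), `W` a Weierstrass curve over `K`
with integral invariants, elliptic over `K`.  The kernel of reduction is
`E₁ = {O} ∪ {(x, y) : x ∉ A}`.  With the coordinate `u = 1/x` (`u(O) = 0`) the exact
addition–subtraction formula `eta_addSub` gives, for `P, Q ∈ E₁`:
`P ± Q ∈ E₁` and `u(P+Q) + u(P-Q) = G₁/G₂` with `G₂ ∈ 1 + 𝔪`, `G₁ ≡ 2(u(P) + u(Q))` modulo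
`u(P) u(Q) A`.  Hence `u(mP) ∈ m² u(P) + u(P)² A` for all `m`, so `nP = O` with `n ∈ Aˣ` forces
`P = O`.  No `y`-coordinates, no formal groups.
-/
import Mathlib
import Fermat.Agent.Lib.ET.AddSub

set_option autoImplicit false

open WeierstrassCurve WeierstrassCurve.Affine

namespace Fermat.Agent.ET

variable {K : Type*} [Field K] (A : ValuationSubring K) (W : WeierstrassCurve K)

/-- the coordinate `u = 1/x` on the points of `W`, with `u(O) = 0` -/
noncomputable def etgU : W.toAffine.Point → K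
  | .zero => 0
  | .some x _ _ => x⁻¹

/-- the kernel of reduction: `O` and the points with non-integral `x`-coordinate -/
def EtgE1 : W.toAffine.Point → Prop
  | .zero => True
  | .some x _ _ => x ∉ A

@[simp] theorem etgU_zero : etgU W (0 : W.toAffine.Point) = 0 := rfl

@[simp] theorem etgU_some {x y : K} (h : W.toAffine.Nonsingular x y) :
    etgU W (Affine.Point.some x y h) = x⁻¹ := rfl

theorem etgE1_zero : EtgE1 A W (0 : W.toAffine.Point) := trivial

theorem etgE1_some {x y : K} (h : W.toAffine.Nonsingular x y) :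
    EtgE1 A W (Affine.Point.some x y h) ↔ x ∉ A := Iff.rfl

/-! ### Small valuation lemmas -/

section Val

variable {A}

theorem etg_lt_of_notMem {x : K} (hx : x ∉ A) : A.valuation x⁻¹ < 1 := by
  have h1 : ¬ A.valuation x ≤ 1 := fun h => hx ((A.valuation_le_one_iff x).mp h)
  have h2 : 1 < A.valuation x := not_le.mp h1
  rw [map_inv₀]
  exact inv_lt_one_of_one_lt₀ h2

theorem etg_mul_lt {a x : K} (ha : a ∈ A) (hx : A.valuation x < 1) : A.valuation (a * x) < 1 := by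
  rw [map_mul]
  exact mul_lt_one_of_nonneg_of_lt_one_right ((A.valuation_le_one_iff a).mpr ha) zero_le hx

theorem etg_mul_lt' {a x : K} (hx : A.valuation x < 1) (ha : a ∈ A) : A.valuation (x * a) < 1 := by
  rw [mul_comm]; exact etg_mul_lt ha hx

theorem etg_inv_mem {g : K} (hg : A.valuation g = 1) : g⁻¹ ∈ A := by
  rw [← A.valuation_le_one_iff, map_inv₀, hg, inv_one]

theorem etg_notMem_of_mul {x m g : K} (hm : A.valuation m < 1) (hg : A.valuation g = 1)
    (h : x * m = g) : x ∉ A := by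
  intro hx
  have := etg_mul_lt hx hm
  rw [h, hg] at this
  exact lt_irrefl _ this

end Val

/-! ### The addition–subtraction formula on the kernel of reduction -/

variable {A W}

theorem etgU_lt {P : W.toAffine.Point} (hP : EtgE1 A W P) : A.valuation (etgU W P) < 1 := by
  rcases P with _ | ⟨x, y, h⟩
  · show A.valuation (0 : K) < 1
    rw [map_zero]; exact zero_lt_one
  · exact etg_lt_of_notMem hP

theorem etg_ne_zero_of_notMem {x : K} (hx : x ∉ A) : x ≠ 0 := by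
  rintro rfl
  exact hx A.zero_mem

/-- `sym2x P Q` is proportional to `(1, u₁ + u₂, u₁ u₂)` for `P, Q` in the kernel of reduction -/
theorem etg_sym2x {P Q : W.toAffine.Point} (hP : EtgE1 A W P) (hQ : EtgE1 A W Q) :
    ∃ c : K, c ≠ 0 ∧
      P.sym2x Q = c • ![1, etgU W P + etgU W Q, etgU W P * etgU W Q] := by
  rcases P with _ | ⟨x₁, y₁, h₁⟩ <;> rcases Q with _ | ⟨x₂, y₂, h₂⟩
  · refine ⟨1, one_ne_zero, ?_⟩
    rw [← Affine.Point.zero_def, Affine.Point.sym2x_zero_zero, one_smul, etgU_zero]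
    exact eta_vec3_ext rfl (by ring) (by ring)
  · have hx : x₂ ≠ 0 := etg_ne_zero_of_notMem hQ
    refine ⟨x₂, hx, ?_⟩
    rw [← Affine.Point.zero_def, Affine.Point.sym2x_zero_some, etgU_zero, etgU_some,
      Matrix.smul_vec3]
    exact eta_vec3_ext (by simp) (by simp only [smul_eq_mul]; field_simp; ring)
      (by simp)
  · have hx : x₁ ≠ 0 := etg_ne_zero_of_notMem hP
    refine ⟨x₁, hx, ?_⟩
    rw [← Affine.Point.zero_def, Affine.Point.sym2x_some_zero, etgU_zero, etgU_some,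
      Matrix.smul_vec3]
    exact eta_vec3_ext (by simp) (by simp only [smul_eq_mul]; field_simp; ring)
      (by simp)
  · have hx₁ : x₁ ≠ 0 := etg_ne_zero_of_notMem hP
    have hx₂ : x₂ ≠ 0 := etg_ne_zero_of_notMem hQ
    refine ⟨x₁ * x₂, mul_ne_zero hx₁ hx₂, ?_⟩
    rw [Affine.Point.sym2x_some_some, etgU_some, etgU_some, Matrix.smul_vec3]
    exact eta_vec3_ext (by simp) (by simp only [smul_eq_mul]; field_simp; ring)
      (by simp only [smul_eq_mul]; field_simp)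


/-- integrality of the `b`-invariants -/
structure EtgInt (A : ValuationSubring K) (W : WeierstrassCurve K) : Prop where
  b₂ : W.b₂ ∈ A
  b₄ : W.b₄ ∈ A
  b₆ : W.b₆ ∈ A
  b₈ : W.b₈ ∈ A

theorem EtgInt.of_a (h₁ : W.a₁ ∈ A) (h₂ : W.a₂ ∈ A) (h₃ : W.a₃ ∈ A) (h₄ : W.a₄ ∈ A)
    (h₆ : W.a₆ ∈ A) : EtgInt A W := by
  have h2 : (2 : K) ∈ A := ofNat_mem A 2
  have h4 : (4 : K) ∈ A := ofNat_mem A 4
  refine ⟨?_, ?_, ?_, ?_⟩
  · rw [WeierstrassCurve.b₂]
    exact add_mem (pow_mem h₁ 2) (mul_mem h4 h₂)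
  · rw [WeierstrassCurve.b₄]
    exact add_mem (mul_mem h2 h₄) (mul_mem h₁ h₃)
  · rw [WeierstrassCurve.b₆]
    exact add_mem (pow_mem h₃ 2) (mul_mem h4 h₆)
  · rw [WeierstrassCurve.b₈]
    exact sub_mem (add_mem (sub_mem (add_mem (mul_mem (pow_mem h₁ 2) h₆)
      (mul_mem (mul_mem h4 h₂) h₆)) (mul_mem (mul_mem h₁ h₃) h₄))
      (mul_mem h₂ (pow_mem h₃ 2))) (pow_mem h₄ 2)

variable [DecidableEq K] [W.IsElliptic]

/-- **Addition and subtraction on the kernel of reduction**: for `P, Q ∈ E₁` both `P + Q` and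
`P - Q` are in `E₁`, and `u(P+Q) + u(P-Q) = G₁ / G₂` with the explicit `G₁, G₂`. -/
theorem etg_addSub_E1 (hW : EtgInt A W) {P Q : W.toAffine.Point} (hP : EtgE1 A W P)
    (hQ : EtgE1 A W Q) :
    EtgE1 A W (P + Q) ∧ EtgE1 A W (P - Q) ∧
      (etgU W (P + Q) + etgU W (P - Q)) *
        (1 - W.b₄ * (etgU W P * etgU W Q) - W.b₆ * (etgU W P + etgU W Q) * (etgU W P * etgU W Q)
          - W.b₈ * (etgU W P * etgU W Q) ^ 2) =
      2 * (etgU W P + etgU W Q) + W.b₂ * (etgU W P * etgU W Q)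
        + W.b₄ * (etgU W P + etgU W Q) * (etgU W P * etgU W Q)
        + W.b₆ * (etgU W P * etgU W Q) ^ 2 := by
  obtain ⟨c₁, hc₁, h₁⟩ := etg_sym2x hP hQ
  obtain ⟨c₂, hc₂, h₂⟩ := eta_addSub W P Q
  have hu₁ := etgU_lt hP
  have hu₂ := etgU_lt hQ
  set σ : K := etgU W P + etgU W Q with hσ
  set π : K := etgU W P * etgU W Q with hπ
  have hσm : A.valuation σ < 1 := A.valuation.map_add_lt hu₁ hu₂
  have hπm : A.valuation π < 1 := by
    rw [hπ, map_mul]
    exact mul_lt_one_of_nonneg_of_lt_one_left zero_le hu₁ hu₂.le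
  have hσA : σ ∈ A := (A.valuation_le_one_iff σ).mp hσm.le
  have hπA : π ∈ A := (A.valuation_le_one_iff π).mp hπm.le
  set G₂ : K := 1 - W.b₄ * π - W.b₆ * σ * π - W.b₈ * π ^ 2 with hG₂
  set G₁ : K := 2 * σ + W.b₂ * π + W.b₄ * σ * π + W.b₆ * π ^ 2 with hG₁
  set G₀ : K := σ ^ 2 - 4 * π with hG₀
  have h2 : (2 : K) ∈ A := ofNat_mem A 2
  have h4 : (4 : K) ∈ A := ofNat_mem A 4
  -- valuations of the three forms
  have vG₂ : A.valuation G₂ = 1 := by
    have e : G₂ = 1 - (W.b₄ + W.b₆ * σ + W.b₈ * π) * π := by rw [hG₂]; ring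
    rw [e]
    exact A.valuation.map_one_sub_of_lt
      (etg_mul_lt (add_mem (add_mem hW.b₄ (mul_mem hW.b₆ hσA)) (mul_mem hW.b₈ hπA)) hπm)
  have vG₁ : A.valuation G₁ < 1 := by
    have e : G₁ = 2 * σ + (W.b₂ + W.b₄ * σ + W.b₆ * π) * π := by rw [hG₁]; ring
    rw [e]
    exact A.valuation.map_add_lt (etg_mul_lt h2 hσm)
      (etg_mul_lt (add_mem (add_mem hW.b₂ (mul_mem hW.b₄ hσA)) (mul_mem hW.b₆ hπA)) hπm)
  have vG₀ : A.valuation G₀ < 1 := by
    have e : G₀ = σ * σ + (-4) * π := by rw [hG₀]; ring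
    rw [e]
    exact A.valuation.map_add_lt (etg_mul_lt hσA hσm) (etg_mul_lt (neg_mem h4) hπm)
  have hG₂0 : G₂ ≠ 0 := by
    intro h0
    rw [h0, map_zero] at vG₂
    exact zero_ne_one vG₂
  -- the key proportionality
  have key : ![G₂, G₁, G₀] = (c₂ / c₁ ^ 2) • (P + Q).sym2x (P - Q) := by
    have e : etaAS W (P.sym2x Q) = c₁ ^ 2 • ![G₂, G₁, G₀] := by
      rw [h₁, etaAS_smul, etaAS_vec]
      congr 1
      exact eta_vec3_ext (by rw [hG₂]; ring) (by rw [hG₁]; ring) (by rw [hG₀]; ring)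
    rw [e] at h₂
    have hc : c₁ ^ 2 ≠ 0 := pow_ne_zero 2 hc₁
    calc ![G₂, G₁, G₀] = (c₁ ^ 2)⁻¹ • (c₁ ^ 2 • ![G₂, G₁, G₀]) := by
          rw [smul_smul, inv_mul_cancel₀ hc, one_smul]
      _ = (c₂ / c₁ ^ 2) • (P + Q).sym2x (P - Q) := by
          rw [h₂, smul_smul, div_eq_inv_mul]
  have hc : c₂ / c₁ ^ 2 ≠ 0 := div_ne_zero hc₂ (pow_ne_zero 2 hc₁)
  generalize c₂ / c₁ ^ 2 = c at key hc
  generalize P + Q = R₃ at key ⊢
  generalize P - Q = R₄ at key ⊢
  have k0 : G₂ = (c • R₃.sym2x R₄) 0 := by rw [← key]; rfl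
  have k1 : G₁ = (c • R₃.sym2x R₄) 1 := by rw [← key]; rfl
  have k2 : G₀ = (c • R₃.sym2x R₄) 2 := by rw [← key]; rfl
  rcases R₃ with _ | ⟨x₃, y₃, h₃⟩ <;> rcases R₄ with _ | ⟨x₄, y₄, h₄⟩
  · refine ⟨trivial, trivial, ?_⟩
    rw [← Affine.Point.zero_def, Affine.Point.sym2x_zero_zero] at k1
    have e1 : G₁ = 0 := by rw [k1]; simp
    rw [e1, ← Affine.Point.zero_def, etgU_zero, add_zero, zero_mul]
  · rw [← Affine.Point.zero_def, Affine.Point.sym2x_zero_some] at k0 k1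
    have e0 : G₂ = c * x₄ := by rw [k0]; simp
    have e1 : G₁ = c := by rw [k1]; simp
    have hx : x₄ * G₁ = G₂ := by rw [e0, e1, mul_comm]
    refine ⟨trivial, etg_notMem_of_mul vG₁ vG₂ hx, ?_⟩
    have hx0 : x₄ ≠ 0 := fun h => hG₂0 (by rw [← hx, h, zero_mul])
    rw [← Affine.Point.zero_def, etgU_zero, etgU_some, zero_add, ← hx]
    field_simp
  · rw [← Affine.Point.zero_def, Affine.Point.sym2x_some_zero] at k0 k1
    have e0 : G₂ = c * x₃ := by rw [k0]; simp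
    have e1 : G₁ = c := by rw [k1]; simp
    have hx : x₃ * G₁ = G₂ := by rw [e0, e1, mul_comm]
    refine ⟨etg_notMem_of_mul vG₁ vG₂ hx, trivial, ?_⟩
    have hx0 : x₃ ≠ 0 := fun h => hG₂0 (by rw [← hx, h, zero_mul])
    rw [← Affine.Point.zero_def, etgU_zero, etgU_some, add_zero, ← hx]
    field_simp
  · rw [Affine.Point.sym2x_some_some] at k0 k1 k2
    have e0 : G₂ = c * (x₃ * x₄) := by rw [k0]; simp
    have e1 : G₁ = c * (x₃ + x₄) := by rw [k1]; simp
    have e2 : G₀ = c := by rw [k2]; simp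
    -- `x₃` and `x₄` are roots of `G₀ T² - G₁ T + G₂`
    have r3 : x₃ * (G₁ - G₀ * x₃) = G₂ := by rw [e0, e1, e2]; ring
    have r4 : x₄ * (G₁ - G₀ * x₄) = G₂ := by rw [e0, e1, e2]; ring
    have hx₃ : x₃ ∉ A := by
      intro hx
      have : A.valuation (G₁ - G₀ * x₃) < 1 := by
        rw [sub_eq_add_neg]
        refine A.valuation.map_add_lt vG₁ ?_
        rw [Valuation.map_neg]
        exact etg_mul_lt' vG₀ hx
      exact etg_notMem_of_mul this vG₂ r3 hx
    have hx₄ : x₄ ∉ A := by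
      intro hx
      have : A.valuation (G₁ - G₀ * x₄) < 1 := by
        rw [sub_eq_add_neg]
        refine A.valuation.map_add_lt vG₁ ?_
        rw [Valuation.map_neg]
        exact etg_mul_lt' vG₀ hx
      exact etg_notMem_of_mul this vG₂ r4 hx
    refine ⟨hx₃, hx₄, ?_⟩
    have h30 : x₃ ≠ 0 := etg_ne_zero_of_notMem hx₃
    have h40 : x₄ ≠ 0 := etg_ne_zero_of_notMem hx₄
    rw [etgU_some, etgU_some, e0, e1]
    field_simp
    ring


/-! ### The multiples of a point of the kernel of reduction -/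

omit [DecidableEq K] in
/-- the algebraic identity behind the induction step -/
theorem etg_step_identity (u c c' g m b₂ b₄ b₆ b₈ u₃ : K)
    (hg : (1 - b₄ * ((((m + 1) ^ 2 * u + u ^ 2 * c)) * u)
        - b₆ * (((m + 1) ^ 2 * u + u ^ 2 * c) + u) * ((((m + 1) ^ 2 * u + u ^ 2 * c)) * u)
        - b₈ * ((((m + 1) ^ 2 * u + u ^ 2 * c)) * u) ^ 2) * g = 1)
    (hrel : (u₃ + (m ^ 2 * u + u ^ 2 * c')) *
        (1 - b₄ * ((((m + 1) ^ 2 * u + u ^ 2 * c)) * u)
        - b₆ * (((m + 1) ^ 2 * u + u ^ 2 * c) + u) * ((((m + 1) ^ 2 * u + u ^ 2 * c)) * u)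
        - b₈ * ((((m + 1) ^ 2 * u + u ^ 2 * c)) * u) ^ 2) =
      2 * (((m + 1) ^ 2 * u + u ^ 2 * c) + u) + b₂ * ((((m + 1) ^ 2 * u + u ^ 2 * c)) * u)
        + b₄ * (((m + 1) ^ 2 * u + u ^ 2 * c) + u) * ((((m + 1) ^ 2 * u + u ^ 2 * c)) * u)
        + b₆ * ((((m + 1) ^ 2 * u + u ^ 2 * c)) * u) ^ 2) :
    u₃ = (m + 1 + 1) ^ 2 * u + u ^ 2 *
      (2 * c - c' + ((m + 1) ^ 2 + u * c) *
        ((b₂ + b₄ * (((m + 1) ^ 2 * u + u ^ 2 * c) + u)
            + b₆ * ((((m + 1) ^ 2 * u + u ^ 2 * c)) * u))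
          + 2 * (((m + 1) ^ 2 * u + u ^ 2 * c) + u) *
            (b₄ + b₆ * (((m + 1) ^ 2 * u + u ^ 2 * c) + u)
              + b₈ * ((((m + 1) ^ 2 * u + u ^ 2 * c)) * u))) * g) := by
  linear_combination g * hrel +
    (2 * (((m + 1) ^ 2 * u + u ^ 2 * c) + u) - (m ^ 2 * u + u ^ 2 * c') - u₃) * hg

/-- `u(mP) ∈ m² u(P) + u(P)² A` on the kernel of reduction -/
theorem etg_u_nsmul (hW : EtgInt A W) {P : W.toAffine.Point} (hP : EtgE1 A W P) (m : ℕ) :
    EtgE1 A W (m • P) ∧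
      ∃ c ∈ A, etgU W (m • P) = (m : K) ^ 2 * etgU W P + etgU W P ^ 2 * c := by
  have hu := etgU_lt hP
  have huA : etgU W P ∈ A := (A.valuation_le_one_iff _).mp hu.le
  have key : ∀ m : ℕ,
      (EtgE1 A W (m • P) ∧
        ∃ c ∈ A, etgU W (m • P) = (m : K) ^ 2 * etgU W P + etgU W P ^ 2 * c) ∧
      (EtgE1 A W ((m + 1) • P) ∧
        ∃ c ∈ A, etgU W ((m + 1) • P) = ((m + 1 : ℕ) : K) ^ 2 * etgU W P + etgU W P ^ 2 * c) := by
    intro m
    induction m with
    | zero =>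
      refine ⟨⟨?_, 0, A.zero_mem, ?_⟩, ⟨?_, 0, A.zero_mem, ?_⟩⟩
      · rw [zero_smul]; exact etgE1_zero A W
      · rw [zero_smul, etgU_zero]; simp
      · rw [zero_add, one_smul]; exact hP
      · rw [zero_add, one_smul]; simp
    | succ m ih =>
      obtain ⟨⟨hE0, c', hc', hu0⟩, ⟨hE1, c, hc, hu1⟩⟩ := ih
      refine ⟨⟨hE1, c, hc, hu1⟩, ?_⟩
      obtain ⟨hE3, -, hrel⟩ := etg_addSub_E1 hW hE1 hP
      have e3 : (m + 1) • P + P = (m + 1 + 1) • P := (succ_nsmul P (m + 1)).symm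
      have e4 : (m + 1) • P - P = m • P := by rw [succ_nsmul, add_sub_cancel_right]
      rw [e3, e4, hu0, hu1] at hrel
      rw [e3] at hE3
      push_cast at hrel
      set u : K := etgU W P with hu_def
      -- the unit `G₂`
      have hu1A : (m + 1 : K) ^ 2 * u + u ^ 2 * c ∈ A := by
        refine add_mem (mul_mem (pow_mem ?_ 2) huA) (mul_mem (pow_mem huA 2) hc)
        exact add_mem (natCast_mem A m) A.one_mem
      have hσA : (m + 1 : K) ^ 2 * u + u ^ 2 * c + u ∈ A := add_mem hu1A huA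
      have hπm : A.valuation (((m + 1 : K) ^ 2 * u + u ^ 2 * c) * u) < 1 := etg_mul_lt hu1A hu
      have hπA : ((m + 1 : K) ^ 2 * u + u ^ 2 * c) * u ∈ A := mul_mem hu1A huA
      have vG₂ : A.valuation (1 - W.b₄ * (((m + 1 : K) ^ 2 * u + u ^ 2 * c) * u)
          - W.b₆ * ((m + 1 : K) ^ 2 * u + u ^ 2 * c + u) * (((m + 1 : K) ^ 2 * u + u ^ 2 * c) * u)
          - W.b₈ * (((m + 1 : K) ^ 2 * u + u ^ 2 * c) * u) ^ 2) = 1 := by
        have e : (1 - W.b₄ * (((m + 1 : K) ^ 2 * u + u ^ 2 * c) * u)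
          - W.b₆ * ((m + 1 : K) ^ 2 * u + u ^ 2 * c + u) * (((m + 1 : K) ^ 2 * u + u ^ 2 * c) * u)
          - W.b₈ * (((m + 1 : K) ^ 2 * u + u ^ 2 * c) * u) ^ 2) =
          1 - (W.b₄ + W.b₆ * ((m + 1 : K) ^ 2 * u + u ^ 2 * c + u)
            + W.b₈ * (((m + 1 : K) ^ 2 * u + u ^ 2 * c) * u))
            * (((m + 1 : K) ^ 2 * u + u ^ 2 * c) * u) := by ring
        rw [e]
        exact A.valuation.map_one_sub_of_lt (etg_mul_lt
          (add_mem (add_mem hW.b₄ (mul_mem hW.b₆ hσA)) (mul_mem hW.b₈ hπA)) hπm)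
      have hG₂0 : (1 - W.b₄ * (((m + 1 : K) ^ 2 * u + u ^ 2 * c) * u)
          - W.b₆ * ((m + 1 : K) ^ 2 * u + u ^ 2 * c + u) * (((m + 1 : K) ^ 2 * u + u ^ 2 * c) * u)
          - W.b₈ * (((m + 1 : K) ^ 2 * u + u ^ 2 * c) * u) ^ 2) ≠ 0 := by
        intro h0
        rw [h0, map_zero] at vG₂
        exact zero_ne_one vG₂
      have hgA := etg_inv_mem vG₂
      have hid := etg_step_identity u c c' _ (m : K) W.b₂ W.b₄ W.b₆ W.b₈ _
        (mul_inv_cancel₀ hG₂0) hrel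
      have hcast : ((m + 1 + 1 : ℕ) : K) = (m : K) + 1 + 1 := by push_cast; ring
      rw [hcast]
      refine ⟨hE3, _, ?_, hid⟩
      · refine add_mem (sub_mem (mul_mem (ofNat_mem A 2) hc) hc') (mul_mem (mul_mem ?_ ?_) hgA)
        · exact add_mem (pow_mem (add_mem (natCast_mem A m) A.one_mem) 2) (mul_mem huA hc)
        · refine add_mem (add_mem (add_mem hW.b₂ (mul_mem hW.b₄ hσA)) (mul_mem hW.b₆ hπA)) ?_
          exact mul_mem (mul_mem (ofNat_mem A 2) hσA)
            (add_mem (add_mem hW.b₄ (mul_mem hW.b₆ hσA)) (mul_mem hW.b₈ hπA))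
  exact (key m).1

/-- **No torsion of unit order in the kernel of reduction.** -/
theorem etg_no_torsion (hW : EtgInt A W) {n : ℕ} (hn : A.valuation (n : K) = 1)
    {P : W.toAffine.Point} (hP : EtgE1 A W P) (hnP : n • P = 0) : P = 0 := by
  rcases P with _ | ⟨x, y, h⟩
  · rfl
  · exfalso
    have hx : x ∉ A := hP
    obtain ⟨-, c, hc, hu⟩ := etg_u_nsmul hW hP n
    rw [hnP, etgU_zero, etgU_some] at hu
    have hx0 : x⁻¹ ≠ 0 := inv_ne_zero (etg_ne_zero_of_notMem hx)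
    have h1 : (n : K) ^ 2 = -(x⁻¹ * c) := by
      have : x⁻¹ * ((n : K) ^ 2 + x⁻¹ * c) = 0 := by rw [hu]; ring
      rcases mul_eq_zero.mp this with h0 | h0
      · exact absurd h0 hx0
      · exact eq_neg_of_add_eq_zero_left h0
    have h2 : A.valuation ((n : K) ^ 2) = 1 := by rw [map_pow, hn, one_pow]
    have h3 : A.valuation (-(x⁻¹ * c)) < 1 := by
      rw [Valuation.map_neg]
      exact etg_mul_lt' (etg_lt_of_notMem hx) hc
    rw [h1] at h2
    rw [h2] at h3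
    exact lt_irrefl _ h3


/-! ### Integrality of torsion points of unit order -/

omit [DecidableEq K] [W.IsElliptic] in
/-- a point with integral `x`-coordinate on an integral Weierstrass curve has integral
`y`-coordinate -/
theorem etg_y_mem (h₁ : W.a₁ ∈ A) (h₂ : W.a₂ ∈ A) (h₃ : W.a₃ ∈ A) (h₄ : W.a₄ ∈ A)
    (h₆ : W.a₆ ∈ A) {x y : K} (h : W.toAffine.Equation x y) (hx : x ∈ A) : y ∈ A := by
  rw [Affine.equation_iff] at h
  by_contra hy
  have hy1 : 1 < A.valuation y := by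
    have : ¬ A.valuation y ≤ 1 := fun h' => hy ((A.valuation_le_one_iff y).mp h')
    exact not_le.mp this
  -- `y² = -(a₁ x + a₃) y + (x³ + a₂ x² + a₄ x + a₆)`
  have e : y ^ 2 = -(W.a₁ * x + W.a₃) * y + (x ^ 3 + W.a₂ * x ^ 2 + W.a₄ * x + W.a₆) := by
    linear_combination h
  have hB : W.a₁ * x + W.a₃ ∈ A := add_mem (mul_mem h₁ hx) h₃
  have hC : x ^ 3 + W.a₂ * x ^ 2 + W.a₄ * x + W.a₆ ∈ A :=
    add_mem (add_mem (add_mem (pow_mem hx 3) (mul_mem h₂ (pow_mem hx 2))) (mul_mem h₄ hx)) h₆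
  have v1 : A.valuation (-(W.a₁ * x + W.a₃) * y) ≤ A.valuation y := by
    rw [map_mul, Valuation.map_neg]
    exact mul_le_of_le_one_left zero_le ((A.valuation_le_one_iff _).mpr hB)
  have v2 : A.valuation (x ^ 3 + W.a₂ * x ^ 2 + W.a₄ * x + W.a₆) ≤ A.valuation y :=
    ((A.valuation_le_one_iff _).mpr hC).trans hy1.le
  have v3 : A.valuation (y ^ 2) ≤ A.valuation y := by
    rw [e]
    exact A.valuation.map_add_le v1 v2
  have v4 : A.valuation y < A.valuation (y ^ 2) := by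
    rw [map_pow, sq]
    have hpos : 0 < A.valuation y := lt_trans zero_lt_one hy1
    calc A.valuation y = A.valuation y * 1 := (mul_one _).symm
      _ < A.valuation y * A.valuation y := by
          exact mul_lt_mul_of_pos_left hy1 hpos
  exact absurd v3 (not_le.mpr v4)

/-- **(G1)** a torsion point whose order is a unit of `A` has integral coordinates -/
theorem etg_integral (h₁ : W.a₁ ∈ A) (h₂ : W.a₂ ∈ A) (h₃ : W.a₃ ∈ A) (h₄ : W.a₄ ∈ A)
    (h₆ : W.a₆ ∈ A) {n : ℕ} (hn : A.valuation (n : K) = 1) {x y : K}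
    (h : W.toAffine.Nonsingular x y) (hP : n • (Affine.Point.some x y h) = 0) :
    x ∈ A ∧ y ∈ A := by
  have hx : x ∈ A := by
    by_contra hx
    have := etg_no_torsion (EtgInt.of_a h₁ h₂ h₃ h₄ h₆) hn (P := Affine.Point.some x y h) hx hP
    exact Affine.Point.some_ne_zero h this
  exact ⟨hx, etg_y_mem h₁ h₂ h₃ h₄ h₆ h.1 hx⟩

omit [DecidableEq K] [W.IsElliptic] in
/-- a natural number which is a unit of `A` has valuation one -/
theorem etg_val_natCast_of_isUnit {n : ℕ} (hn : IsUnit ((n : ℕ) : ↥A)) :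
    A.valuation (n : K) = 1 := by
  have := (A.valuation_eq_one_iff ((n : ℕ) : ↥A)).mp hn
  simpa using this

omit [DecidableEq K] [W.IsElliptic] in
/-- a natural number, nonzero in `K`, whose inverse is in `A`, has valuation one -/
theorem etg_val_natCast_of_inv_mem {n : ℕ} (hn0 : (n : K) ≠ 0) (hn : (n : K)⁻¹ ∈ A) :
    A.valuation (n : K) = 1 := by
  have h1 : A.valuation (n : K) ≤ 1 := (A.valuation_le_one_iff _).mpr (natCast_mem A n)
  have h2 : A.valuation (n : K)⁻¹ ≤ 1 := (A.valuation_le_one_iff _).mpr hn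
  rw [map_inv₀] at h2
  have hpos : 0 < A.valuation (n : K) := (A.valuation.pos_iff).mpr hn0
  have h3 : 1 ≤ A.valuation (n : K) := (inv_le_one₀ hpos).mp h2
  exact le_antisymm h1 h3


/-! ### The same for a model over the valuation ring -/

section Model

variable {K : Type*} [Field K] [DecidableEq K] (A : ValuationSubring K)
  (W : WeierstrassCurve ↥A)

omit [DecidableEq K] in
theorem etg_map_a_mem :
    (W.map A.subtype).a₁ ∈ A ∧ (W.map A.subtype).a₂ ∈ A ∧ (W.map A.subtype).a₃ ∈ A ∧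
      (W.map A.subtype).a₄ ∈ A ∧ (W.map A.subtype).a₆ ∈ A := by
  refine ⟨?_, ?_, ?_, ?_, ?_⟩
  · rw [WeierstrassCurve.map_a₁]; exact (W.a₁).2
  · rw [WeierstrassCurve.map_a₂]; exact (W.a₂).2
  · rw [WeierstrassCurve.map_a₃]; exact (W.a₃).2
  · rw [WeierstrassCurve.map_a₄]; exact (W.a₄).2
  · rw [WeierstrassCurve.map_a₆]; exact (W.a₆).2

variable [W.IsElliptic]

/-- **(G1), model form**: `W` a Weierstrass curve over the valuation ring `A` with good
reduction, `P` a point of `W` over `K` killed by `n`, `n` a unit of `A`.  Then `P` has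
integral coordinates. -/
theorem etg_integral_map {n : ℕ} (hn : IsUnit ((n : ℕ) : ↥A)) {x y : K}
    (h : (W.map A.subtype).toAffine.Nonsingular x y)
    (hP : n • (Affine.Point.some x y h) = 0) : x ∈ A ∧ y ∈ A := by
  obtain ⟨h₁, h₂, h₃, h₄, h₆⟩ := etg_map_a_mem A W
  exact etg_integral h₁ h₂ h₃ h₄ h₆ (etg_val_natCast_of_isUnit hn) h hP

/-- the kernel of reduction of a model has no torsion of unit order -/
theorem etg_no_torsion_map {n : ℕ} (hn : IsUnit ((n : ℕ) : ↥A))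
    {P : (W.map A.subtype).toAffine.Point} (hP : EtgE1 A (W.map A.subtype) P)
    (hnP : n • P = 0) : P = 0 := by
  obtain ⟨h₁, h₂, h₃, h₄, h₆⟩ := etg_map_a_mem A W
  exact etg_no_torsion (EtgInt.of_a h₁ h₂ h₃ h₄ h₆) (etg_val_natCast_of_isUnit hn) hP hnP

/-- the kernel of reduction of a model is closed under addition and subtraction -/
theorem etg_E1_add_sub_map {P Q : (W.map A.subtype).toAffine.Point}
    (hP : EtgE1 A (W.map A.subtype) P) (hQ : EtgE1 A (W.map A.subtype) Q) :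
    EtgE1 A (W.map A.subtype) (P + Q) ∧ EtgE1 A (W.map A.subtype) (P - Q) := by
  obtain ⟨h₁, h₂, h₃, h₄, h₆⟩ := etg_map_a_mem A W
  obtain ⟨h3, h4, -⟩ := etg_addSub_E1 (EtgInt.of_a h₁ h₂ h₃ h₄ h₆) hP hQ
  exact ⟨h3, h4⟩

end Model

end Fermat.Agent.ET
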