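/-
ET-G (helper3): reduction of points of an elliptic curve over a valuation ring, general
Weierstrass form, general valuation ring (all residue characteristics).

`A` a valuation subring of a field `K`, `W` a Weierstrass curve over `A` with unit discriminant,
`WK := W.map A.subtype`, `Wκ := W.map (IsLocalRing.residue A)`.

* `etg_slope_of_ne` / `etg_add_of_ne`: if the reductions of two integral points `P`, `Q` satisfy
  `P̄ ≠ -Q̄`, the slope is integral and reduces to the slope of the reductions; `P + Q` is integral and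
  reduces to `P̄ + Q̄`;
* `etg_add_of_eq`: if `P̄ = -Q̄` but `P ≠ -Q`, then `x(P + Q) ∉ A`;
* `etg_close` (G2): two integral `n`-torsion points with the same reduction are equal, provided
  nonzero `n`-torsion points are integral (`EtgInt`, proved in `RedKernel.lean` for `n` a unit);
* `etgRedFun`, `etgRed` (G3): the reduction map on `n`-torsion is an injective group homomorphism.
-/
import Mathlib
import Fermat.Agent.Lib.ET.RedKernel

set_option autoImplicit false

open WeierstrassCurve WeierstrassCurve.Affine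
open scoped WeierstrassCurve.Affine

noncomputable section

namespace Fermat.Agent.ET

/-! ### slopes over a field: the two linear relations characterising the slope -/

section field

variable {F : Type*} [Field F] [DecidableEq F] (W : Affine F)

theorem etg_slope_mul_sub_X {x₁ x₂ y₁ y₂ : F} (h₁ : W.Equation x₁ y₁) (h₂ : W.Equation x₂ y₂)
    (hxy : ¬(x₁ = x₂ ∧ y₁ = W.negY x₂ y₂)) :
    W.slope x₁ x₂ y₁ y₂ * (x₁ - x₂) = y₁ - y₂ := by
  by_cases hx : x₁ = x₂
  · have hy : y₁ ≠ W.negY x₂ y₂ := fun h => hxy ⟨hx, h⟩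
    have hyy : y₁ = y₂ := Y_eq_of_Y_ne h₁ h₂ hx hy
    rw [hx, hyy, sub_self, sub_self, mul_zero]
  · rw [slope_of_X_ne hx, div_mul_cancel₀ _ (sub_ne_zero.mpr hx)]

theorem etg_slope_mul_sub_Y {x₁ x₂ y₁ y₂ : F} (h₁ : W.Equation x₁ y₁) (h₂ : W.Equation x₂ y₂)
    (hxy : ¬(x₁ = x₂ ∧ y₁ = W.negY x₂ y₂)) :
    W.slope x₁ x₂ y₁ y₂ * (y₁ - W.negY x₂ y₂) =
      x₁ ^ 2 + x₁ * x₂ + x₂ ^ 2 + W.a₂ * (x₁ + x₂) + W.a₄ - W.a₁ * y₁ := by
  by_cases hx : x₁ = x₂
  · have hy : y₁ ≠ W.negY x₂ y₂ := fun h => hxy ⟨hx, h⟩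
    have hyy : y₁ = y₂ := Y_eq_of_Y_ne h₁ h₂ hx hy
    subst hx hyy
    rw [slope_of_Y_ne rfl hy, div_mul_cancel₀ _ (sub_ne_zero.mpr hy)]
    ring
  · have hne : x₁ - x₂ ≠ 0 := sub_ne_zero.mpr hx
    rw [slope_of_X_ne hx]
    rw [equation_iff] at h₁ h₂
    rw [div_mul_eq_mul_div, div_eq_iff hne, negY]
    linear_combination h₁ - h₂

theorem etg_slope_unique {x₁ x₂ y₁ y₂ L : F} (h₁ : W.Equation x₁ y₁) (h₂ : W.Equation x₂ y₂)
    (hxy : ¬(x₁ = x₂ ∧ y₁ = W.negY x₂ y₂)) (ha : L * (x₁ - x₂) = y₁ - y₂)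
    (hb : L * (y₁ - W.negY x₂ y₂) =
      x₁ ^ 2 + x₁ * x₂ + x₂ ^ 2 + W.a₂ * (x₁ + x₂) + W.a₄ - W.a₁ * y₁) :
    L = W.slope x₁ x₂ y₁ y₂ := by
  have ha' := etg_slope_mul_sub_X W h₁ h₂ hxy
  have hb' := etg_slope_mul_sub_Y W h₁ h₂ hxy
  by_cases hx : x₁ = x₂
  · have hy : y₁ - W.negY x₂ y₂ ≠ 0 := sub_ne_zero.mpr fun h => hxy ⟨hx, h⟩
    exact mul_right_cancel₀ hy (hb.trans hb'.symm)
  · exact mul_right_cancel₀ (sub_ne_zero.mpr hx) (ha.trans ha'.symm)

end field

/-! ### the valuation ring setting -/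

variable {K : Type*} [Field K] (A : ValuationSubring K) (W : WeierstrassCurve ↥A)

/-- the curve over the fraction field -/
abbrev etgWK : Affine K := (W.map A.subtype).toAffine

/-- the curve over the residue field -/
abbrev etgWk : Affine (IsLocalRing.ResidueField ↥A) := (W.map (IsLocalRing.residue ↥A)).toAffine

theorem etg_equation_iff (x y : ↥A) :
    (etgWK A W).Equation (x : K) (y : K) ↔ W.toAffine.Equation x y :=
  Affine.map_equation W.toAffine (f := A.subtype) Subtype.val_injective x y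

theorem etg_equation_res {x y : ↥A} (h : (etgWK A W).Equation (x : K) (y : K)) :
    (etgWk A W).Equation (IsLocalRing.residue ↥A x) (IsLocalRing.residue ↥A y) :=
  Affine.Equation.map (IsLocalRing.residue ↥A) ((etg_equation_iff A W x y).mp h)

/-- the reduction of an integral point is a nonsingular point of the reduced curve -/
theorem etg_nonsingular_res [W.IsElliptic] {x y : ↥A}
    (h : (etgWK A W).Nonsingular (x : K) (y : K)) :
    (etgWk A W).Nonsingular (IsLocalRing.residue ↥A x) (IsLocalRing.residue ↥A y) :=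
  (Affine.equation_iff_nonsingular (W := etgWk A W)).mp (etg_equation_res A W h.1)

theorem etg_negY_coe (x y : ↥A) :
    (etgWK A W).negY (x : K) (y : K) = ((W.toAffine.negY x y : ↥A) : K) :=
  Affine.map_negY (W' := W.toAffine) (f := A.subtype) (x := x) (y := y)

theorem etg_negY_res (x y : ↥A) :
    (etgWk A W).negY (IsLocalRing.residue ↥A x) (IsLocalRing.residue ↥A y) =
      IsLocalRing.residue ↥A (W.toAffine.negY x y) :=
  Affine.map_negY (W' := W.toAffine) (f := IsLocalRing.residue ↥A) (x := x) (y := y)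

/-- dividing by an element with nonzero residue stays in `A` -/
theorem etg_mem_of_mul_eq {L : K} {d N : ↥A} (hd : IsLocalRing.residue ↥A d ≠ 0)
    (h : L * (d : K) = (N : K)) : L ∈ A := by
  obtain ⟨u, rfl⟩ := (IsLocalRing.residue_ne_zero_iff_isUnit d).mp hd
  have hu0 : ((u : ↥A) : K) ≠ 0 := fun h0 => u.ne_zero (Subtype.ext h0)
  have hinv : (((u⁻¹ : (↥A)ˣ) : ↥A) : K) = ((u : ↥A) : K)⁻¹ := by
    apply eq_inv_of_mul_eq_one_left
    rw [← MulMemClass.coe_mul, Units.inv_mul]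
    rfl
  have : L = ((N * ((u⁻¹ : (↥A)ˣ) : ↥A) : ↥A) : K) := by
    rw [MulMemClass.coe_mul, hinv, ← div_eq_mul_inv]
    exact eq_div_of_mul_eq hu0 h
  rw [this]
  exact Subtype.property _

/-! ### (L1): `P̄ ≠ -Q̄` -/

section L1

variable [DecidableEq K] [DecidableEq (IsLocalRing.ResidueField ↥A)]

omit [DecidableEq K] [DecidableEq (IsLocalRing.ResidueField ↥A)] in
/-- the hypothesis `P̄ ≠ -Q̄` implies `P ≠ -Q` -/
theorem etg_ne_of_res_ne {x₁ y₁ x₂ y₂ : ↥A}
    (hne : ¬ (IsLocalRing.residue ↥A x₁ = IsLocalRing.residue ↥A x₂ ∧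
      IsLocalRing.residue ↥A y₁ =
        (etgWk A W).negY (IsLocalRing.residue ↥A x₂) (IsLocalRing.residue ↥A y₂))) :
    ¬ ((x₁ : K) = x₂ ∧ (y₁ : K) = (etgWK A W).negY x₂ y₂) := by
  rintro ⟨hx, hy⟩
  apply hne
  rw [etg_negY_coe] at hy
  have hx' : x₁ = x₂ := Subtype.ext hx
  have hy' : y₁ = W.toAffine.negY x₂ y₂ := Subtype.ext hy
  rw [etg_negY_res]
  exact ⟨by rw [hx'], by rw [hy']⟩

omit [DecidableEq (IsLocalRing.ResidueField ↥A)] in
/-- the two slope relations for integral points, inside `A` -/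
theorem etg_slope_rel {x₁ y₁ x₂ y₂ L : ↥A}
    (h₁ : (etgWK A W).Equation (x₁ : K) (y₁ : K)) (h₂ : (etgWK A W).Equation (x₂ : K) (y₂ : K))
    (hxy : ¬ ((x₁ : K) = x₂ ∧ (y₁ : K) = (etgWK A W).negY x₂ y₂))
    (hL : (L : K) = (etgWK A W).slope x₁ x₂ y₁ y₂) :
    L * (x₁ - x₂) = y₁ - y₂ ∧
      L * (y₁ - W.toAffine.negY x₂ y₂) =
        x₁ ^ 2 + x₁ * x₂ + x₂ ^ 2 + W.a₂ * (x₁ + x₂) + W.a₄ - W.a₁ * y₁ := by
  have ha := etg_slope_mul_sub_X (etgWK A W) h₁ h₂ hxy
  have hb := etg_slope_mul_sub_Y (etgWK A W) h₁ h₂ hxy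
  rw [etg_negY_coe, ← hL] at hb
  rw [← hL] at ha
  constructor
  · apply Subtype.ext
    push_cast
    exact ha
  · apply Subtype.ext
    push_cast
    exact hb

/-- **(L1)** if `P̄ ≠ -Q̄`, the slope of the line through the integral points `P` and `Q` is
integral and reduces to the slope of the line through `P̄` and `Q̄`. -/
theorem etg_slope_of_ne {x₁ y₁ x₂ y₂ : ↥A}
    (h₁ : (etgWK A W).Equation (x₁ : K) (y₁ : K)) (h₂ : (etgWK A W).Equation (x₂ : K) (y₂ : K))
    (hne : ¬ (IsLocalRing.residue ↥A x₁ = IsLocalRing.residue ↥A x₂ ∧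
      IsLocalRing.residue ↥A y₁ =
        (etgWk A W).negY (IsLocalRing.residue ↥A x₂) (IsLocalRing.residue ↥A y₂))) :
    ∃ L : ↥A, (L : K) = (etgWK A W).slope x₁ x₂ y₁ y₂ ∧
      IsLocalRing.residue ↥A L = (etgWk A W).slope (IsLocalRing.residue ↥A x₁)
        (IsLocalRing.residue ↥A x₂) (IsLocalRing.residue ↥A y₁) (IsLocalRing.residue ↥A y₂) := by
  have hxy := etg_ne_of_res_ne A W hne
  have ha := etg_slope_mul_sub_X (etgWK A W) h₁ h₂ hxy
  have hb := etg_slope_mul_sub_Y (etgWK A W) h₁ h₂ hxy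
  rw [etg_negY_coe] at hb
  -- the slope is integral
  have hL : (etgWK A W).slope (x₁ : K) x₂ y₁ y₂ ∈ A := by
    by_cases hx : IsLocalRing.residue ↥A x₁ = IsLocalRing.residue ↥A x₂
    · have hy : IsLocalRing.residue ↥A y₁ ≠
          (etgWk A W).negY (IsLocalRing.residue ↥A x₂) (IsLocalRing.residue ↥A y₂) :=
        fun h => hne ⟨hx, h⟩
      rw [etg_negY_res, ← sub_ne_zero, ← map_sub] at hy
      refine etg_mem_of_mul_eq A hy (N := x₁ ^ 2 + x₁ * x₂ + x₂ ^ 2 + W.a₂ * (x₁ + x₂) + W.a₄ -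
        W.a₁ * y₁) ?_
      push_cast
      exact hb
    · have hx' : IsLocalRing.residue ↥A (x₁ - x₂) ≠ 0 := by
        rw [map_sub, sub_ne_zero]
        exact hx
      refine etg_mem_of_mul_eq A hx' (N := y₁ - y₂) ?_
      push_cast
      exact ha
  refine ⟨⟨_, hL⟩, rfl, ?_⟩
  obtain ⟨ha', hb'⟩ := etg_slope_rel A W (L := ⟨_, hL⟩) h₁ h₂ hxy rfl
  apply etg_slope_unique (etgWk A W) (etg_equation_res A W h₁) (etg_equation_res A W h₂) hne
  · have := congrArg (IsLocalRing.residue ↥A) ha'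
    simpa only [map_mul, map_sub] using this
  · have := congrArg (IsLocalRing.residue ↥A) hb'
    rw [etg_negY_res]
    simp only [map_mul, map_sub, map_add, map_pow] at this
    exact this

omit [DecidableEq K] [DecidableEq (IsLocalRing.ResidueField ↥A)] in
theorem etg_some_congr {F : Type*} [Field F] {W' : Affine F} {x y x' y' : F} (hx : x = x')
    (hy : y = y') (h : W'.Nonsingular x y) :
    ∃ h' : W'.Nonsingular x' y', Point.some x y h = Point.some x' y' h' := by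
  subst hx hy
  exact ⟨h, rfl⟩

/-- **(L1), points**: if `P̄ ≠ -Q̄` then `P + Q` is integral and reduces to `P̄ + Q̄`. -/
theorem etg_add_of_ne [W.IsElliptic] {x₁ y₁ x₂ y₂ : ↥A}
    (h₁ : (etgWK A W).Nonsingular (x₁ : K) (y₁ : K))
    (h₂ : (etgWK A W).Nonsingular (x₂ : K) (y₂ : K))
    (hne : ¬ (IsLocalRing.residue ↥A x₁ = IsLocalRing.residue ↥A x₂ ∧
      IsLocalRing.residue ↥A y₁ =
        (etgWk A W).negY (IsLocalRing.residue ↥A x₂) (IsLocalRing.residue ↥A y₂))) :
    ∃ (x₃ y₃ : ↥A) (h₃ : (etgWK A W).Nonsingular (x₃ : K) (y₃ : K)),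
      Point.some _ _ h₁ + Point.some _ _ h₂ = Point.some _ _ h₃ ∧
      Point.some _ _ (etg_nonsingular_res A W h₁) + Point.some _ _ (etg_nonsingular_res A W h₂) =
        Point.some _ _ (etg_nonsingular_res A W h₃) := by
  obtain ⟨L, hLK, hLk⟩ := etg_slope_of_ne A W h₁.1 h₂.1 hne
  have hxy := etg_ne_of_res_ne A W hne
  have hx₃ : (etgWK A W).addX x₁ x₂ ((etgWK A W).slope x₁ x₂ y₁ y₂) =
      ((W.toAffine.addX x₁ x₂ L : ↥A) : K) := by
    rw [← hLK]
    exact Affine.map_addX (W' := W.toAffine) A.subtype x₁ x₂ L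
  have hy₃ : (etgWK A W).addY x₁ x₂ y₁ ((etgWK A W).slope x₁ x₂ y₁ y₂) =
      ((W.toAffine.addY x₁ x₂ y₁ L : ↥A) : K) := by
    rw [← hLK]
    exact Affine.map_addY (W' := W.toAffine) A.subtype x₁ y₁ x₂ L
  obtain ⟨h₃, h₃eq⟩ := etg_some_congr hx₃ hy₃ (nonsingular_add h₁ h₂ hxy)
  refine ⟨W.toAffine.addX x₁ x₂ L, W.toAffine.addY x₁ x₂ y₁ L, h₃, ?_, ?_⟩
  · rw [Point.add_some hxy, h₃eq]
  · rw [Point.add_some hne, Point.some.injEq, ← hLk]
    exact ⟨Affine.map_addX (W' := W.toAffine) (IsLocalRing.residue ↥A) x₁ x₂ L,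
      Affine.map_addY (W' := W.toAffine) (IsLocalRing.residue ↥A) x₁ y₁ x₂ L⟩

end L1

/-! ### (L2): `P̄ = -Q̄` but `P ≠ -Q` -/

section L2

variable [DecidableEq K]

/-- **(L2), slope**: if `P̄ = -Q̄` but `P ≠ -Q`, the slope of the line through `P` and `Q` is not
integral (otherwise `P̄` would be a singular point of the reduction). -/
theorem etg_slope_notMem [W.IsElliptic] {x₁ y₁ x₂ y₂ : ↥A}
    (h₁ : (etgWK A W).Nonsingular (x₁ : K) (y₁ : K))
    (h₂ : (etgWK A W).Equation (x₂ : K) (y₂ : K))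
    (hx : IsLocalRing.residue ↥A x₁ = IsLocalRing.residue ↥A x₂)
    (hy : IsLocalRing.residue ↥A y₁ =
        (etgWk A W).negY (IsLocalRing.residue ↥A x₂) (IsLocalRing.residue ↥A y₂))
    (hxy : ¬ ((x₁ : K) = x₂ ∧ (y₁ : K) = (etgWK A W).negY x₂ y₂)) :
    (etgWK A W).slope (x₁ : K) x₂ y₁ y₂ ∉ A := by
  intro hL
  obtain ⟨ha, hb⟩ := etg_slope_rel A W (L := ⟨_, hL⟩) h₁.1 h₂ hxy rfl
  have ha' := congrArg (IsLocalRing.residue ↥A) ha
  have hb' := congrArg (IsLocalRing.residue ↥A) hb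
  have hy' := hy
  rw [etg_negY_res] at hy'
  simp only [map_mul, map_sub, map_add, map_pow] at ha' hb'
  rw [← hy', sub_self, mul_zero] at hb'
  rw [hx, sub_self, mul_zero] at ha'
  have hns := etg_nonsingular_res A W h₁
  rw [nonsingular_iff'] at hns
  simp only [WeierstrassCurve.map_a₁, WeierstrassCurve.map_a₂, WeierstrassCurve.map_a₃,
    WeierstrassCurve.map_a₄] at hns
  rw [negY] at hy
  simp only [WeierstrassCurve.map_a₁, WeierstrassCurve.map_a₃] at hy
  rcases hns.2 with h | h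
  · apply h
    rw [← hx] at hb'
    linear_combination hb'
  · apply h
    rw [← hx] at hy
    linear_combination hy - ha'

omit [DecidableEq K] in
/-- if the slope is not integral then neither is the `x`-coordinate of the sum -/
theorem etg_addX_notMem {x₁ x₂ : ↥A} {L : K} (hL : L ∉ A) :
    (etgWK A W).addX (x₁ : K) x₂ L ∉ A := by
  intro h
  apply hL
  have hL0 : L ≠ 0 := fun h0 => hL (h0 ▸ A.zero_mem)
  have hinv : L⁻¹ ∈ A := (A.mem_or_inv_mem L).resolve_left hL
  have : L = ((etgWK A W).addX (x₁ : K) x₂ L + (W.a₂ : K) + x₁ + x₂) * L⁻¹ - (W.a₁ : K) := by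
    simp only [addX, WeierstrassCurve.map_a₁, WeierstrassCurve.map_a₂, ValuationSubring.subtype_apply]
    field_simp
    ring
  rw [this]
  exact sub_mem (mul_mem (add_mem (add_mem (add_mem h W.a₂.2) x₁.2) x₂.2) hinv) W.a₁.2

/-- **(L2)** if `P̄ = -Q̄` but `P ≠ -Q`, then `P + Q` is a point with non-integral `x`-coordinate,
i.e. a nonzero point of the kernel of reduction. -/
theorem etg_add_of_eq [W.IsElliptic] {x₁ y₁ x₂ y₂ : ↥A}
    (h₁ : (etgWK A W).Nonsingular (x₁ : K) (y₁ : K))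
    (h₂ : (etgWK A W).Nonsingular (x₂ : K) (y₂ : K))
    (hx : IsLocalRing.residue ↥A x₁ = IsLocalRing.residue ↥A x₂)
    (hy : IsLocalRing.residue ↥A y₁ =
        (etgWk A W).negY (IsLocalRing.residue ↥A x₂) (IsLocalRing.residue ↥A y₂))
    (hxy : ¬ ((x₁ : K) = x₂ ∧ (y₁ : K) = (etgWK A W).negY x₂ y₂)) :
    ∃ (x₃ y₃ : K) (h₃ : (etgWK A W).Nonsingular x₃ y₃),
      Point.some _ _ h₁ + Point.some _ _ h₂ = Point.some x₃ y₃ h₃ ∧ x₃ ∉ A :=
  ⟨_, _, nonsingular_add h₁ h₂ hxy, Point.add_some hxy,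
    etg_addX_notMem A W (etg_slope_notMem A W h₁ h₂.1 hx hy hxy)⟩

end L2

/-! ### (G2): congruent torsion points are equal -/

section G2

variable [DecidableEq K] [W.IsElliptic]

/-- **(G2)** two integral `n`-torsion points (`n` a unit of `A`) with the same reduction are
equal. -/
theorem etg_close {n : ℕ} (hn : IsUnit ((n : ℕ) : ↥A)) {x₁ y₁ x₂ y₂ : ↥A}
    (h₁ : (etgWK A W).Nonsingular (x₁ : K) (y₁ : K))
    (h₂ : (etgWK A W).Nonsingular (x₂ : K) (y₂ : K))
    (hP : n • (Point.some _ _ h₁) = 0) (hQ : n • (Point.some _ _ h₂) = 0)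
    (hx : IsLocalRing.residue ↥A x₁ = IsLocalRing.residue ↥A x₂)
    (hy : IsLocalRing.residue ↥A y₁ = IsLocalRing.residue ↥A y₂) : x₁ = x₂ ∧ y₁ = y₂ := by
  by_contra hcon
  have h₂' : (etgWK A W).Nonsingular (x₂ : K) ((W.toAffine.negY x₂ y₂ : ↥A) : K) := by
    rw [← etg_negY_coe]
    exact (nonsingular_neg ..).mpr h₂
  have hneg : -(Point.some _ _ h₂) = Point.some _ _ h₂' := by
    rw [Point.neg_some, Point.some.injEq]
    exact ⟨rfl, etg_negY_coe A W x₂ y₂⟩
  have hxy : ¬ ((x₁ : K) = x₂ ∧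
      (y₁ : K) = (etgWK A W).negY x₂ ((W.toAffine.negY x₂ y₂ : ↥A) : K)) := by
    rintro ⟨e1, e2⟩
    rw [etg_negY_coe, negY_negY] at e2
    exact hcon ⟨Subtype.ext e1, Subtype.ext e2⟩
  have hy' : IsLocalRing.residue ↥A y₁ = (etgWk A W).negY (IsLocalRing.residue ↥A x₂)
      (IsLocalRing.residue ↥A (W.toAffine.negY x₂ y₂)) := by
    rw [etg_negY_res, negY_negY]
    exact hy
  obtain ⟨x₃, y₃, h₃, hsum, hx₃⟩ := etg_add_of_eq A W h₁ h₂' hx hy' hxy
  have hn3 : n • Point.some x₃ y₃ h₃ = 0 := by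
    rw [← hsum, ← hneg, smul_add, smul_neg, hP, hQ, neg_zero, add_zero]
  exact hx₃ (etg_integral_map A W hn h₃ hn3).1

end G2

/-! ### (G3): the reduction map on torsion -/

section G3

open Classical in
/-- coordinatewise reduction of points: `(x, y) ↦ (x̄, ȳ)` if `x, y ∈ A` and `(x̄, ȳ)` is a
nonsingular point of `Wκ'`; every other point is sent to `0`.  The curves `WK'`, `Wκ'` are arbitrary
here; the map is meaningful when they are the generic and special fibre of a model over `A`. -/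
def etgRedFun (WK' : Affine K) (Wκ' : Affine (IsLocalRing.ResidueField ↥A)) :
    WK'.Point → Wκ'.Point
  | .zero => 0
  | .some x y _ =>
    if hx : x ∈ A then
      if hy : y ∈ A then
        if h' : Wκ'.Nonsingular (IsLocalRing.residue ↥A ⟨x, hx⟩) (IsLocalRing.residue ↥A ⟨y, hy⟩)
        then .some _ _ h' else 0
      else 0
    else 0

variable {WK' : Affine K} {Wκ' : Affine (IsLocalRing.ResidueField ↥A)}

@[simp] theorem etgRedFun_zero : etgRedFun A WK' Wκ' 0 = 0 := rfl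

theorem etgRedFun_some {x y : ↥A} (h : WK'.Nonsingular (x : K) (y : K))
    (h' : Wκ'.Nonsingular (IsLocalRing.residue ↥A x) (IsLocalRing.residue ↥A y)) :
    etgRedFun A WK' Wκ' (.some _ _ h) = .some _ _ h' := by
  have hx : (x : K) ∈ A := x.2
  have hy : (y : K) ∈ A := y.2
  simp only [etgRedFun]
  rw [dif_pos hx, dif_pos hy, dif_pos h']

theorem etgRedFun_some_of_mem {x y : K} (h : WK'.Nonsingular x y) (hx : x ∈ A) (hy : y ∈ A)
    (h' : Wκ'.Nonsingular (IsLocalRing.residue ↥A ⟨x, hx⟩) (IsLocalRing.residue ↥A ⟨y, hy⟩)) :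
    etgRedFun A WK' Wκ' (.some _ _ h) = .some _ _ h' :=
  etgRedFun_some A (x := ⟨x, hx⟩) (y := ⟨y, hy⟩) h h'

variable [DecidableEq K] [DecidableEq (IsLocalRing.ResidueField ↥A)] [W.IsElliptic]

/-- additivity of the reduction map on `n`-torsion, `n` a unit of `A` -/
theorem etgRedFun_add {n : ℕ} (hn : IsUnit ((n : ℕ) : ↥A)) {P Q : (etgWK A W).Point}
    (hP : n • P = 0) (hQ : n • Q = 0) :
    etgRedFun A (etgWK A W) (etgWk A W) (P + Q) =
      etgRedFun A (etgWK A W) (etgWk A W) P + etgRedFun A (etgWK A W) (etgWk A W) Q := by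
  rcases P with _ | ⟨x₁, y₁, h₁⟩
  · change etgRedFun A _ _ (0 + Q) = 0 + _
    rw [zero_add, zero_add]
  rcases Q with _ | ⟨x₂, y₂, h₂⟩
  · change etgRedFun A _ _ (_ + 0) = _ + 0
    rw [add_zero, add_zero]
  obtain ⟨hx₁, hy₁⟩ := etg_integral_map A W hn h₁ hP
  obtain ⟨hx₂, hy₂⟩ := etg_integral_map A W hn h₂ hQ
  lift x₁ to ↥A using hx₁
  lift y₁ to ↥A using hy₁
  lift x₂ to ↥A using hx₂
  lift y₂ to ↥A using hy₂
  rw [etgRedFun_some A h₁ (etg_nonsingular_res A W h₁),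
    etgRedFun_some A h₂ (etg_nonsingular_res A W h₂)]
  by_cases hne : IsLocalRing.residue ↥A x₁ = IsLocalRing.residue ↥A x₂ ∧
      IsLocalRing.residue ↥A y₁ =
        (etgWk A W).negY (IsLocalRing.residue ↥A x₂) (IsLocalRing.residue ↥A y₂)
  · -- `P̄ = -Q̄`, so `P = -Q` by (G2)
    have h₂' : (etgWK A W).Nonsingular (x₂ : K) ((W.toAffine.negY x₂ y₂ : ↥A) : K) := by
      rw [← etg_negY_coe]
      exact (nonsingular_neg ..).mpr h₂
    have hneg : -(Point.some _ _ h₂) = Point.some _ _ h₂' := by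
      rw [Point.neg_some, Point.some.injEq]
      exact ⟨rfl, etg_negY_coe A W x₂ y₂⟩
    have hQ' : n • Point.some _ _ h₂' = 0 := by
      rw [← hneg, smul_neg, hQ, neg_zero]
    have hy := hne.2
    rw [etg_negY_res] at hy
    obtain ⟨e1, e2⟩ := etg_close A W hn h₁ h₂' hP hQ' hne.1 hy
    have hsum : Point.some _ _ h₁ + Point.some _ _ h₂ = 0 := by
      apply Point.add_of_Y_eq
      · rw [e1]
      · rw [e2, etg_negY_coe]
    rw [hsum, etgRedFun_zero, Point.add_of_Y_eq hne.1 hne.2]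
  · obtain ⟨x₃, y₃, h₃, hK, hκ⟩ := etg_add_of_ne A W h₁ h₂ hne
    rw [hK, etgRedFun_some A h₃ (etg_nonsingular_res A W h₃), hκ]

omit [DecidableEq (IsLocalRing.ResidueField ↥A)] in
/-- a nonzero `n`-torsion point does not reduce to `0` -/
theorem etgRedFun_ne_zero {n : ℕ} (hn : IsUnit ((n : ℕ) : ↥A)) {P : (etgWK A W).Point}
    (hP : n • P = 0) (hP0 : P ≠ 0) : etgRedFun A (etgWK A W) (etgWk A W) P ≠ 0 := by
  rcases P with _ | ⟨x₁, y₁, h₁⟩
  · exact absurd rfl hP0
  obtain ⟨hx₁, hy₁⟩ := etg_integral_map A W hn h₁ hP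
  lift x₁ to ↥A using hx₁
  lift y₁ to ↥A using hy₁
  rw [etgRedFun_some A h₁ (etg_nonsingular_res A W h₁)]
  exact Point.some_ne_zero _

omit [W.IsElliptic] [DecidableEq (IsLocalRing.ResidueField ↥A)] in
theorem etg_nsmul_of_mem_torsionBy {WK' : Affine K} {n : ℕ}
    (P : ↥(Submodule.torsionBy ℤ WK'.Point (n : ℤ))) : n • (P : WK'.Point) = 0 := by
  have := (Submodule.mem_torsionBy_iff _ _).mp P.2
  rwa [natCast_zsmul] at this

omit [DecidableEq (IsLocalRing.ResidueField ↥A)] in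
/-- (G1) for a curve equal to the generic fibre of the model -/
theorem etg_integral_of_eq {WK' : Affine K} (hK : W.map A.subtype = WK') {n : ℕ}
    (hn : IsUnit ((n : ℕ) : ↥A)) {x y : K} (h : WK'.Nonsingular x y)
    (hP : n • (Point.some x y h) = 0) : x ∈ A ∧ y ∈ A := by
  subst hK
  exact etg_integral_map A W hn h hP

omit [DecidableEq K] [DecidableEq (IsLocalRing.ResidueField ↥A)] in
/-- nonsingularity of the reduction for curves equal to the fibres of the model -/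
theorem etg_nonsingular_res_of_eq {WK' : Affine K}
    {Wκ' : Affine (IsLocalRing.ResidueField ↥A)} (hK : W.map A.subtype = WK')
    (hκ : W.map (IsLocalRing.residue ↥A) = Wκ') {x y : ↥A}
    (h : WK'.Nonsingular (x : K) (y : K)) :
    Wκ'.Nonsingular (IsLocalRing.residue ↥A x) (IsLocalRing.residue ↥A y) := by
  subst hK hκ
  exact etg_nonsingular_res A W h

/-- **(G3)** the reduction map on the `n`-torsion (`n` a unit of `A`) as a group homomorphism.
The generic fibre `WK'` and the special fibre `Wκ'` are given separately, with equalities to the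
fibres of the model `W`, so that applications need no casts of points. -/
def etgRed {WK' : Affine K} {Wκ' : Affine (IsLocalRing.ResidueField ↥A)}
    (hK : W.map A.subtype = WK') (hκ : W.map (IsLocalRing.residue ↥A) = Wκ') {n : ℕ}
    (hn : IsUnit ((n : ℕ) : ↥A)) :
    ↥(Submodule.torsionBy ℤ WK'.Point (n : ℤ)) →+ Wκ'.Point where
  toFun P := etgRedFun A WK' Wκ' P
  map_zero' := rfl
  map_add' P Q := by
    subst hK hκ
    exact etgRedFun_add A W hn (etg_nsmul_of_mem_torsionBy P) (etg_nsmul_of_mem_torsionBy Q)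

theorem etgRed_apply {WK' : Affine K} {Wκ' : Affine (IsLocalRing.ResidueField ↥A)}
    (hK : W.map A.subtype = WK') (hκ : W.map (IsLocalRing.residue ↥A) = Wκ') {n : ℕ}
    (hn : IsUnit ((n : ℕ) : ↥A)) (P : ↥(Submodule.torsionBy ℤ WK'.Point (n : ℤ))) :
    etgRed A W hK hκ hn P = etgRedFun A WK' Wκ' P := rfl

theorem etgRed_injective {WK' : Affine K} {Wκ' : Affine (IsLocalRing.ResidueField ↥A)}
    (hK : W.map A.subtype = WK') (hκ : W.map (IsLocalRing.residue ↥A) = Wκ') {n : ℕ}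
    (hn : IsUnit ((n : ℕ) : ↥A)) : Function.Injective (etgRed A W hK hκ hn) := by
  subst hK hκ
  rw [injective_iff_map_eq_zero]
  intro P h0
  by_contra hP0
  refine etgRedFun_ne_zero A W hn (etg_nsmul_of_mem_torsionBy P) ?_ h0
  intro h
  exact hP0 (Subtype.ext h)

end G3

end Fermat.Agent.ET
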