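/-
ET-G4 (helper3): the reduction map at `K = ℚ̄`.

`W` a Weierstrass curve over `ℤ`, `ℓ` a prime of good reduction, `A` a valuation subring of `ℚ̄`
over `ℓ`, `κ` its residue field (an algebraically closed field of characteristic `ℓ`).  For `n` prime
to `ℓ` the coordinatewise reduction is an injective group homomorphism
`etgRedQ : E(ℚ̄)[n] →+ Ẽ(κ)`, `E = (W.map (Int.castRingHom ℚ))⁄ℚ̄`, `Ẽ = (W.reductionMod ℓ)⁄κ`,
and a Frobenius element `σ` at `A` acts on the reduction as the Frobenius endomorphism `etFrob`.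
-/
import Mathlib
import Fermat.Agent.Lib.ET.Defs
import Fermat.Agent.Lib.ET.Reduction
import Fermat.Prelude.Def_EllipticCurve_FrobeniusTrace

set_option autoImplicit false
set_option linter.unusedSectionVars false

open WeierstrassCurve WeierstrassCurve.Affine
open scoped WeierstrassCurve.Affine

noncomputable section

namespace Fermat.Agent.ET

local notation "Qb" => AlgebraicClosure ℚ

variable (W : WeierstrassCurve ℤ) {ℓ : ℕ} [Fact ℓ.Prime] (A : ValuationSubring Qb)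

/-! ### the residue field -/

theorem etg_natCast_mem_maximalIdeal (hA : A.LiesOverPrime ℓ) :
    ((ℓ : ℕ) : ↥A) ∈ IsLocalRing.maximalIdeal ↥A := by
  obtain ⟨ha, hm⟩ := A.mem_nonunits_iff_exists_mem_maximalIdeal.mp hA
  have : ((ℓ : ℕ) : ↥A) = ⟨(ℓ : Qb), ha⟩ := Subtype.ext (by push_cast; rfl)
  rw [this]
  exact hm

/-- the residue field has characteristic `ℓ` -/
theorem etg_charP (hA : A.LiesOverPrime ℓ) : CharP (IsLocalRing.ResidueField ↥A) ℓ := by
  obtain ⟨p, hp⟩ := CharP.exists (IsLocalRing.ResidueField ↥A)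
  have h0 : ((ℓ : ℕ) : IsLocalRing.ResidueField ↥A) = 0 := by
    rw [← map_natCast (IsLocalRing.residue ↥A), IsLocalRing.residue_eq_zero_iff]
    exact etg_natCast_mem_maximalIdeal A hA
  have hdvd : p ∣ ℓ := (CharP.cast_eq_zero_iff (IsLocalRing.ResidueField ↥A) p ℓ).mp h0
  rcases (Nat.dvd_prime (Fact.out : ℓ.Prime)).mp hdvd with h1 | h1
  · exact absurd h1 (CharP.char_ne_one (IsLocalRing.ResidueField ↥A) p)
  · exact h1 ▸ hp

theorem etg_isUnit_intCast (hA : A.LiesOverPrime ℓ) {m : ℤ} (hm : ¬ (ℓ : ℤ) ∣ m) :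
    IsUnit ((m : ℤ) : ↥A) := by
  have := etg_charP A hA
  rw [← IsLocalRing.residue_ne_zero_iff_isUnit, map_intCast, Ne,
    CharP.intCast_eq_zero_iff (IsLocalRing.ResidueField ↥A) ℓ]
  exact hm

theorem etg_isUnit_natCast (hA : A.LiesOverPrime ℓ) {n : ℕ} (hn : n.Coprime ℓ) :
    IsUnit ((n : ℕ) : ↥A) := by
  have := etg_isUnit_intCast A hA (m := (n : ℤ)) (by
    rw [Int.natCast_dvd_natCast]
    intro h
    have h1 : ℓ ∣ Nat.gcd n ℓ := Nat.dvd_gcd h dvd_rfl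
    rw [hn] at h1
    exact (Fact.out : ℓ.Prime).one_lt.ne' (Nat.dvd_one.mp h1))
  exact_mod_cast this

/-! ### the model over `A` and its fibres -/

/-- the model over the valuation ring -/
abbrev etgWA : WeierstrassCurve ↥A := W.map (Int.castRingHom ↥A)

theorem etg_map_subtype :
    (etgWA W A).map A.subtype = ((W.map (Int.castRingHom ℚ)).toAffine⁄Qb) := by
  show _ = (W.map (Int.castRingHom ℚ)).map _
  rw [WeierstrassCurve.map_map, WeierstrassCurve.map_map]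
  congr 1

theorem etg_map_residue [Algebra (ZMod ℓ) (IsLocalRing.ResidueField ↥A)] :
    (etgWA W A).map (IsLocalRing.residue ↥A) =
      ((W.reductionMod ℓ).toAffine⁄(IsLocalRing.ResidueField ↥A)) := by
  show _ = (W.map (Int.castRingHom (ZMod ℓ))).map _
  rw [WeierstrassCurve.map_map, WeierstrassCurve.map_map]
  congr 1
  exact RingHom.ext_int _ _

theorem etg_isElliptic (hΔ : ¬ (ℓ : ℤ) ∣ W.Δ) (hA : A.LiesOverPrime ℓ) :
    (etgWA W A).IsElliptic := by
  refine ⟨?_⟩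
  rw [WeierstrassCurve.map_Δ]
  exact etg_isUnit_intCast A hA hΔ

theorem etg_reductionMod_isElliptic (hΔ : ¬ (ℓ : ℤ) ∣ W.Δ) : (W.reductionMod ℓ).IsElliptic := by
  refine ⟨?_⟩
  unfold WeierstrassCurve.reductionMod
  rw [WeierstrassCurve.map_Δ, isUnit_iff_ne_zero, eq_intCast, Ne,
    ZMod.intCast_zmod_eq_zero_iff_dvd]
  exact hΔ

/-! ### the reduction map on `n`-torsion -/

section Red

variable [DecidableEq (IsLocalRing.ResidueField ↥A)]
  [Algebra (ZMod ℓ) (IsLocalRing.ResidueField ↥A)]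

/-- **(G4)** the reduction map `E(ℚ̄)[n] →+ Ẽ(κ)` for `n` prime to `ℓ`, at a prime `ℓ` of good
reduction. -/
def etgRedQ (hΔ : ¬ (ℓ : ℤ) ∣ W.Δ) (hA : A.LiesOverPrime ℓ) {n : ℕ} (hn : n.Coprime ℓ) :
    ↥(Submodule.torsionBy ℤ ((W.map (Int.castRingHom ℚ)).toAffine⁄Qb).Point (n : ℤ)) →+
      ((W.reductionMod ℓ).toAffine⁄(IsLocalRing.ResidueField ↥A)).Point :=
  haveI := etg_isElliptic W A hΔ hA
  etgRed A (etgWA W A) (etg_map_subtype W A) (etg_map_residue W A) (etg_isUnit_natCast A hA hn)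

theorem etgRedQ_apply (hΔ : ¬ (ℓ : ℤ) ∣ W.Δ) (hA : A.LiesOverPrime ℓ) {n : ℕ} (hn : n.Coprime ℓ)
    (P : ↥(Submodule.torsionBy ℤ ((W.map (Int.castRingHom ℚ)).toAffine⁄Qb).Point (n : ℤ))) :
    etgRedQ W A hΔ hA hn P = etgRedFun A _ _ (P : ((W.map (Int.castRingHom ℚ)).toAffine⁄Qb).Point) :=
  rfl

theorem etgRedQ_injective (hΔ : ¬ (ℓ : ℤ) ∣ W.Δ) (hA : A.LiesOverPrime ℓ) {n : ℕ}
    (hn : n.Coprime ℓ) : Function.Injective (etgRedQ W A hΔ hA hn) :=
  haveI := etg_isElliptic W A hΔ hA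
  etgRed_injective A (etgWA W A) (etg_map_subtype W A) (etg_map_residue W A)
    (etg_isUnit_natCast A hA hn)

/-! ### compatibility with a Frobenius element -/

omit [DecidableEq (IsLocalRing.ResidueField ↥A)]
  [Algebra (ZMod ℓ) (IsLocalRing.ResidueField ↥A)] in
theorem etg_frob_mem {σ : Qb ≃ₐ[ℚ] Qb} (hσ : A.IsFrobeniusAt σ ℓ) {x : Qb} (hx : x ∈ A) :
    σ x ∈ A :=
  ((⟨σ, hσ.mem_decompositionSubgroup⟩ : A.decompositionSubgroup ℚ) • (⟨x, hx⟩ : ↥A)).2

omit [DecidableEq (IsLocalRing.ResidueField ↥A)]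
  [Algebra (ZMod ℓ) (IsLocalRing.ResidueField ↥A)] in
theorem etg_frob_res {σ : Qb ≃ₐ[ℚ] Qb} (hσ : A.IsFrobeniusAt σ ℓ) {x : Qb} (hx : x ∈ A) :
    IsLocalRing.residue ↥A ⟨σ x, etg_frob_mem A hσ hx⟩ =
      (IsLocalRing.residue ↥A ⟨x, hx⟩) ^ ℓ := by
  have h1 := hσ.smul_residue_eq (IsLocalRing.residue ↥A ⟨x, hx⟩)
  rw [← IsLocalRing.ResidueField.residue_smul] at h1
  exact h1

/-- **(G4)** a Frobenius element at `A` acts on the reduction of `n`-torsion points as the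
Frobenius endomorphism. -/
theorem etgRedQ_frob (hΔ : ¬ (ℓ : ℤ) ∣ W.Δ) (hA : A.LiesOverPrime ℓ) {n : ℕ} (hn : n.Coprime ℓ)
    (σ : Qb ≃ₐ[ℚ] Qb) (hσ : A.IsFrobeniusAt σ ℓ)
    (P : ↥(Submodule.torsionBy ℤ ((W.map (Int.castRingHom ℚ)).toAffine⁄Qb).Point (n : ℤ))) :
    etgRedQ W A hΔ hA hn (σ • P) =
      etFrob (IsLocalRing.ResidueField ↥A) (W.reductionMod ℓ) (etgRedQ W A hΔ hA hn P) := by
  rw [etgRedQ_apply, etgRedQ_apply]
  have hnP := etg_nsmul_of_mem_torsionBy P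
  obtain ⟨P, hP⟩ := P
  rcases P with _ | ⟨x, y, h⟩
  · rfl
  · have := etg_isElliptic W A hΔ hA
    obtain ⟨hx, hy⟩ := etg_integral_of_eq A (etgWA W A) (etg_map_subtype W A)
      (etg_isUnit_natCast A hA hn) h hnP
    have h' := etg_nonsingular_res_of_eq A (etgWA W A) (etg_map_subtype W A)
      (etg_map_residue (ℓ := ℓ) W A) (x := ⟨x, hx⟩) (y := ⟨y, hy⟩) h
    have hσh : ((W.map (Int.castRingHom ℚ)).toAffine⁄Qb).Nonsingular (σ x) (σ y) :=
      ((W.map (Int.castRingHom ℚ)).toAffine.baseChange_nonsingular σ.toAlgHom.injective ..).mpr h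
    have h'' := etg_nonsingular_res_of_eq A (etgWA W A) (etg_map_subtype W A)
      (etg_map_residue (ℓ := ℓ) W A) (x := ⟨σ x, etg_frob_mem A hσ hx⟩)
      (y := ⟨σ y, etg_frob_mem A hσ hy⟩) hσh
    show etgRedFun A _ _ (Point.some (σ x) (σ y) hσh) =
      etFrob (IsLocalRing.ResidueField ↥A) (W.reductionMod ℓ)
        (etgRedFun A _ _ (Point.some x y h))
    rw [etgRedFun_some_of_mem A h hx hy h', etFrob_some,
      etgRedFun_some_of_mem A hσh (etg_frob_mem A hσ hx) (etg_frob_mem A hσ hy) h'',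
      Point.some.injEq]
    exact ⟨etg_frob_res A hσ hx, etg_frob_res A hσ hy⟩

end Red

end Fermat.Agent.ET
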