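/-
ET package F (helper6), part 1: abstract finite abelian group theory.

`M` an abelian group, `p` a prime, with `#M[p^j] = p^(2j)` for `j ≤ N`.  Then `M[p^N]` has a
"frame" `(e₁, e₂)` (a `ℤ/p^N`-basis written in the language of integers), and for ANY
`ZMod (p^N)`-module structure on `Submodule.torsionBy ℤ M (p^N)` it is free with a basis of two
elements.
-/
import Mathlib

namespace Fermat.Agent.ET

/-- A `q`-frame of the abelian group `M`: two `q`-torsion elements which form a `ℤ/q`-basis of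
`M[q]`, phrased with integer coefficients. -/
structure EtfFrame (M : Type*) [AddCommGroup M] (q : ℕ) (e₁ e₂ : M) : Prop where
  tor₁ : q • e₁ = 0
  tor₂ : q • e₂ = 0
  span : ∀ x : M, q • x = 0 → ∃ u v : ℤ, x = u • e₁ + v • e₂
  indep : ∀ u v : ℤ, u • e₁ + v • e₂ = 0 → (q : ℤ) ∣ u ∧ (q : ℤ) ∣ v

/-- The `n`-torsion subgroup `M[n]`. -/
def etfTor (M : Type*) [AddCommGroup M] (n : ℕ) : AddSubgroup M where
  carrier := {x | n • x = 0}
  zero_mem' := smul_zero n
  add_mem' := by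
    intro a b ha hb
    simp only [Set.mem_ofPred_eq] at *
    rw [smul_add, ha, hb, add_zero]
  neg_mem' := by
    intro a ha
    simp only [Set.mem_ofPred_eq] at *
    rw [smul_neg, ha, neg_zero]

variable {M : Type*} [AddCommGroup M]

theorem mem_etfTor {n : ℕ} {x : M} : x ∈ etfTor M n ↔ n • x = 0 := Iff.rfl

theorem etfTor_card (n : ℕ) : Nat.card (etfTor M n) = Nat.card {P : M // n • P = 0} := rfl

theorem etfTor_mono {m n : ℕ} (h : m ∣ n) : etfTor M m ≤ etfTor M n := by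
  intro x hx
  obtain ⟨k, rfl⟩ := h
  rw [mem_etfTor] at *
  rw [mul_comm, mul_smul, hx, smul_zero]

/-- Multiplication by `a` from `M[a*b]` onto `M[b]` is surjective as soon as the cardinalities
are multiplicative. -/
theorem etf_smul_surj (a b : ℕ) (hfin : Nat.card (etfTor M (a * b)) ≠ 0)
    (hcard : Nat.card (etfTor M (a * b)) = Nat.card (etfTor M a) * Nat.card (etfTor M b))
    (ha : Nat.card (etfTor M a) ≠ 0)
    {z : M} (hz : b • z = 0) : ∃ x : M, (a * b) • x = 0 ∧ a • x = z := by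
  classical
  have : Finite (etfTor M (a * b)) := Nat.finite_of_card_ne_zero hfin
  have : Finite (etfTor M b) :=
    Finite.of_injective (fun x : etfTor M b => (⟨x.1, etfTor_mono (Dvd.intro_left a rfl) x.2⟩ :
      etfTor M (a * b))) (fun x y h => Subtype.ext (by simpa using congrArg Subtype.val h))
  -- the homomorphism `x ↦ a • x` on `M[a*b]`
  let f : etfTor M (a * b) →+ M := (nsmulAddMonoidHom a).comp (etfTor M (a * b)).subtype
  have hf : ∀ x, f x = a • (x : M) := fun x => rfl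
  have hrange : f.range ≤ etfTor M b := by
    rintro _ ⟨x, rfl⟩
    rw [mem_etfTor, hf, ← mul_smul, mul_comm]
    exact x.2
  -- the kernel is `M[a]`
  have hker : Nat.card f.ker = Nat.card (etfTor M a) := by
    refine Nat.card_congr ⟨fun x => ⟨x.1.1, ?_⟩, fun x => ⟨⟨x.1, ?_⟩, ?_⟩, ?_, ?_⟩
    · have := x.2
      rw [AddMonoidHom.mem_ker, hf] at this
      exact this
    · exact etfTor_mono (Dvd.intro b rfl) x.2
    · rw [AddMonoidHom.mem_ker, hf]
      exact x.2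
    · intro x; rfl
    · intro x; rfl
  have h1 : Nat.card f.ker * Nat.card f.range = Nat.card (etfTor M (a * b)) := by
    rw [← AddSubgroup.index_ker]
    exact AddSubgroup.card_mul_index _
  have h2 : Nat.card f.range = Nat.card (etfTor M b) := by
    rw [hker, hcard] at h1
    exact Nat.eq_of_mul_eq_mul_left (Nat.pos_of_ne_zero ha) h1
  have h3 : f.range = etfTor M b := AddSubgroup.eq_of_le_of_card_ge hrange h2.ge
  have hz' : z ∈ f.range := by rw [h3]; exact hz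
  obtain ⟨x, rfl⟩ := hz'
  exact ⟨x.1, x.2, rfl⟩


/-- Independence modulo `p` of two elements of `M[p]`, the second of which is not a multiple of
the first. -/
theorem etf_indep_p {p : ℕ} (hp : p.Prime) {f₁ f₂ : M} (h1 : p • f₁ = 0) (h2 : p • f₂ = 0)
    (hf1 : f₁ ≠ 0) (hf2 : ∀ u : ℤ, f₂ ≠ u • f₁) {u v : ℤ} (h : u • f₁ + v • f₂ = 0) :
    (p : ℤ) ∣ u ∧ (p : ℤ) ∣ v := by
  have hpZ : Prime (p : ℤ) := Nat.prime_iff_prime_int.mp hp
  have h1' : (p : ℤ) • f₁ = 0 := by rw [natCast_zsmul]; exact h1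
  have h2' : (p : ℤ) • f₂ = 0 := by rw [natCast_zsmul]; exact h2
  -- a non-multiple of `p` is invertible modulo `p`
  have key : ∀ (w : ℤ) (g : M), (p : ℤ) • g = 0 → ¬ (p : ℤ) ∣ w → ∃ t : ℤ, g = t • (w • g) := by
    intro w g hg hw
    have hcop : IsCoprime (p : ℤ) w := (Prime.coprime_iff_not_dvd hpZ).mpr hw
    obtain ⟨a, b, hab⟩ := hcop
    refine ⟨b, ?_⟩
    calc g = (1 : ℤ) • g := (one_smul _ _).symm
      _ = (a * p + b * w) • g := by rw [hab]
      _ = a • ((p : ℤ) • g) + b • (w • g) := by rw [add_smul, mul_smul, mul_smul]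
      _ = b • (w • g) := by rw [hg, smul_zero, zero_add]
  have hv : (p : ℤ) ∣ v := by
    by_contra hv
    obtain ⟨t, ht⟩ := key v f₂ h2' hv
    have : v • f₂ = (-u) • f₁ := by
      rw [neg_smul]; exact eq_neg_of_add_eq_zero_right h
    rw [this, ← mul_smul] at ht
    exact hf2 _ ht
  refine ⟨?_, hv⟩
  by_contra hu
  obtain ⟨t, ht⟩ := key u f₁ h1' hu
  have hv0 : v • f₂ = 0 := by
    obtain ⟨c, rfl⟩ := hv
    rw [mul_comm, mul_smul, h2', smul_zero]
  rw [hv0, add_zero] at h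
  rw [h, smul_zero] at ht
  exact hf1 ht

/-- In a group with `#M[p] = p ^ 2` there are two elements of `M[p]` independent modulo `p`. -/
theorem etf_exists_pair {p : ℕ} (hp : p.Prime)
    (hcard : Nat.card {P : M // p • P = 0} = p ^ 2) :
    ∃ f₁ f₂ : M, p • f₁ = 0 ∧ p • f₂ = 0 ∧ f₁ ≠ 0 ∧ ∀ u : ℤ, f₂ ≠ u • f₁ := by
  classical
  have hcard' : Nat.card (etfTor M p) = p ^ 2 := hcard
  have hfin : Finite (etfTor M p) :=
    Nat.finite_of_card_ne_zero (by rw [hcard']; exact pow_ne_zero _ hp.ne_zero)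
  have hp2 : p < p ^ 2 := by
    have := hp.two_le
    nlinarith
  -- a nonzero element
  have hex1 : ∃ f₁ : M, p • f₁ = 0 ∧ f₁ ≠ 0 := by
    by_contra hcon
    push Not at hcon
    have hsub : Subsingleton (etfTor M p) :=
      ⟨fun x y => Subtype.ext ((hcon x.1 x.2).trans (hcon y.1 y.2).symm)⟩
    have : Nat.card (etfTor M p) ≤ 1 := Finite.card_le_one_iff_subsingleton.mpr hsub
    have := hp.two_le
    omega
  obtain ⟨f₁, h1, hf1⟩ := hex1
  refine ⟨f₁, ?_⟩
  by_contra hcon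
  push Not at hcon
  have hle : etfTor M p ≤ AddSubgroup.zmultiples f₁ := by
    intro x hx
    by_contra hx'
    refine hx' ?_
    obtain ⟨u, hu⟩ := hcon x h1 hx hf1
    exact ⟨u, hu.symm⟩
  have hz : Nat.card (AddSubgroup.zmultiples f₁) ≤ p := by
    rw [Nat.card_zmultiples]
    exact Nat.le_of_dvd hp.pos (addOrderOf_dvd_of_nsmul_eq_zero h1)
  have hfinz : Finite (AddSubgroup.zmultiples f₁) := by
    refine Nat.finite_of_card_ne_zero ?_
    rw [Nat.card_zmultiples]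
    exact (addOrderOf_pos_iff.mpr (isOfFinAddOrder_iff_nsmul_eq_zero.mpr ⟨p, hp.pos, h1⟩)).ne'
  have := AddSubgroup.card_le_of_le hle
  omega


/-- From independence modulo `p` of the `p^(N-1)`-multiples to independence modulo `p^N`. -/
theorem etf_indep_lift {p : ℕ} {N : ℕ} {e₁ e₂ : M}
    (hind : ∀ u v : ℤ, u • ((p ^ (N - 1)) • e₁) + v • ((p ^ (N - 1)) • e₂) = 0 →
      (p : ℤ) ∣ u ∧ (p : ℤ) ∣ v)
    {u v : ℤ} (h : u • e₁ + v • e₂ = 0) :
    ((p ^ N : ℕ) : ℤ) ∣ u ∧ ((p ^ N : ℕ) : ℤ) ∣ v := by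
  have key : ∀ k : ℕ, k ≤ N → ((p : ℤ) ^ k ∣ u ∧ (p : ℤ) ^ k ∣ v) := by
    intro k
    induction k with
    | zero => intro _; simp
    | succ k ih =>
      intro hk
      obtain ⟨⟨u', hu'⟩, ⟨v', hv'⟩⟩ := ih (by omega)
      -- multiply the relation by `p^(N-1-k)`
      have h' : u' • ((p ^ (N - 1)) • e₁) + v' • ((p ^ (N - 1)) • e₂) = 0 := by
        have e : ∀ (w w' : ℤ) (g : M), w = (p : ℤ) ^ k * w' →
            ((p : ℤ) ^ (N - 1 - k)) • (w • g) = w' • ((p ^ (N - 1)) • g) := by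
          intro w w' g hw
          rw [← natCast_zsmul, ← mul_smul, ← mul_smul, hw]
          congr 1
          have : N - 1 = (N - 1 - k) + k := by omega
          rw [Nat.cast_pow]
          conv_rhs => rw [this, pow_add]
          ring
        have := congrArg (fun x => ((p : ℤ) ^ (N - 1 - k)) • x) h
        simp only [smul_add, smul_zero] at this
        rw [e u u' e₁ hu', e v v' e₂ hv'] at this
        exact this
      obtain ⟨⟨u'', hu''⟩, ⟨v'', hv''⟩⟩ := hind u' v' h'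
      refine ⟨⟨u'', ?_⟩, ⟨v'', ?_⟩⟩
      · rw [hu', hu'', pow_succ]; ring
      · rw [hv', hv'', pow_succ]; ring
  have := key N le_rfl
  rw [Nat.cast_pow]
  exact this

/-- Existence of a frame of level `p ^ N` from the torsion counts. -/
theorem etf_exists_frame (p : ℕ) [Fact p.Prime] (N : ℕ)
    (hcard : ∀ j ≤ N, Nat.card {P : M // (p ^ j) • P = 0} = p ^ (2 * j)) :
    ∃ e₁ e₂ : M, EtfFrame M (p ^ N) e₁ e₂ := by
  classical
  have hp : p.Prime := Fact.out
  rcases Nat.eq_zero_or_pos N with rfl | hNpos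
  · refine ⟨0, 0, ⟨by simp, by simp, ?_, ?_⟩⟩
    · intro x hx
      refine ⟨0, 0, ?_⟩
      simpa using hx
    · intro u v _
      simp
  have hN : N ≠ 0 := hNpos.ne'
  -- the three relevant counts
  have c1 : Nat.card (etfTor M p) = p ^ 2 := by
    have := hcard 1 hNpos
    rw [pow_one] at this
    exact this
  have cN : Nat.card (etfTor M (p ^ N)) = p ^ (2 * N) := hcard N le_rfl
  have cN1 : Nat.card (etfTor M (p ^ (N - 1))) = p ^ (2 * (N - 1)) := hcard (N - 1) (by omega)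
  have hpN : p ^ (N - 1) * p = p ^ N := by
    rw [← pow_succ]; congr 1; omega
  obtain ⟨f₁, f₂, h1, h2, hf1, hf2⟩ := etf_exists_pair (M := M) hp (by rw [← c1]; rfl)
  -- lift `f₁`, `f₂` along multiplication by `p^(N-1)`
  have hsurj : ∀ z : M, p • z = 0 → ∃ x : M, (p ^ N) • x = 0 ∧ (p ^ (N - 1)) • x = z := by
    intro z hz
    have := etf_smul_surj (M := M) (p ^ (N - 1)) p
      (by rw [hpN, cN]; exact pow_ne_zero _ hp.ne_zero)
      (by rw [hpN, cN, cN1, c1, ← pow_add]; congr 1; omega)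
      (by rw [cN1]; exact pow_ne_zero _ hp.ne_zero) hz
    rwa [hpN] at this
  obtain ⟨e₁, he1, hef1⟩ := hsurj f₁ h1
  obtain ⟨e₂, he2, hef2⟩ := hsurj f₂ h2
  have hind : ∀ u v : ℤ, u • e₁ + v • e₂ = 0 →
      ((p ^ N : ℕ) : ℤ) ∣ u ∧ ((p ^ N : ℕ) : ℤ) ∣ v := by
    intro u v h
    refine etf_indep_lift ?_ h
    intro u v h
    rw [hef1, hef2] at h
    exact etf_indep_p hp h1 h2 hf1 hf2 h
  refine ⟨e₁, e₂, ⟨he1, he2, ?_, hind⟩⟩
  -- spanning, by counting
  set q : ℕ := p ^ N with hq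
  have hqpos : 0 < q := pow_pos hp.pos N
  have hfin : Finite (etfTor M q) :=
    Nat.finite_of_card_ne_zero (by rw [cN]; exact pow_ne_zero _ hp.ne_zero)
  let g : Fin q × Fin q → etfTor M q := fun ij =>
    ⟨((ij.1 : ℕ) : ℤ) • e₁ + ((ij.2 : ℕ) : ℤ) • e₂, by
      rw [mem_etfTor, smul_add, smul_comm, he1, smul_zero, smul_comm, he2, smul_zero, add_zero]⟩
  have hginj : Function.Injective g := by
    rintro ⟨i, j⟩ ⟨i', j'⟩ h
    have h' : ((i : ℕ) : ℤ) • e₁ + ((j : ℕ) : ℤ) • e₂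
        = ((i' : ℕ) : ℤ) • e₁ + ((j' : ℕ) : ℤ) • e₂ := congrArg Subtype.val h
    have h0 : (((i : ℕ) : ℤ) - ((i' : ℕ) : ℤ)) • e₁ + (((j : ℕ) : ℤ) - ((j' : ℕ) : ℤ)) • e₂ = 0 := by
      rw [sub_smul, sub_smul]
      have := sub_eq_zero.mpr h'
      rw [← this]
      abel
    obtain ⟨d1, d2⟩ := hind _ _ h0
    have b1 : |((i : ℕ) : ℤ) - ((i' : ℕ) : ℤ)| < (q : ℤ) := by
      have := i.2; have := i'.2
      rw [abs_lt]; constructor <;> omega
    have b2 : |((j : ℕ) : ℤ) - ((j' : ℕ) : ℤ)| < (q : ℤ) := by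
      have := j.2; have := j'.2
      rw [abs_lt]; constructor <;> omega
    have z1 := Int.eq_zero_of_abs_lt_dvd d1 b1
    have z2 := Int.eq_zero_of_abs_lt_dvd d2 b2
    have : i = i' := Fin.ext (by omega)
    have : j = j' := Fin.ext (by omega)
    subst_vars
    rfl
  have hcardle : Nat.card (etfTor M q) ≤ Nat.card (Fin q × Fin q) := by
    rw [cN, Nat.card_prod, Nat.card_eq_fintype_card, Fintype.card_fin, hq, ← pow_add]
    exact le_of_eq (by congr 1; omega)
  have hbij := hginj.bijective_of_nat_card_le hcardle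
  intro x hx
  obtain ⟨⟨i, j⟩, hij⟩ := hbij.2 ⟨x, hx⟩
  exact ⟨((i : ℕ) : ℤ), ((j : ℕ) : ℤ), (congrArg Subtype.val hij).symm⟩


/-- A frame of level `q` gives a basis of any `ZMod q`-module `T` identified with `M[q]`. -/
theorem etf_frame_basis_gen {q : ℕ} {e₁ e₂ : M} (F : EtfFrame M q e₁ e₂)
    {T : Type*} [AddCommGroup T] [Module (ZMod q) T] (ι : T →+ M)
    (hι : Function.Injective ι) (hrange : ∀ x : M, q • x = 0 → ∃ t : T, ι t = x) :
    ∃ b : Module.Basis (Fin 2) (ZMod q) T, ι (b 0) = e₁ ∧ ι (b 1) = e₂ := by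
  classical
  obtain ⟨t₁, ht₁⟩ := hrange e₁ F.tor₁
  obtain ⟨t₂, ht₂⟩ := hrange e₂ F.tor₂
  have hsm : ∀ (c : ZMod q) (t : T), c • t = (ZMod.cast c : ℤ) • t := by
    intro c t
    conv_lhs => rw [← ZMod.intCast_zmod_cast c]
    exact Int.cast_smul_eq_zsmul (ZMod q) _ t
  have hli : LinearIndependent (ZMod q) ![t₁, t₂] := by
    rw [LinearIndependent.pair_iff]
    intro s t hst
    rw [hsm s, hsm t] at hst
    have := congrArg ι hst
    rw [map_add, map_zsmul, map_zsmul, ht₁, ht₂, map_zero] at this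
    obtain ⟨d1, d2⟩ := F.indep _ _ this
    constructor
    · rw [← ZMod.intCast_zmod_cast s]
      exact (ZMod.intCast_zmod_eq_zero_iff_dvd _ _).mpr d1
    · rw [← ZMod.intCast_zmod_cast t]
      exact (ZMod.intCast_zmod_eq_zero_iff_dvd _ _).mpr d2
  have hsp : ⊤ ≤ Submodule.span (ZMod q) (Set.range ![t₁, t₂]) := by
    intro t _
    have htq : q • ι t = 0 := by
      rw [← map_nsmul]
      have : q • t = 0 := by
        rw [← Nat.cast_smul_eq_nsmul (ZMod q), ZMod.natCast_self, zero_smul]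
      rw [this, map_zero]
    obtain ⟨u, v, huv⟩ := F.span (ι t) htq
    have : t = (u : ZMod q) • t₁ + (v : ZMod q) • t₂ := by
      apply hι
      rw [Int.cast_smul_eq_zsmul, Int.cast_smul_eq_zsmul, map_add, map_zsmul, map_zsmul, ht₁, ht₂]
      exact huv
    rw [Matrix.range_cons, Matrix.range_cons, Matrix.range_empty, Set.union_empty]
    rw [this]
    refine Submodule.add_mem _ (Submodule.smul_mem _ _ (Submodule.subset_span ?_))
      (Submodule.smul_mem _ _ (Submodule.subset_span ?_))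
    · simp
    · simp
  refine ⟨Module.Basis.mk hli hsp, ?_, ?_⟩
  · rw [Module.Basis.mk_apply]; exact ht₁
  · rw [Module.Basis.mk_apply]; exact ht₂

/-- A frame of level `q` gives a basis of `Submodule.torsionBy ℤ M q` for ANY module instance
over `ZMod q` carried by it. -/
theorem etf_frame_basis {q : ℕ} {e₁ e₂ : M} (F : EtfFrame M q e₁ e₂)
    [Module (ZMod q) ↥(Submodule.torsionBy ℤ M ((q : ℕ) : ℤ))] :
    ∃ b : Module.Basis (Fin 2) (ZMod q) ↥(Submodule.torsionBy ℤ M ((q : ℕ) : ℤ)),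
      ((b 0 : ↥(Submodule.torsionBy ℤ M ((q : ℕ) : ℤ))) : M) = e₁ ∧
      ((b 1 : ↥(Submodule.torsionBy ℤ M ((q : ℕ) : ℤ))) : M) = e₂ := by
  refine etf_frame_basis_gen F (Submodule.torsionBy ℤ M ((q : ℕ) : ℤ)).subtype.toAddMonoidHom
    Subtype.val_injective ?_
  intro x hx
  refine ⟨⟨x, ?_⟩, rfl⟩
  rw [Submodule.mem_torsionBy_iff, natCast_zsmul]
  exact hx

/-- **(F1)** `M[p^N]` is free of rank two over `ZMod (p^N)`. -/
theorem etf_free (p : ℕ) [Fact p.Prime] (N : ℕ)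
    (hcard : ∀ j ≤ N, Nat.card {P : M // (p ^ j) • P = 0} = p ^ (2 * j))
    [Module (ZMod (p ^ N)) ↥(Submodule.torsionBy ℤ M ((p ^ N : ℕ) : ℤ))] :
    Nonempty (Module.Basis (Fin 2) (ZMod (p ^ N))
      ↥(Submodule.torsionBy ℤ M ((p ^ N : ℕ) : ℤ))) := by
  obtain ⟨e₁, e₂, F⟩ := etf_exists_frame (M := M) p N hcard
  obtain ⟨b, -, -⟩ := etf_frame_basis F
  exact ⟨b⟩

theorem etf_free' (p : ℕ) [Fact p.Prime] (N : ℕ)
    (hcard : ∀ j ≤ N, Nat.card {P : M // (p ^ j) • P = 0} = p ^ (2 * j))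
    [Module (ZMod (p ^ N)) ↥(Submodule.torsionBy ℤ M ((p ^ N : ℕ) : ℤ))] :
    Module.Free (ZMod (p ^ N)) ↥(Submodule.torsionBy ℤ M ((p ^ N : ℕ) : ℤ)) ∧
    Module.Finite (ZMod (p ^ N)) ↥(Submodule.torsionBy ℤ M ((p ^ N : ℕ) : ℤ)) := by
  obtain ⟨b⟩ := etf_free (M := M) p N hcard
  exact ⟨Module.Free.of_basis b, Module.Finite.of_basis b⟩

theorem etf_finrank (p : ℕ) [Fact p.Prime] (N : ℕ) (hN : N ≠ 0)
    (hcard : ∀ j ≤ N, Nat.card {P : M // (p ^ j) • P = 0} = p ^ (2 * j))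
    [Module (ZMod (p ^ N)) ↥(Submodule.torsionBy ℤ M ((p ^ N : ℕ) : ℤ))] :
    Module.finrank (ZMod (p ^ N)) ↥(Submodule.torsionBy ℤ M ((p ^ N : ℕ) : ℤ)) = 2 := by
  have hp : p.Prime := Fact.out
  have : Fact (1 < p ^ N) := ⟨Nat.one_lt_pow hN hp.one_lt⟩
  obtain ⟨b⟩ := etf_free (M := M) p N hcard
  rw [Module.finrank_eq_card_basis b, Fintype.card_fin]

end Fermat.Agent.ET
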