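/-
ET package F (helper6), part 2: the characteristic polynomial of an endomorphism `φ` of an
abelian group `M` on `M[p^n]`, from the relation `φ² - aφ + ℓ = 0` and the kernel counts
`#ker(φ - s) = s² - a s + ℓ` (`ℓ ∤ s`).
-/
import Fermat.Agent.Lib.ET.TorsionFrame

namespace Fermat.Agent.ET

variable {M : Type*} [AddCommGroup M]

/-! ### Descent of frames -/

/-- A frame of level `a * b` gives the frame `(a • e₁, a • e₂)` of level `b`. -/
theorem EtfFrame.descend {a b : ℕ} (ha : a ≠ 0) (hb : b ≠ 0) {e₁ e₂ : M}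
    (F : EtfFrame M (a * b) e₁ e₂) : EtfFrame M b (a • e₁) (a • e₂) := by
  have haZ : (a : ℤ) ≠ 0 := by exact_mod_cast ha
  have hbZ : (b : ℤ) ≠ 0 := by exact_mod_cast hb
  refine ⟨?_, ?_, ?_, ?_⟩
  · rw [← mul_smul, mul_comm]; exact F.tor₁
  · rw [← mul_smul, mul_comm]; exact F.tor₂
  · intro x hx
    have hx' : (a * b) • x = 0 := by rw [mul_smul, hx, smul_zero]
    obtain ⟨u, v, huv⟩ := F.span x hx'
    have h0 : ((b : ℤ) * u) • e₁ + ((b : ℤ) * v) • e₂ = 0 := by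
      rw [mul_smul, mul_smul, ← smul_add, ← huv, natCast_zsmul]
      exact hx
    obtain ⟨d1, d2⟩ := F.indep _ _ h0
    rw [Nat.cast_mul, mul_comm (a : ℤ)] at d1 d2
    obtain ⟨u', hu'⟩ := (mul_dvd_mul_iff_left hbZ).mp d1
    obtain ⟨v', hv'⟩ := (mul_dvd_mul_iff_left hbZ).mp d2
    refine ⟨u', v', ?_⟩
    rw [huv, hu', hv', ← natCast_zsmul e₁ a, ← natCast_zsmul e₂ a, ← mul_smul, ← mul_smul,
      mul_comm u', mul_comm v']
  · intro u v h
    have h0 : (u * a) • e₁ + (v * a) • e₂ = 0 := by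
      rw [mul_smul, mul_smul, natCast_zsmul, natCast_zsmul]
      exact h
    obtain ⟨d1, d2⟩ := F.indep _ _ h0
    rw [Nat.cast_mul, mul_comm u] at d1
    rw [Nat.cast_mul, mul_comm v] at d2
    exact ⟨(mul_dvd_mul_iff_left haZ).mp d1, (mul_dvd_mul_iff_left haZ).mp d2⟩

/-- The integer matrix of an endomorphism in a frame. -/
theorem EtfFrame.exists_matrix {q : ℕ} {e₁ e₂ : M} (F : EtfFrame M q e₁ e₂) (φ : M →+ M) :
    ∃ α β γ δ : ℤ, φ e₁ = α • e₁ + γ • e₂ ∧ φ e₂ = β • e₁ + δ • e₂ := by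
  obtain ⟨α, γ, h1⟩ := F.span (φ e₁) (by rw [← map_nsmul, F.tor₁, map_zero])
  obtain ⟨β, δ, h2⟩ := F.span (φ e₂) (by rw [← map_nsmul, F.tor₂, map_zero])
  exact ⟨α, β, γ, δ, h1, h2⟩

/-! ### The arithmetic core -/

/-- `p^(n+r) ∣ g * x` and `p^n ∤ g` force `p^(r+1) ∣ x`. -/
theorem etf_pow_dvd_of_mul {p : ℤ} (hp : Prime p) :
    ∀ (n r : ℕ) (g x : ℤ), p ^ (n + r) ∣ g * x → ¬ p ^ n ∣ g → p ^ (r + 1) ∣ x := by
  intro n
  induction n with
  | zero =>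
    intro r g x _ h
    exact absurd (by simp) h
  | succ n ih =>
    intro r g x h hg
    by_cases hpg : p ∣ g
    · obtain ⟨g', rfl⟩ := hpg
      have h' : p ^ (n + r) ∣ g' * x := by
        have e : p ^ (n + 1 + r) = p * p ^ (n + r) := by
          rw [show n + 1 + r = (n + r) + 1 by omega, pow_succ]; ring
        rw [e, mul_assoc] at h
        exact (mul_dvd_mul_iff_left hp.ne_zero).mp h
      refine ih r g' x h' ?_
      intro hg'
      apply hg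
      rw [pow_succ, mul_comm]
      exact mul_dvd_mul_left p hg'
    · have := hp.pow_dvd_of_dvd_mul_left (n + 1 + r) hpg h
      exact (pow_dvd_pow p (by omega)).trans this

/-- The arithmetic core: Cayley–Hamilton for an integer `2 × 2` matrix `[[α, β], [γ, δ]]`
which satisfies `A² - aA + ℓ ≡ 0` modulo `p^(n+r)` and is not scalar modulo `p^r`. -/
theorem etf_core {p : ℤ} (hp : Prime p) (n r : ℕ) (α β γ δ a ℓ : ℤ)
    (h11 : p ^ (n + r) ∣ α * α + β * γ - a * α + ℓ)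
    (h12 : p ^ (n + r) ∣ α * β + β * δ - a * β)
    (h21 : p ^ (n + r) ∣ γ * α + δ * γ - a * γ)
    (h22 : p ^ (n + r) ∣ γ * β + δ * δ - a * δ + ℓ)
    (hns : ¬ (p ^ r ∣ β ∧ p ^ r ∣ γ ∧ p ^ r ∣ α - δ)) :
    p ^ n ∣ (α + δ) - a ∧ p ^ n ∣ (α * δ - β * γ) - ℓ := by
  set g : ℤ := (α + δ) - a with hg
  have e11 : α * α + β * γ - a * α + ℓ = g * α - ((α * δ - β * γ) - ℓ) := by rw [hg]; ring
  have e12 : α * β + β * δ - a * β = g * β := by rw [hg]; ring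
  have e21 : γ * α + δ * γ - a * γ = g * γ := by rw [hg]; ring
  have e22 : γ * β + δ * δ - a * δ + ℓ = g * δ - ((α * δ - β * γ) - ℓ) := by rw [hg]; ring
  rw [e11] at h11
  rw [e12] at h12
  rw [e21] at h21
  rw [e22] at h22
  have hdiff : p ^ (n + r) ∣ g * (α - δ) := by
    have := dvd_sub h11 h22
    have e : g * α - ((α * δ - β * γ) - ℓ) - (g * δ - ((α * δ - β * γ) - ℓ)) = g * (α - δ) := by
      ring
    rwa [e] at this
  have hgn : p ^ n ∣ g := by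
    by_contra hgn
    apply hns
    have hr : ∀ x : ℤ, p ^ (r + 1) ∣ x → p ^ r ∣ x :=
      fun x hx => (pow_dvd_pow p (Nat.le_succ r)).trans hx
    exact ⟨hr _ (etf_pow_dvd_of_mul hp n r g β h12 hgn),
      hr _ (etf_pow_dvd_of_mul hp n r g γ h21 hgn),
      hr _ (etf_pow_dvd_of_mul hp n r g (α - δ) hdiff hgn)⟩
  refine ⟨hgn, ?_⟩
  have h1 : p ^ n ∣ g * α - ((α * δ - β * γ) - ℓ) :=
    (pow_dvd_pow p (Nat.le_add_right n r)).trans h11
  have h2 : p ^ n ∣ g * α := Dvd.dvd.mul_right hgn α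
  have := dvd_sub h2 h1
  rwa [sub_sub_cancel] at this


/-! ### A level at which `φ` is not scalar -/

/-- The kernel of `φ - s`. -/
def etfKer (φ : M →+ M) (s : ℤ) : AddSubgroup M where
  carrier := {P | φ P = s • P}
  zero_mem' := by simp
  add_mem' := by
    intro x y hx hy
    simp only [Set.mem_ofPred_eq] at *
    rw [map_add, hx, hy, smul_add]
  neg_mem' := by
    intro x hx
    simp only [Set.mem_ofPred_eq] at *
    rw [map_neg, hx, smul_neg]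

theorem mem_etfKer {φ : M →+ M} {s : ℤ} {x : M} : x ∈ etfKer φ s ↔ φ x = s • x := Iff.rfl

/-- If `φ` is the scalar `c` on `M[p^r]` and `s ≡ c` modulo `p^r`, then `p^(2r)` divides the
order of `ker (φ - s)`. -/
theorem etf_dvd_of_scalar (p : ℕ) (φ : M →+ M) (a : ℤ) (ℓ : ℕ)
    (hker : ∀ s : ℤ, ¬ (ℓ : ℤ) ∣ s →
      (Nat.card {P : M // φ P = s • P} : ℤ) = s ^ 2 - a * s + ℓ)
    (r : ℕ) (hcard : Nat.card {P : M // (p ^ r) • P = 0} = p ^ (2 * r))
    (c : ℤ) (hc : ∀ x : M, (p ^ r) • x = 0 → φ x = c • x)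
    (s : ℤ) (hs : ((p ^ r : ℕ) : ℤ) ∣ s - c) (hℓs : ¬ (ℓ : ℤ) ∣ s) :
    ((p : ℤ) ^ (2 * r)) ∣ s ^ 2 - a * s + ℓ := by
  have hle : etfTor M (p ^ r) ≤ etfKer φ s := by
    intro x hx
    rw [mem_etfTor] at hx
    rw [mem_etfKer, hc x hx]
    obtain ⟨k, hk⟩ := hs
    have : s = c + k * ((p ^ r : ℕ) : ℤ) := by rw [mul_comm, ← hk]; ring
    rw [this, add_smul, mul_smul, natCast_zsmul, hx, smul_zero, add_zero]
  have h := AddSubgroup.card_dvd_of_le hle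
  have h1 : Nat.card (etfTor M (p ^ r)) = p ^ (2 * r) := hcard
  have h2 : (Nat.card (etfKer φ s) : ℤ) = s ^ 2 - a * s + ℓ := hker s hℓs
  rw [h1] at h
  rw [← h2]
  exact_mod_cast h

/-- **Non-scalar level.**  There is a level `r` such that `φ` is not a scalar on `M[p^r]`. -/
theorem etf_exists_nonscalar (p : ℕ) [Fact p.Prime] {ℓ : ℕ} (hℓ : ℓ.Prime) (hℓp : ℓ ≠ p)
    (φ : M →+ M) (a : ℤ)
    (hker : ∀ s : ℤ, ¬ (ℓ : ℤ) ∣ s →
      (Nat.card {P : M // φ P = s • P} : ℤ) = s ^ 2 - a * s + ℓ)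
    (hcard : ∀ j : ℕ, Nat.card {P : M // (p ^ j) • P = 0} = p ^ (2 * j)) :
    ∃ r : ℕ, ∀ c : ℤ, ∃ x : M, (p ^ r) • x = 0 ∧ φ x ≠ c • x := by
  have hp : p.Prime := Fact.out
  have hpZ : Prime (p : ℤ) := Nat.prime_iff_prime_int.mp hp
  have hℓZ : Prime (ℓ : ℤ) := Nat.prime_iff_prime_int.mp hℓ
  by_contra hcon
  push Not at hcon
  -- every power of `p` divides the discriminant
  have hdisc : ∀ r : ℕ, (p : ℤ) ^ (2 * r) ∣ a * a - 4 * ℓ := by
    intro r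
    obtain ⟨c, hc⟩ := hcon r
    have hcop : IsCoprime ((p : ℤ) ^ r) (ℓ : ℤ) := by
      have : Nat.Coprime (p ^ r) ℓ :=
        Nat.Coprime.pow_left r ((Nat.coprime_primes hp hℓ).mpr (Ne.symm hℓp))
      have := Nat.isCoprime_iff_coprime.mpr this
      rwa [Nat.cast_pow] at this
    obtain ⟨x, y, hxy⟩ := hcop
    set s : ℤ := c + (1 - c) * x * (p : ℤ) ^ r with hs
    have hs1 : s = 1 + (c - 1) * y * ℓ := by
      have : x * (p : ℤ) ^ r = 1 - y * ℓ := by rw [← hxy]; ring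
      rw [hs, mul_assoc, this]; ring
    have hsc : ((p ^ r : ℕ) : ℤ) ∣ s - c := by
      rw [Nat.cast_pow]
      exact ⟨(1 - c) * x, by rw [hs]; ring⟩
    have hℓs : ¬ (ℓ : ℤ) ∣ s := by
      intro h
      have h' : (ℓ : ℤ) ∣ (c - 1) * y * ℓ := Dvd.intro_left _ rfl
      have : (ℓ : ℤ) ∣ 1 := by
        have := dvd_sub h h'
        rwa [hs1, add_sub_cancel_right] at this
      exact hℓZ.not_dvd_one this
    set s' : ℤ := s + (p : ℤ) ^ r * ℓ with hs'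
    have hsc' : ((p ^ r : ℕ) : ℤ) ∣ s' - c := by
      have e : s' - c = (s - c) + (p : ℤ) ^ r * ℓ := by rw [hs']; ring
      rw [e]
      refine dvd_add hsc ?_
      rw [Nat.cast_pow]
      exact Dvd.intro _ rfl
    have hℓs' : ¬ (ℓ : ℤ) ∣ s' := by
      intro h
      apply hℓs
      have h' : (ℓ : ℤ) ∣ (p : ℤ) ^ r * ℓ := Dvd.intro_left _ rfl
      have := dvd_sub h h'
      rwa [hs', add_sub_cancel_right] at this
    have d1 := etf_dvd_of_scalar p φ a ℓ hker r (hcard r) c hc s hsc hℓs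
    have d2 := etf_dvd_of_scalar p φ a ℓ hker r (hcard r) c hc s' hsc' hℓs'
    -- difference of the two
    have hpp : (p : ℤ) ^ (2 * r) = (p : ℤ) ^ r * (p : ℤ) ^ r := by rw [← pow_add]; congr 1; omega
    have d3 : (p : ℤ) ^ r * (p : ℤ) ^ r ∣ (p : ℤ) ^ r * (ℓ * (2 * s + (p : ℤ) ^ r * ℓ - a)) := by
      have := dvd_sub d2 d1
      rw [hpp] at this
      have e : s' ^ 2 - a * s' + ℓ - (s ^ 2 - a * s + ℓ)
          = (p : ℤ) ^ r * (ℓ * (2 * s + (p : ℤ) ^ r * ℓ - a)) := by rw [hs']; ring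
      rwa [e] at this
    have d4 : (p : ℤ) ^ r ∣ ℓ * (2 * s + (p : ℤ) ^ r * ℓ - a) :=
      (mul_dvd_mul_iff_left (pow_ne_zero r hpZ.ne_zero)).mp d3
    have d5 : (p : ℤ) ^ r ∣ 2 * s + (p : ℤ) ^ r * ℓ - a :=
      IsCoprime.dvd_of_dvd_mul_left ⟨x, y, hxy⟩ d4
    have d6 : (p : ℤ) ^ r ∣ 2 * s - a := by
      have h' : (p : ℤ) ^ r ∣ (p : ℤ) ^ r * ℓ := Dvd.intro _ rfl
      have := dvd_sub d5 h'
      have e : 2 * s + (p : ℤ) ^ r * ℓ - a - (p : ℤ) ^ r * ℓ = 2 * s - a := by ring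
      rwa [e] at this
    have d7 : (p : ℤ) ^ (2 * r) ∣ (2 * s - a) * (2 * s - a) := by
      rw [hpp]; exact mul_dvd_mul d6 d6
    have e : a * a - 4 * ℓ = (2 * s - a) * (2 * s - a) - 4 * (s ^ 2 - a * s + ℓ) := by ring
    rw [e]
    exact dvd_sub d7 (Dvd.dvd.mul_left d1 4)
  -- hence the discriminant vanishes
  have hzero : a * a - 4 * ℓ = 0 := by
    set Δ : ℤ := a * a - 4 * ℓ with hΔ
    refine Int.eq_zero_of_abs_lt_dvd (hdisc Δ.natAbs) ?_
    rw [Int.abs_eq_natAbs]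
    have h1 : Δ.natAbs < p ^ Δ.natAbs := Nat.lt_pow_self hp.one_lt
    have h2 : p ^ Δ.natAbs ≤ p ^ (2 * Δ.natAbs) := Nat.pow_le_pow_right hp.pos (by omega)
    exact_mod_cast lt_of_lt_of_le h1 h2
  -- `a² = 4ℓ` is impossible
  have h2a : (2 : ℤ) ∣ a := by
    have : (2 : ℤ) ∣ a * a := ⟨2 * ℓ, by linarith⟩
    rcases Int.prime_two.dvd_or_dvd this with h | h <;> exact h
  obtain ⟨b, rfl⟩ := h2a
  have : (ℓ : ℤ) = b * b := by linarith
  exact hℓZ.not_isSquare ⟨b, this⟩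


/-! ### The matrix, characteristic polynomial, trace and determinant in a frame -/

/-- The matrix of a `ZMod q`-linear map `f` on (a copy `T` of) `M[q]` induced by `φ`, in the
basis given by a frame, is the reduction of the integer matrix of `φ`. -/
theorem etf_toMatrix_of_frame {q : ℕ} {e₁ e₂ : M} (F : EtfFrame M q e₁ e₂)
    {T : Type*} [AddCommGroup T] [Module (ZMod q) T] (ι : T →+ M)
    (hι : Function.Injective ι) (hrange : ∀ x : M, q • x = 0 → ∃ t : T, ι t = x)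
    (φ : M →+ M) (f : T →ₗ[ZMod q] T) (hf : ∀ t, ι (f t) = φ (ι t))
    {α β γ δ : ℤ} (h1 : φ e₁ = α • e₁ + γ • e₂) (h2 : φ e₂ = β • e₁ + δ • e₂) :
    ∃ b : Module.Basis (Fin 2) (ZMod q) T, ι (b 0) = e₁ ∧ ι (b 1) = e₂ ∧
      LinearMap.toMatrix b b f = !![(α : ZMod q), (β : ZMod q); (γ : ZMod q), (δ : ZMod q)] := by
  classical
  obtain ⟨b, hb0, hb1⟩ := etf_frame_basis_gen F ι hι hrange
  refine ⟨b, hb0, hb1, ?_⟩
  set A : Matrix (Fin 2) (Fin 2) (ZMod q) :=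
    !![(α : ZMod q), (β : ZMod q); (γ : ZMod q), (δ : ZMod q)] with hA
  have hfA : f = Matrix.toLin b b A := by
    refine b.ext fun i => ?_
    rw [Matrix.toLin_self, Fin.sum_univ_two]
    apply hι
    fin_cases i
    · simp only [Fin.zero_eta, Fin.isValue, hA, Matrix.of_apply, Matrix.cons_val',
        Matrix.cons_val_zero, Matrix.cons_val_fin_one, Matrix.cons_val_one]
      rw [hf, hb0, h1, map_add, Int.cast_smul_eq_zsmul, Int.cast_smul_eq_zsmul, map_zsmul,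
        map_zsmul, hb0, hb1]
    · simp only [Fin.mk_one, Fin.isValue, hA, Matrix.of_apply, Matrix.cons_val',
        Matrix.cons_val_zero, Matrix.cons_val_fin_one, Matrix.cons_val_one]
      rw [hf, hb1, h2, map_add, Int.cast_smul_eq_zsmul, Int.cast_smul_eq_zsmul, map_zsmul,
        map_zsmul, hb0, hb1]
  rw [hfA, LinearMap.toMatrix_toLin]

open Polynomial in
/-- The characteristic polynomial in terms of the integer matrix of `φ` in a frame. -/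
theorem etf_charpoly_of_frame {q : ℕ} {e₁ e₂ : M} (F : EtfFrame M q e₁ e₂)
    {T : Type*} [AddCommGroup T] [Module (ZMod q) T] [Module.Free (ZMod q) T]
    [Module.Finite (ZMod q) T] (ι : T →+ M)
    (hι : Function.Injective ι) (hrange : ∀ x : M, q • x = 0 → ∃ t : T, ι t = x)
    (φ : M →+ M) (f : T →ₗ[ZMod q] T) (hf : ∀ t, ι (f t) = φ (ι t))
    {α β γ δ : ℤ} (h1 : φ e₁ = α • e₁ + γ • e₂) (h2 : φ e₂ = β • e₁ + δ • e₂) :
    f.charpoly = X ^ 2 - C (((α + δ : ℤ)) : ZMod q) * X + C (((α * δ - β * γ : ℤ)) : ZMod q) := by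
  classical
  rcases subsingleton_or_nontrivial (ZMod q) with hsub | hnt
  · exact Subsingleton.elim _ _
  obtain ⟨b, -, -, hb⟩ := etf_toMatrix_of_frame F ι hι hrange φ f hf h1 h2
  rw [← LinearMap.charpoly_toMatrix f b, hb, Matrix.charpoly_fin_two,
    Matrix.trace_fin_two, Matrix.det_fin_two]
  simp only [Matrix.of_apply, Matrix.cons_val', Matrix.cons_val_zero, Matrix.cons_val_fin_one,
    Matrix.cons_val_one, Int.cast_add, Int.cast_sub, Int.cast_mul]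

/-- The trace in terms of the integer matrix of `φ` in a frame. -/
theorem etf_trace_of_frame {q : ℕ} {e₁ e₂ : M} (F : EtfFrame M q e₁ e₂)
    {T : Type*} [AddCommGroup T] [Module (ZMod q) T] (ι : T →+ M)
    (hι : Function.Injective ι) (hrange : ∀ x : M, q • x = 0 → ∃ t : T, ι t = x)
    (φ : M →+ M) (f : T →ₗ[ZMod q] T) (hf : ∀ t, ι (f t) = φ (ι t))
    {α β γ δ : ℤ} (h1 : φ e₁ = α • e₁ + γ • e₂) (h2 : φ e₂ = β • e₁ + δ • e₂) :
    LinearMap.trace (ZMod q) T f = (((α + δ : ℤ)) : ZMod q) := by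
  classical
  obtain ⟨b, -, -, hb⟩ := etf_toMatrix_of_frame F ι hι hrange φ f hf h1 h2
  rw [LinearMap.trace_eq_matrix_trace (ZMod q) b f, hb, Matrix.trace_fin_two]
  simp only [Matrix.of_apply, Matrix.cons_val', Matrix.cons_val_zero, Matrix.cons_val_fin_one,
    Matrix.cons_val_one, Int.cast_add]

/-- The determinant in terms of the integer matrix of `φ` in a frame. -/
theorem etf_det_of_frame {q : ℕ} {e₁ e₂ : M} (F : EtfFrame M q e₁ e₂)
    {T : Type*} [AddCommGroup T] [Module (ZMod q) T] (ι : T →+ M)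
    (hι : Function.Injective ι) (hrange : ∀ x : M, q • x = 0 → ∃ t : T, ι t = x)
    (φ : M →+ M) (f : T →ₗ[ZMod q] T) (hf : ∀ t, ι (f t) = φ (ι t))
    {α β γ δ : ℤ} (h1 : φ e₁ = α • e₁ + γ • e₂) (h2 : φ e₂ = β • e₁ + δ • e₂) :
    LinearMap.det f = (((α * δ - β * γ : ℤ)) : ZMod q) := by
  classical
  obtain ⟨b, -, -, hb⟩ := etf_toMatrix_of_frame F ι hι hrange φ f hf h1 h2
  rw [← LinearMap.det_toMatrix b f, hb, Matrix.det_fin_two]
  simp only [Matrix.of_apply, Matrix.cons_val', Matrix.cons_val_zero, Matrix.cons_val_fin_one,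
    Matrix.cons_val_one, Int.cast_sub, Int.cast_mul]

/-! ### The integer matrix at a deep level -/

/-- **Integer form of (C).**  For a frame of level `p^(n+r)`, `r` a level at which `φ` is not
scalar, the integer matrix of `φ` has trace `≡ a` and determinant `≡ ℓ` modulo `p^n`. -/
theorem etf_matrix {p : ℕ} (hp : p.Prime) (φ : M →+ M) (a ℓ : ℤ)
    (hrel : ∀ P : M, φ (φ P) - a • φ P + ℓ • P = 0)
    (n r : ℕ) (hr : ∀ c : ℤ, ∃ x : M, (p ^ r) • x = 0 ∧ φ x ≠ c • x)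
    {E₁ E₂ : M} (F : EtfFrame M (p ^ (n + r)) E₁ E₂)
    {α β γ δ : ℤ} (h1 : φ E₁ = α • E₁ + γ • E₂) (h2 : φ E₂ = β • E₁ + δ • E₂) :
    (p : ℤ) ^ n ∣ (α + δ) - a ∧ (p : ℤ) ^ n ∣ (α * δ - β * γ) - ℓ := by
  have hpZ : Prime (p : ℤ) := Nat.prime_iff_prime_int.mp hp
  have hpn : p ^ n ≠ 0 := pow_ne_zero _ hp.ne_zero
  have hpr : p ^ r ≠ 0 := pow_ne_zero _ hp.ne_zero
  have hcast : ((p ^ (n + r) : ℕ) : ℤ) = (p : ℤ) ^ (n + r) := Nat.cast_pow p (n + r)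
  -- the relation on the frame
  have R1 : (α * α + β * γ - a * α + ℓ) • E₁ + (γ * α + δ * γ - a * γ) • E₂ = 0 := by
    have := hrel E₁
    rw [h1, map_add, map_zsmul, map_zsmul, h1, h2] at this
    rw [← this]
    module
  have R2 : (α * β + β * δ - a * β) • E₁ + (γ * β + δ * δ - a * δ + ℓ) • E₂ = 0 := by
    have := hrel E₂
    rw [h2, map_add, map_zsmul, map_zsmul, h1, h2] at this
    rw [← this]
    module
  obtain ⟨h11, h21⟩ := F.indep _ _ R1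
  obtain ⟨h12, h22⟩ := F.indep _ _ R2
  rw [hcast] at h11 h21 h12 h22
  refine etf_core hpZ n r α β γ δ a ℓ h11 h12 h21 h22 ?_
  -- `φ` would be scalar on `M[p^r]`
  rintro ⟨⟨β', hβ⟩, ⟨γ', hγ⟩, ⟨ε, hε⟩⟩
  obtain ⟨x, hx, hxne⟩ := hr α
  apply hxne
  have F' : EtfFrame M (p ^ r) (p ^ n • E₁) (p ^ n • E₂) :=
    EtfFrame.descend hpn hpr (by rw [← pow_add]; exact F)
  obtain ⟨u, v, huv⟩ := F'.span x hx
  have t1 : ((p : ℤ) ^ (n + r)) • E₁ = 0 := by rw [← hcast, natCast_zsmul]; exact F.tor₁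
  have t2 : ((p : ℤ) ^ (n + r)) • E₂ = 0 := by rw [← hcast, natCast_zsmul]; exact F.tor₂
  have hδ : δ = α - (p : ℤ) ^ r * ε := by rw [← hε]; ring
  have key : φ x - α • x
      = (v * β') • (((p : ℤ) ^ (n + r)) • E₁) + (u * γ' - v * ε) • (((p : ℤ) ^ (n + r)) • E₂) := by
    rw [huv, map_add, map_zsmul, map_zsmul, map_nsmul, map_nsmul, h1, h2, hβ, hγ, hδ,
      ← natCast_zsmul _ (p ^ n), ← natCast_zsmul _ (p ^ n), ← natCast_zsmul _ (p ^ n),
      ← natCast_zsmul _ (p ^ n), Nat.cast_pow, pow_add]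
    module
  rw [t1, t2, smul_zero, smul_zero, add_zero] at key
  exact sub_eq_zero.mp key

/-- **Integer form of (F2).**  `M[p^n]` has a frame in which the integer matrix of `φ` has
trace `≡ a` and determinant `≡ ℓ` modulo `p^n`. -/
theorem etf_exists_frame_matrix (p : ℕ) [Fact p.Prime] {ℓ : ℕ} (hℓ : ℓ.Prime) (hℓp : ℓ ≠ p)
    (φ : M →+ M) (a : ℤ)
    (hrel : ∀ P : M, φ (φ P) - a • φ P + (ℓ : ℤ) • P = 0)
    (hker : ∀ s : ℤ, ¬ (ℓ : ℤ) ∣ s →
      (Nat.card {P : M // φ P = s • P} : ℤ) = s ^ 2 - a * s + ℓ)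
    (hcard : ∀ j : ℕ, Nat.card {P : M // (p ^ j) • P = 0} = p ^ (2 * j)) (n : ℕ) :
    ∃ (e₁ e₂ : M) (α β γ δ : ℤ), EtfFrame M (p ^ n) e₁ e₂ ∧
      φ e₁ = α • e₁ + γ • e₂ ∧ φ e₂ = β • e₁ + δ • e₂ ∧
      (((α + δ : ℤ)) : ZMod (p ^ n)) = (a : ZMod (p ^ n)) ∧
      (((α * δ - β * γ : ℤ)) : ZMod (p ^ n)) = (ℓ : ZMod (p ^ n)) := by
  have hp : p.Prime := Fact.out
  have hpn : p ^ n ≠ 0 := pow_ne_zero _ hp.ne_zero
  obtain ⟨r, hr⟩ := etf_exists_nonscalar p hℓ hℓp φ a hker hcard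
  have hpr : p ^ r ≠ 0 := pow_ne_zero _ hp.ne_zero
  obtain ⟨E₁, E₂, F⟩ := etf_exists_frame (M := M) p (n + r) (fun j _ => hcard j)
  obtain ⟨α, β, γ, δ, h1, h2⟩ := F.exists_matrix φ
  obtain ⟨ht, hd⟩ := etf_matrix hp φ a ℓ hrel n r hr F h1 h2
  have F' : EtfFrame M (p ^ n) (p ^ r • E₁) (p ^ r • E₂) :=
    EtfFrame.descend hpr hpn (by rw [← pow_add, add_comm]; exact F)
  have h1' : φ (p ^ r • E₁) = α • (p ^ r • E₁) + γ • (p ^ r • E₂) := by
    rw [map_nsmul, h1, smul_add, smul_comm (p ^ r) α, smul_comm (p ^ r) γ]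
  have h2' : φ (p ^ r • E₂) = β • (p ^ r • E₁) + δ • (p ^ r • E₂) := by
    rw [map_nsmul, h2, smul_add, smul_comm (p ^ r) β, smul_comm (p ^ r) δ]
  refine ⟨_, _, α, β, γ, δ, F', h1', h2', ?_, ?_⟩
  · rw [ZMod.intCast_eq_intCast_iff_dvd_sub, Nat.cast_pow]
    have := (dvd_neg (a := (p : ℤ) ^ n)).mpr ht
    rwa [neg_sub] at this
  · rw [← Int.cast_natCast (R := ZMod (p ^ n)) ℓ, ZMod.intCast_eq_intCast_iff_dvd_sub,
      Nat.cast_pow]
    have := (dvd_neg (a := (p : ℤ) ^ n)).mpr hd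
    rwa [neg_sub] at this

/-- An injective additive map from a group with `q^2` elements into `M` with `q`-torsion image
is onto `M[q]`, when `#M[q] = q^2`. -/
theorem etf_range_of_card {q : ℕ} (hq : q ≠ 0) (hcard : Nat.card {P : M // q • P = 0} = q ^ 2)
    {T : Type*} [AddCommGroup T] (ι : T →+ M) (hι : Function.Injective ι)
    (hT : ∀ t : T, q • t = 0) (hcardT : Nat.card T = q ^ 2) :
    ∀ x : M, q • x = 0 → ∃ t : T, ι t = x := by
  have hfin : Finite {P : M // q • P = 0} :=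
    Nat.finite_of_card_ne_zero (by rw [hcard]; exact pow_ne_zero _ hq)
  let g : T → {P : M // q • P = 0} := fun t => ⟨ι t, by rw [← map_nsmul, hT, map_zero]⟩
  have hg : Function.Injective g := fun t t' h => hι (congrArg Subtype.val h)
  have hbij := hg.bijective_of_nat_card_le (by rw [hcard, hcardT])
  intro x hx
  obtain ⟨t, ht⟩ := hbij.2 ⟨x, hx⟩
  exact ⟨t, congrArg Subtype.val ht⟩

section Gen

variable (p : ℕ) [Fact p.Prime] {ℓ : ℕ} (hℓ : ℓ.Prime) (hℓp : ℓ ≠ p)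
  (φ : M →+ M) (a : ℤ)
  (hrel : ∀ P : M, φ (φ P) - a • φ P + (ℓ : ℤ) • P = 0)
  (hker : ∀ s : ℤ, ¬ (ℓ : ℤ) ∣ s →
    (Nat.card {P : M // φ P = s • P} : ℤ) = s ^ 2 - a * s + ℓ)
  (hcard : ∀ j : ℕ, Nat.card {P : M // (p ^ j) • P = 0} = p ^ (2 * j)) (n : ℕ)
  {T : Type*} [AddCommGroup T] [Module (ZMod (p ^ n)) T] (ι : T →+ M)
  (hι : Function.Injective ι) (hrange : ∀ x : M, (p ^ n) • x = 0 → ∃ t : T, ι t = x)
  (f : T →ₗ[ZMod (p ^ n)] T) (hf : ∀ t, ι (f t) = φ (ι t))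

include hℓ hℓp hrel hker hcard hι hrange hf

open Polynomial in
/-- **(F2), general form**: `T` any `ZMod (p^n)`-module identified with `M[p^n]` via an
injective additive map `ι`, `f` the `ZMod (p^n)`-linear map induced by `φ`. -/
theorem etf_charpoly_gen [Module.Free (ZMod (p ^ n)) T] [Module.Finite (ZMod (p ^ n)) T] :
    f.charpoly = X ^ 2 - C (a : ZMod (p ^ n)) * X + C (ℓ : ZMod (p ^ n)) := by
  obtain ⟨e₁, e₂, α, β, γ, δ, F, h1, h2, e1, e2⟩ :=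
    etf_exists_frame_matrix p hℓ hℓp φ a hrel hker hcard n
  rw [etf_charpoly_of_frame F ι hι hrange φ f hf h1 h2, e1, e2]

/-- **(F2), trace, general form.** -/
theorem etf_trace_gen : LinearMap.trace (ZMod (p ^ n)) T f = (a : ZMod (p ^ n)) := by
  obtain ⟨e₁, e₂, α, β, γ, δ, F, h1, h2, e1, e2⟩ :=
    etf_exists_frame_matrix p hℓ hℓp φ a hrel hker hcard n
  rw [etf_trace_of_frame F ι hι hrange φ f hf h1 h2, e1]

/-- **(F2), determinant, general form.** -/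
theorem etf_det_gen : LinearMap.det f = (ℓ : ZMod (p ^ n)) := by
  obtain ⟨e₁, e₂, α, β, γ, δ, F, h1, h2, e1, e2⟩ :=
    etf_exists_frame_matrix p hℓ hℓp φ a hrel hker hcard n
  rw [etf_det_of_frame F ι hι hrange φ f hf h1 h2, e2]

end Gen

theorem etf_torsionBy_range (p n : ℕ) (x : M) (hx : (p ^ n) • x = 0) :
    ∃ t : ↥(Submodule.torsionBy ℤ M ((p ^ n : ℕ) : ℤ)),
      (Submodule.torsionBy ℤ M ((p ^ n : ℕ) : ℤ)).subtype.toAddMonoidHom t = x := by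
  refine ⟨⟨x, ?_⟩, rfl⟩
  rw [Submodule.mem_torsionBy_iff, natCast_zsmul]
  exact hx

section Tors

variable (p : ℕ) [Fact p.Prime] {ℓ : ℕ} (hℓ : ℓ.Prime) (hℓp : ℓ ≠ p)
  (φ : M →+ M) (a : ℤ)
  (hrel : ∀ P : M, φ (φ P) - a • φ P + (ℓ : ℤ) • P = 0)
  (hker : ∀ s : ℤ, ¬ (ℓ : ℤ) ∣ s →
    (Nat.card {P : M // φ P = s • P} : ℤ) = s ^ 2 - a * s + ℓ)
  (hcard : ∀ j : ℕ, Nat.card {P : M // (p ^ j) • P = 0} = p ^ (2 * j)) (n : ℕ)
  [Module (ZMod (p ^ n)) ↥(Submodule.torsionBy ℤ M ((p ^ n : ℕ) : ℤ))]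
  (f : ↥(Submodule.torsionBy ℤ M ((p ^ n : ℕ) : ℤ)) →ₗ[ZMod (p ^ n)]
    ↥(Submodule.torsionBy ℤ M ((p ^ n : ℕ) : ℤ)))
  (hf : ∀ x, ((f x : ↥(Submodule.torsionBy ℤ M ((p ^ n : ℕ) : ℤ))) : M) = φ x)

include hℓ hℓp hrel hker hcard hf

open Polynomial in
/-- **(F2)** The characteristic polynomial of `φ` on `M[p^n]`, for ANY module instance over
`ZMod (p^n)` carried by `Submodule.torsionBy ℤ M (p^n)`. -/
theorem etf_charpoly [Module.Free (ZMod (p ^ n)) ↥(Submodule.torsionBy ℤ M ((p ^ n : ℕ) : ℤ))]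
    [Module.Finite (ZMod (p ^ n)) ↥(Submodule.torsionBy ℤ M ((p ^ n : ℕ) : ℤ))] :
    f.charpoly = X ^ 2 - C (a : ZMod (p ^ n)) * X + C (ℓ : ZMod (p ^ n)) :=
  etf_charpoly_gen p hℓ hℓp φ a hrel hker hcard n
    (Submodule.torsionBy ℤ M ((p ^ n : ℕ) : ℤ)).subtype.toAddMonoidHom Subtype.val_injective
    (etf_torsionBy_range p n) f hf

/-- **(F2)** The trace of `φ` on `M[p^n]`. -/
theorem etf_trace :
    LinearMap.trace (ZMod (p ^ n)) ↥(Submodule.torsionBy ℤ M ((p ^ n : ℕ) : ℤ)) f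
      = (a : ZMod (p ^ n)) :=
  etf_trace_gen p hℓ hℓp φ a hrel hker hcard n
    (Submodule.torsionBy ℤ M ((p ^ n : ℕ) : ℤ)).subtype.toAddMonoidHom Subtype.val_injective
    (etf_torsionBy_range p n) f hf

/-- **(F2)** The determinant of `φ` on `M[p^n]`. -/
theorem etf_det : LinearMap.det f = (ℓ : ZMod (p ^ n)) :=
  etf_det_gen p hℓ hℓp φ a hrel hker hcard n
    (Submodule.torsionBy ℤ M ((p ^ n : ℕ) : ℤ)).subtype.toAddMonoidHom Subtype.val_injective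
    (etf_torsionBy_range p n) f hf

end Tors

/-- The kernel count in the `toNat` form together with positivity gives the `ℤ`-form. -/
theorem etf_hker_of_toNat (φ : M →+ M) (a : ℤ) (ℓ : ℕ)
    (hker' : ∀ s : ℤ, ¬ (ℓ : ℤ) ∣ s →
      Nat.card {P : M // φ P = s • P} = (s ^ 2 - a * s + ℓ).toNat)
    (hpos : ∀ s : ℤ, ¬ (ℓ : ℤ) ∣ s → 0 ≤ s ^ 2 - a * s + ℓ) :
    ∀ s : ℤ, ¬ (ℓ : ℤ) ∣ s →
      (Nat.card {P : M // φ P = s • P} : ℤ) = s ^ 2 - a * s + ℓ := by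
  intro s hs
  rw [hker' s hs, Int.toNat_of_nonneg (hpos s hs)]

end Fermat.Agent.ET
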