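/-
ET-G5 (helper3): the Frobenius relation in characteristic `0`.

`W` a Weierstrass curve over `ℤ`, `ℓ` a prime of good reduction, `A` a valuation subring of `ℚ̄`
over `ℓ`, `σ` a Frobenius element at `A`.  On the prime-to-`ℓ` torsion of `E(ℚ̄)`,
`E = (W.map (Int.castRingHom ℚ))⁄ℚ̄`:  `σ² - a_ℓ σ + ℓ = 0`, `a_ℓ = W.apOfModel ℓ`.
-/
import Mathlib
import Fermat.Agent.Lib.ET.ReductionQ
import Fermat.Agent.Lib.ET.CharL
import Fermat.Agent.Lib.T1.Inst.ResAlgClosed

set_option autoImplicit false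
set_option linter.unusedSectionVars false
set_option linter.style.haveILetI false

open WeierstrassCurve WeierstrassCurve.Affine
open scoped WeierstrassCurve.Affine

noncomputable section

namespace Fermat.Agent.ET

local notation "Qb" => AlgebraicClosure ℚ

/-- **(ET), relation form**: a Frobenius element `σ` at a prime `ℓ` of good reduction satisfies
`σ² - a_ℓ σ + ℓ = 0` on the prime-to-`ℓ` torsion of `E(ℚ̄)`. -/
theorem et_main (W : WeierstrassCurve ℤ) {ℓ : ℕ} (hℓ : ℓ.Prime) (hΔ : ¬ (ℓ : ℤ) ∣ W.Δ)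
    (A : ValuationSubring Qb) (hA : A.LiesOverPrime ℓ) (σ : Qb ≃ₐ[ℚ] Qb)
    (hσ : A.IsFrobeniusAt σ ℓ) {n : ℕ} (hn : n.Coprime ℓ)
    (P : ((W.map (Int.castRingHom ℚ)).toAffine⁄Qb).Point) (hP : n • P = 0) :
    σ • (σ • P) - W.apOfModel ℓ • (σ • P) + (ℓ : ℤ) • P = 0 := by
  classical
  haveI : Fact ℓ.Prime := ⟨hℓ⟩
  haveI : CharP (IsLocalRing.ResidueField ↥A) ℓ := etg_charP A hA
  letI : Algebra (ZMod ℓ) (IsLocalRing.ResidueField ↥A) := ZMod.algebra _ ℓ
  haveI : IsAlgClosed (IsLocalRing.ResidueField ↥A) :=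
    Fermat.Agent.T1.tb_isAlgClosed_residueField A
  haveI : (W.reductionMod ℓ).IsElliptic := etg_reductionMod_isElliptic W hΔ
  have hmem : P ∈ Submodule.torsionBy ℤ ((W.map (Int.castRingHom ℚ)).toAffine⁄Qb).Point (n : ℤ) := by
    rw [Submodule.mem_torsionBy_iff, natCast_zsmul]
    exact hP
  set P' : ↥(Submodule.torsionBy ℤ ((W.map (Int.castRingHom ℚ)).toAffine⁄Qb).Point (n : ℤ)) :=
    ⟨P, hmem⟩ with hP'
  have key : σ • (σ • P') - W.apOfModel ℓ • (σ • P') + (ℓ : ℤ) • P' = 0 := by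
    apply etgRedQ_injective W A hΔ hA hn
    rw [map_zero, map_add, map_sub, map_zsmul, map_zsmul, etgRedQ_frob W A hΔ hA hn σ hσ,
      etgRedQ_frob W A hΔ hA hn σ hσ, ← etA_reductionMod]
    exact ete_rel (W.reductionMod ℓ) (IsLocalRing.ResidueField ↥A) _
  have := congrArg Subtype.val key
  exact this

end Fermat.Agent.ET
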