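/-
ET-P (helper2): **the places of a function field `F / k` (`k` algebraically closed) as an `EtbPl`**
(lead's interface of `Lib/ET/Height.lean`), abstractly in the function field.

* `etpPl hx : EtbPl R₀ F (Place k F)` (`A v = v.toValuationSubring`, `ord v = v.ord`);
* `etp_ord_algebraMap` : constants have order `0`;
* `etp_sum_poles` : `∑ᶠ v, max 0 (-(v.ord f)) = [F : k(f)]` for a separating nonconstant `f`
  (`etp_sum_poles_of_D_ne_zero` : with the hypothesis `df ≠ 0`);
* `etp_etbH_const` : the height of a point with constant `x`-coordinate is `0`.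
-/
import Fermat.Agent.Lib.ET.Height
import Fermat.Agent.Lib.CurveP.Insep

set_option autoImplicit false
set_option linter.unusedSectionVars false
set_option linter.unusedVariables false
set_option linter.style.haveILetI false

open WeierstrassCurve WeierstrassCurve.Affine AlgebraicCurve IntermediateField
open scoped WeierstrassCurve.Affine

noncomputable section

namespace Fermat.Agent.ET

open Fermat.Agent.Curve Fermat.Agent.CurveP Fermat.Agent.Curve.PlaceAux

variable {R₀ k F : Type*} [CommRing R₀] [Field k] [IsAlgClosed k] [Field F] [Algebra k F]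
  [Algebra R₀ k] [Algebra R₀ F] [IsScalarTower R₀ k F] {x : F}
  (hx : IsFunctionFieldGen k F x) [Algebra.IsSeparable k⟮x⟯ F]

include hx in
/-- the divisor of a nonzero function has finite support -/
theorem etp_finite_support {f : F} (hf : f ≠ 0) :
    (Function.support fun v : Place k F => v.ord f).Finite := by
  haveI := hasPrincipalDivisors hx
  obtain ⟨D, hD, -⟩ := HasPrincipalDivisors.exists_divisor (K := k) f hf
  have h : (fun v : Place k F => v.ord f) = fun v => D v := funext fun v => (hD v).symm
  rw [h, Finsupp.fun_support_eq]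
  exact D.support.finite_toSet

include hx in
/-- **the product formula** -/
theorem etp_sum_ord {f : F} (hf : f ≠ 0) : ∑ᶠ v : Place k F, v.ord f = 0 := by
  haveI := hasPrincipalDivisors hx
  obtain ⟨D, hD, hdeg⟩ := HasPrincipalDivisors.exists_divisor (K := k) f hf
  rw [degree_eq_finsum hx] at hdeg
  rw [← hdeg]
  exact finsum_congr fun v => (hD v).symm

/-- **the places of `F / k` as a family of places with the product formula** -/
def etpPl : EtbPl R₀ F (Place k F) where
  A v := v.toValuationSubring
  ord v := v.ord
  ord_zero v := v.ord_zero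
  ord_mul v _ _ hf hg := v.ord_mul hf hg
  mem_iff v f hf := ⟨fun h => ord_nonneg_of_mem v h, fun h => mem_of_ord_nonneg v h⟩
  const_mem v c := by
    rw [IsScalarTower.algebraMap_apply R₀ k F]
    exact v.algebraMap_mem' _
  finite hf := etp_finite_support hx hf
  sum_zero hf := etp_sum_ord hx hf

@[simp] theorem etpPl_ord (v : Place k F) (f : F) :
    (etpPl (R₀ := R₀) hx).ord v f = v.ord f := rfl

@[simp] theorem etpPl_A (v : Place k F) :
    (etpPl (R₀ := R₀) hx).A v = v.toValuationSubring := rfl

omit [IsAlgClosed k] in
/-- constants have order `0` -/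
theorem etp_ord_algebraMap (v : Place k F) (c : k) : v.ord (algebraMap k F c) = 0 :=
  ord_algebraMap v c

include hx in
/-- `F` is finite over `k(f)` for every nonconstant `f` -/
theorem etp_finiteDimensional {f : F} (hf : f ∉ Set.range (algebraMap k F)) :
    FiniteDimensional ↥k⟮f⟯ F :=
  (isFunctionFieldGen_of_notMem_range hx hf).finite

/-- the pole sum as an unrestricted `finsum` -/
theorem etp_finsum_poles_eq (f : F) :
    ∑ᶠ v : Place k F, max 0 (-(v.ord f)) = ∑ᶠ v ∈ {v : Place k F | v.ord f < 0}, -(v.ord f) := by
  classical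
  rw [finsum_mem_def]
  refine finsum_congr fun v => ?_
  rw [Set.indicator_apply]
  by_cases h : v ∈ {v : Place k F | v.ord f < 0}
  · rw [if_pos h]
    have h' : v.ord f < 0 := h
    exact max_eq_right (by omega)
  · rw [if_neg h]
    have h' : ¬ v.ord f < 0 := h
    exact max_eq_left (by omega)

include hx in
/-- **the number of poles of a separating nonconstant function `f` is `[F : k(f)]`** -/
theorem etp_sum_poles {f : F} (hf : f ∉ Set.range (algebraMap k F))
    [Algebra.IsSeparable k⟮f⟯ F] :
    ∑ᶠ v : Place k F, max 0 (-(v.ord f)) = Module.finrank k⟮f⟯ F := by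
  rw [etp_finsum_poles_eq]
  exact sum_ord_poles (isFunctionFieldGen_of_notMem_range hx hf)

include hx in
/-- the same with the hypothesis `df ≠ 0` -/
theorem etp_sum_poles_of_D_ne_zero {f : F} (hD : KaehlerDifferential.D k F f ≠ 0) :
    ∑ᶠ v : Place k F, max 0 (-(v.ord f)) = Module.finrank k⟮f⟯ F := by
  haveI := isSeparable_of_D_ne_zero hx hD
  have hf : f ∉ Set.range (algebraMap k F) := by
    rintro ⟨c, rfl⟩
    exact hD (Derivation.map_algebraMap _ c)
  exact etp_sum_poles hx hf

section Const

variable [DecidableEq F] (W : WeierstrassCurve R₀)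

/-- **the height of a point with constant `x`-coordinate is `0`** -/
theorem etp_etbH_const {xP yP : F} (h : (W⁄F).Nonsingular xP yP)
    (hxP : xP ∈ Set.range (algebraMap k F)) :
    etbH (etpPl hx) W (.some xP yP h) = 0 := by
  obtain ⟨c, rfl⟩ := hxP
  rw [etbH_some]
  have h0 : ∀ v : Place k F, max 0 (-((etpPl (R₀ := R₀) hx).ord v (algebraMap k F c))) = 0 := by
    intro v
    rw [etpPl_ord, etp_ord_algebraMap, neg_zero, max_self]
  simp only [h0]
  exact finsum_zero

end Const

end Fermat.Agent.ET
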