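/-
ET-P3 (helper2): **the pole formula for ALL nonconstant functions** of a function field `F / k`
(`k` algebraically closed, `x` a separating generator):
`∑ᶠ v, max 0 (-(v.ord f)) = [F : k(f)]` (`etp_sum_poles_all`).

* `etp_finrank_adjoin_pow` : `[F : k(g^n)] = n · [F : k(g)]` for `g` transcendental over `k`
  (Mathlib's `RatFunc.finrank_eq_max_natDegree`, transported along `X ↦ g`);
* `etp_sum_poles_pow` : the pole sum of `g ^ n` is `n` times the pole sum of `g`;
* `etp_sum_poles_all` : every nonconstant `f` is `g ^ n` with `g` separating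
  (`CurveP.exists_isSeparable_pow_eq`).
-/
import Fermat.Agent.Lib.ET.Places

set_option autoImplicit false
set_option linter.unusedSectionVars false
set_option linter.unusedVariables false
set_option linter.style.haveILetI false

open AlgebraicCurve IntermediateField

noncomputable section

namespace Fermat.Agent.ET

open Fermat.Agent.Curve Fermat.Agent.CurveP Fermat.Agent.Curve.PlaceAux

section Degree

variable {k F : Type*} [Field k] [Field F] [Algebra k F]

/-- `[k(X) : k(X^n)] = n` in the rational function field -/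
theorem etp_finrank_ratFunc_pow {n : ℕ} (hn : 0 < n) :
    Module.finrank ↥k⟮(RatFunc.X : RatFunc k) ^ n⟯ (RatFunc k) = n := by
  have h1 : (RatFunc.X : RatFunc k) ^ n =
      algebraMap (Polynomial k) (RatFunc k) (Polynomial.X ^ n) := by
    rw [map_pow, RatFunc.algebraMap_X]
  rw [RatFunc.finrank_eq_max_natDegree, h1, RatFunc.num_algebraMap, RatFunc.denom_algebraMap,
    Polynomial.natDegree_X_pow, Polynomial.natDegree_one]
  exact max_eq_left (Nat.zero_le n)

/-- **`[F : k(g^n)] = n · [F : k(g)]`** for `g` transcendental over `k` -/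
theorem etp_finrank_adjoin_pow {g : F} (hg : Transcendental k g) {n : ℕ} (hn : 0 < n) :
    Module.finrank ↥k⟮g ^ n⟯ F = n * Module.finrank ↥k⟮g⟯ F := by
  let ψ : RatFunc k →ₐ[k] F :=
    (IntermediateField.val k⟮g⟯).comp (RatFunc.algEquivOfTranscendental g hg).toAlgHom
  have hψX : ψ RatFunc.X = g := RatFunc.algEquivOfTranscendental_X g hg
  have h1 : (k⟮(RatFunc.X : RatFunc k) ^ n⟯).map ψ = k⟮g ^ n⟯ := by
    rw [IntermediateField.adjoin_map, Set.image_singleton, map_pow, hψX]
  have h2 : (⊤ : IntermediateField k (RatFunc k)).map ψ = k⟮g⟯ := by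
    rw [← RatFunc.adjoin_X, IntermediateField.adjoin_map, Set.image_singleton, hψX]
  have hle : k⟮g ^ n⟯ ≤ k⟮g⟯ := by
    rw [adjoin_simple_le_iff]
    exact pow_mem (mem_adjoin_simple_self k g) n
  have e1 : relfinrank k⟮g ^ n⟯ k⟮g⟯ = n := by
    rw [← h1, ← h2, relfinrank_map_map, relfinrank_top_right]
    exact etp_finrank_ratFunc_pow hn
  have e2 := relfinrank_mul_relfinrank hle (le_top : k⟮g⟯ ≤ ⊤)
  rw [relfinrank_top_right, relfinrank_top_right, e1] at e2
  exact e2.symm

end Degree

variable {k F : Type*} [Field k] [IsAlgClosed k] [Field F] [Algebra k F] {x : F}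
  (hx : IsFunctionFieldGen k F x) [Algebra.IsSeparable k⟮x⟯ F]

omit [IsAlgClosed k] in
/-- the pole sum of `g ^ n` -/
theorem etp_sum_poles_pow (g : F) (n : ℕ) :
    ∑ᶠ v : Place k F, max 0 (-(v.ord (g ^ n))) = n * ∑ᶠ v : Place k F, max 0 (-(v.ord g)) := by
  rw [mul_finsum]
  refine finsum_congr fun v => ?_
  rw [← zpow_natCast, v.ord_zpow, ← mul_neg, mul_max_of_nonneg _ _ (Int.natCast_nonneg n),
    mul_zero]

include hx in
/-- **the number of poles of ANY nonconstant function `f` is `[F : k(f)]`** -/
theorem etp_sum_poles_all {f : F} (hf : f ∉ Set.range (algebraMap k F)) :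
    ∑ᶠ v : Place k F, max 0 (-(v.ord f)) = Module.finrank ↥k⟮f⟯ F := by
  obtain ⟨g, n, hn, rfl, hg, hgsep⟩ := exists_isSeparable_pow_eq hx hf
  haveI := hgsep
  rw [etp_sum_poles_pow, etp_sum_poles hx hg,
    etp_finrank_adjoin_pow (isFunctionFieldGen_of_notMem_range hx hg).transcendental hn]
  push_cast
  ring

end Fermat.Agent.ET
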