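/-
ET / S58-L (helper6): the close lemma at a point with nonsingular reduction.

`A` a valuation subring of `K`, `W` a Weierstrass curve over `K` with integral coefficients
(NO assumption on the reduction of the curve).  If `P₁`, `Q` are integral points with
`P̄₁ = -Q̄`, the reduced point `P̄₁` is a NONSINGULAR point of the reduced cubic and `P₁ ≠ -Q`,
then `x(P₁ + Q) ∉ A`.  Hence two torsion points of unit order which are congruent at a point
with nonsingular reduction are equal.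
-/
import Mathlib
import Fermat.Agent.Lib.ET.RedKernel

set_option autoImplicit false

open WeierstrassCurve WeierstrassCurve.Affine

namespace Fermat.Agent.ET

variable {K : Type*} [Field K] {A : ValuationSubring K} {W : WeierstrassCurve K}

/-- a quotient `unit / non-unit` is not integral -/
theorem etgc_div_notMem {N d : K} (hN : A.valuation N = 1) (hd : A.valuation d < 1)
    (hd0 : d ≠ 0) : N / d ∉ A := by
  intro h
  have h1 : A.valuation (N / d) ≤ 1 := (A.valuation_le_one_iff _).mpr h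
  rw [map_div₀, hN] at h1
  have hpos : 0 < A.valuation d := (A.valuation.pos_iff).mpr hd0
  have h2 : 1 ≤ A.valuation d := by
    rw [div_le_iff₀ hpos, one_mul] at h1
    exact h1
  exact absurd hd (not_lt.mpr h2)

/-- if the slope is not integral, neither is the `x`-coordinate of the sum -/
theorem etgc_addX_notMem (h₁ : W.a₁ ∈ A) (h₂ : W.a₂ ∈ A) {x₁ x₂ L : K} (hx₁ : x₁ ∈ A)
    (hx₂ : x₂ ∈ A) (hL : L ∉ A) : W.toAffine.addX x₁ x₂ L ∉ A := by
  intro h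
  have hL1 : 1 < A.valuation L := by
    have : ¬ A.valuation L ≤ 1 := fun h' => hL ((A.valuation_le_one_iff L).mp h')
    exact not_le.mp this
  have e : L * (L + W.a₁) = W.toAffine.addX x₁ x₂ L + W.a₂ + x₁ + x₂ := by
    simp only [Affine.addX]; ring
  have hmem : L * (L + W.a₁) ∈ A := by
    rw [e]; exact add_mem (add_mem (add_mem h h₂) hx₁) hx₂
  have hv : A.valuation (L + W.a₁) = A.valuation L :=
    A.valuation.map_add_eq_of_lt_left
      (lt_of_le_of_lt ((A.valuation_le_one_iff _).mpr h₁) hL1)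
  have h1 : A.valuation (L * (L + W.a₁)) ≤ 1 := (A.valuation_le_one_iff _).mpr hmem
  rw [map_mul, hv] at h1
  have hpos : 0 < A.valuation L := lt_trans zero_lt_one hL1
  have h2 : A.valuation L * 1 < A.valuation L * A.valuation L :=
    mul_lt_mul_of_pos_left hL1 hpos
  rw [mul_one] at h2
  exact absurd (lt_trans hL1 h2) (not_lt.mpr h1)

variable [DecidableEq K]

/-- **The close lemma, addition form.**  `P₁ = (x₁, y₁)` and `Q = (x₂, y₂)` integral with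
`P̄₁ = -Q̄`, `P̄₁` a nonsingular point of the reduced cubic, `P₁ ≠ -Q`.  Then `P₁ + Q` is an
affine point with non-integral `x`-coordinate. -/
theorem etgc_add_notMem (ha₁ : W.a₁ ∈ A) (ha₂ : W.a₂ ∈ A)
    {x₁ y₁ x₂ y₂ : K}
    (h₁ : W.toAffine.Nonsingular x₁ y₁) (h₂ : W.toAffine.Nonsingular x₂ y₂)
    (hx₁ : x₁ ∈ A) (hx₂ : x₂ ∈ A)
    (hx : A.valuation (x₁ - x₂) < 1) (hy : A.valuation (y₁ - W.toAffine.negY x₂ y₂) < 1)
    (hns : A.valuation (2 * y₁ + W.a₁ * x₁ + W.a₃) = 1 ∨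
      A.valuation (3 * x₁ ^ 2 + 2 * W.a₂ * x₁ + W.a₄ - W.a₁ * y₁) = 1)
    (hne : ¬ (x₁ = x₂ ∧ y₁ = W.toAffine.negY x₂ y₂)) :
    ∃ (x₃ y₃ : K) (h₃ : W.toAffine.Nonsingular x₃ y₃),
      Affine.Point.some x₁ y₁ h₁ + Affine.Point.some x₂ y₂ h₂ = Affine.Point.some x₃ y₃ h₃ ∧
        x₃ ∉ A := by
  refine ⟨_, _, _, Affine.Point.add_some hne, ?_⟩
  refine etgc_addX_notMem ha₁ ha₂ hx₁ hx₂ ?_
  -- the slope is not integral
  have hδ : y₁ - W.toAffine.negY x₂ y₂ = y₁ + y₂ + W.a₁ * x₂ + W.a₃ := by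
    simp only [Affine.negY]; ring
  have h2A : (2 : K) ∈ A := ofNat_mem A 2
  by_cases hxx : x₁ = x₂
  · -- tangent case
    have hyne : y₁ ≠ W.toAffine.negY x₂ y₂ := fun h => hne ⟨hxx, h⟩
    have hyy : y₁ = y₂ := Affine.Y_eq_of_Y_ne h₁.1 h₂.1 hxx hyne
    subst hxx
    subst hyy
    rw [Affine.slope_of_Y_ne rfl hyne]
    have hψ : y₁ - W.toAffine.negY x₁ y₁ = 2 * y₁ + W.a₁ * x₁ + W.a₃ := by
      rw [hδ]; ring
    have hψ0 : y₁ - W.toAffine.negY x₁ y₁ ≠ 0 := sub_ne_zero.mpr hyne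
    have hω : A.valuation (3 * x₁ ^ 2 + 2 * W.a₂ * x₁ + W.a₄ - W.a₁ * y₁) = 1 := by
      rcases hns with h | h
      · rw [hψ, h] at hy
        exact absurd hy (lt_irrefl _)
      · exact h
    exact etgc_div_notMem hω hy hψ0
  · -- chord case
    rw [Affine.slope_of_X_ne hxx]
    have hd0 : x₁ - x₂ ≠ 0 := sub_ne_zero.mpr hxx
    -- `y₁ - y₂ ≡ ψ₂(P₁)` modulo the maximal ideal
    have hcong : A.valuation ((y₁ - y₂) - (2 * y₁ + W.a₁ * x₁ + W.a₃)) < 1 := by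
      have e : (y₁ - y₂) - (2 * y₁ + W.a₁ * x₁ + W.a₃)
          = -(y₁ - W.toAffine.negY x₂ y₂) + (-W.a₁) * (x₁ - x₂) := by
        rw [hδ]; ring
      rw [e]
      refine A.valuation.map_add_lt ?_ (etg_mul_lt (neg_mem ha₁) hx)
      rw [Valuation.map_neg]
      exact hy
    rcases hns with hψ | hω
    · -- `ψ₂` a unit: the numerator is a unit
      have hν : A.valuation (y₁ - y₂) = 1 := by
        have e : y₁ - y₂ = (2 * y₁ + W.a₁ * x₁ + W.a₃)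
            + ((y₁ - y₂) - (2 * y₁ + W.a₁ * x₁ + W.a₃)) := by ring
        rw [e, A.valuation.map_add_eq_of_lt_left (by rw [hψ]; exact hcong), hψ]
      exact etgc_div_notMem hν hx hd0
    · -- `W_x` a unit: switch to the other slope formula
      have e₁ := (Affine.equation_iff _ _).mp h₁.1
      have e₂ := (Affine.equation_iff _ _).mp h₂.1
      have hid : (y₁ - y₂) * (y₁ - W.toAffine.negY x₂ y₂) = (x₁ - x₂) *
          (x₁ ^ 2 + x₁ * x₂ + x₂ ^ 2 + W.a₂ * (x₁ + x₂) + W.a₄ - W.a₁ * y₁) := by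
        rw [hδ]
        linear_combination e₁ - e₂
      have hN : A.valuation
          (x₁ ^ 2 + x₁ * x₂ + x₂ ^ 2 + W.a₂ * (x₁ + x₂) + W.a₄ - W.a₁ * y₁) = 1 := by
        have e : x₁ ^ 2 + x₁ * x₂ + x₂ ^ 2 + W.a₂ * (x₁ + x₂) + W.a₄ - W.a₁ * y₁
            = (3 * x₁ ^ 2 + 2 * W.a₂ * x₁ + W.a₄ - W.a₁ * y₁)
              + (-(2 * x₁ + x₂ + W.a₂)) * (x₁ - x₂) := by ring
        rw [e, A.valuation.map_add_eq_of_lt_left, hω]
        rw [hω]
        refine etg_mul_lt (neg_mem ?_) hx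
        exact add_mem (add_mem (mul_mem h2A hx₁) hx₂) ha₂
      have hδ0 : y₁ - W.toAffine.negY x₂ y₂ ≠ 0 := by
        intro h0
        rw [h0, mul_zero] at hid
        have hN0 : x₁ ^ 2 + x₁ * x₂ + x₂ ^ 2 + W.a₂ * (x₁ + x₂) + W.a₄ - W.a₁ * y₁ ≠ 0 := by
          intro h00
          rw [h00, map_zero] at hN
          exact zero_ne_one hN
        rcases mul_eq_zero.mp hid.symm with h | h
        · exact hd0 h
        · exact hN0 h
      have hL : (y₁ - y₂) / (x₁ - x₂)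
          = (x₁ ^ 2 + x₁ * x₂ + x₂ ^ 2 + W.a₂ * (x₁ + x₂) + W.a₄ - W.a₁ * y₁)
            / (y₁ - W.toAffine.negY x₂ y₂) := by
        rw [div_eq_div_iff hd0 hδ0]
        linear_combination hid
      rw [hL]
      exact etgc_div_notMem hN hy hδ0


/-- **The close lemma, subtraction form.**  `P₁`, `P₂` integral, congruent modulo the maximal
ideal, `P̄₁` a nonsingular point of the reduced cubic, `P₁ ≠ P₂`.  Then `P₁ - P₂` is an affine
point with non-integral `x`-coordinate. -/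
theorem etgc_sub_notMem (ha₁ : W.a₁ ∈ A) (ha₂ : W.a₂ ∈ A)
    {x₁ y₁ x₂ y₂ : K}
    (h₁ : W.toAffine.Nonsingular x₁ y₁) (h₂ : W.toAffine.Nonsingular x₂ y₂)
    (hx₁ : x₁ ∈ A) (hx₂ : x₂ ∈ A)
    (hx : A.valuation (x₁ - x₂) < 1) (hy : A.valuation (y₁ - y₂) < 1)
    (hns : A.valuation (2 * y₁ + W.a₁ * x₁ + W.a₃) = 1 ∨
      A.valuation (3 * x₁ ^ 2 + 2 * W.a₂ * x₁ + W.a₄ - W.a₁ * y₁) = 1)
    (hne : ¬ (x₁ = x₂ ∧ y₁ = y₂)) :
    ∃ (x₃ y₃ : K) (h₃ : W.toAffine.Nonsingular x₃ y₃),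
      Affine.Point.some x₁ y₁ h₁ - Affine.Point.some x₂ y₂ h₂ = Affine.Point.some x₃ y₃ h₃ ∧
        x₃ ∉ A := by
  rw [sub_eq_add_neg, Affine.Point.neg_some]
  refine etgc_add_notMem ha₁ ha₂ h₁ _ hx₁ hx₂ hx ?_ hns ?_
  · rw [Affine.negY_negY]; exact hy
  · rw [Affine.negY_negY]; exact hne

variable [W.IsElliptic]

/-- **The close lemma.**  Two torsion points of unit order with integral coordinates which are
congruent modulo the maximal ideal at a point with nonsingular reduction are equal. -/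
theorem etgc_close (ha₁ : W.a₁ ∈ A) (ha₂ : W.a₂ ∈ A) (ha₃ : W.a₃ ∈ A) (ha₄ : W.a₄ ∈ A)
    (ha₆ : W.a₆ ∈ A) {n : ℕ} (hn : A.valuation (n : K) = 1) {x₁ y₁ x₂ y₂ : K}
    (h₁ : W.toAffine.Nonsingular x₁ y₁) (h₂ : W.toAffine.Nonsingular x₂ y₂)
    (hx₁ : x₁ ∈ A) (hx₂ : x₂ ∈ A)
    (hx : A.valuation (x₁ - x₂) < 1) (hy : A.valuation (y₁ - y₂) < 1)
    (hns : A.valuation (2 * y₁ + W.a₁ * x₁ + W.a₃) = 1 ∨
      A.valuation (3 * x₁ ^ 2 + 2 * W.a₂ * x₁ + W.a₄ - W.a₁ * y₁) = 1)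
    (hP : n • Affine.Point.some x₁ y₁ h₁ = 0) (hQ : n • Affine.Point.some x₂ y₂ h₂ = 0) :
    x₁ = x₂ ∧ y₁ = y₂ := by
  by_contra hne
  obtain ⟨x₃, y₃, h₃, hsub, hx₃⟩ := etgc_sub_notMem ha₁ ha₂ h₁ h₂ hx₁ hx₂ hx hy hns hne
  have htor : n • (Affine.Point.some x₁ y₁ h₁ - Affine.Point.some x₂ y₂ h₂) = 0 := by
    rw [smul_sub, hP, hQ, sub_zero]
  rw [hsub] at htor
  have := etg_no_torsion (EtgInt.of_a ha₁ ha₂ ha₃ ha₄ ha₆) hn
    (P := Affine.Point.some x₃ y₃ h₃) hx₃ htor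
  exact Affine.Point.some_ne_zero h₃ this

/-- the close lemma as an equality of points -/
theorem etgc_close_pt (ha₁ : W.a₁ ∈ A) (ha₂ : W.a₂ ∈ A) (ha₃ : W.a₃ ∈ A) (ha₄ : W.a₄ ∈ A)
    (ha₆ : W.a₆ ∈ A) {n : ℕ} (hn : A.valuation (n : K) = 1) {x₁ y₁ x₂ y₂ : K}
    (h₁ : W.toAffine.Nonsingular x₁ y₁) (h₂ : W.toAffine.Nonsingular x₂ y₂)
    (hx₁ : x₁ ∈ A) (hx₂ : x₂ ∈ A)
    (hx : A.valuation (x₁ - x₂) < 1) (hy : A.valuation (y₁ - y₂) < 1)
    (hns : A.valuation (2 * y₁ + W.a₁ * x₁ + W.a₃) = 1 ∨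
      A.valuation (3 * x₁ ^ 2 + 2 * W.a₂ * x₁ + W.a₄ - W.a₁ * y₁) = 1)
    (hP : n • Affine.Point.some x₁ y₁ h₁ = 0) (hQ : n • Affine.Point.some x₂ y₂ h₂ = 0) :
    Affine.Point.some x₁ y₁ h₁ = Affine.Point.some x₂ y₂ h₂ := by
  obtain ⟨rfl, rfl⟩ := etgc_close ha₁ ha₂ ha₃ ha₄ ha₆ hn h₁ h₂ hx₁ hx₂ hx hy hns hP hQ
  rfl

end Fermat.Agent.ET
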